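import Mathlib

/-!
# S05 helpers: symmetric `x`-coordinate formulas for the group law

For a Weierstrass curve `W` over a field `F` and two affine points `P₁ = (x₁, y₁)`,
`P₂ = (x₂, y₂)` with `x₁ ≠ x₂` we prove the classical formulas for the product and the sum of
`x(P₁ + P₂)` and `x(P₁ - P₂)`, the duplication formula, and the slope formula for `x(P₁ - P₂)`.
Everything is pure algebra (no valuations).
-/

set_option autoImplicit false

open WeierstrassCurve WeierstrassCurve.Affine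

namespace Fermat.Agent.S05.PairFormulas

variable {F : Type*} [Field F] {W : Affine F}

/-- `x`-coordinate of a point (`0` at infinity). -/
def xc : W.Point → F
  | .zero => 0
  | .some x _ _ => x

/-- `y`-coordinate of a point (`0` at infinity). -/
def yc : W.Point → F
  | .zero => 0
  | .some _ y _ => y

@[simp] lemma xc_zero : xc (0 : W.Point) = 0 := rfl
@[simp] lemma yc_zero : yc (0 : W.Point) = 0 := rfl
@[simp] lemma xc_some {x y : F} (h : W.Nonsingular x y) : xc (Point.some x y h) = x := rfl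
@[simp] lemma yc_some {x y : F} (h : W.Nonsingular x y) : yc (Point.some x y h) = y := rfl

lemma xc_neg (P : W.Point) : xc (-P) = xc P := by
  cases P <;> rfl

/-- `Ψ₂² = 4x³ + b₂x² + 2b₄x + b₆`. -/
def psi2sq (W : Affine F) (x : F) : F := 4 * x ^ 3 + W.b₂ * x ^ 2 + 2 * W.b₄ * x + W.b₆

/-- `Φ₂ = x⁴ - b₄x² - 2b₆x - b₈`. -/
def phi2 (W : Affine F) (x : F) : F := x ^ 4 - W.b₄ * x ^ 2 - 2 * W.b₆ * x - W.b₈

/-- numerator of `x(P₁+P₂) * x(P₁-P₂)`. -/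
def pairProd (W : Affine F) (x₁ x₂ : F) : F :=
  x₁ ^ 2 * x₂ ^ 2 - W.b₄ * x₁ * x₂ - W.b₆ * (x₁ + x₂) - W.b₈

/-- numerator of `x(P₁+P₂) + x(P₁-P₂)`. -/
def pairSum (W : Affine F) (x₁ x₂ : F) : F :=
  2 * x₁ * x₂ * (x₁ + x₂) + W.b₂ * x₁ * x₂ + W.b₄ * (x₁ + x₂) + W.b₆

lemma pairProd_self (x : F) : pairProd W x x = phi2 W x := by
  simp only [pairProd, phi2]; ring

lemma pairSum_self (x : F) : pairSum W x x = psi2sq W x := by
  simp only [pairSum, psi2sq]; ring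

lemma psi2sq_eq {x y : F} (h : W.Equation x y) :
    psi2sq W x = (2 * y + W.a₁ * x + W.a₃) ^ 2 := by
  rw [equation_iff] at h
  simp only [psi2sq, WeierstrassCurve.b₂, WeierstrassCurve.b₄, WeierstrassCurve.b₆]
  linear_combination (-4 : F) * h

lemma psi2sq_eq' {x y : F} (h : W.Equation x y) :
    psi2sq W x = (y - W.negY x y) ^ 2 := by
  rw [psi2sq_eq h, negY]; ring

lemma psi2sq_ne_zero_iff {x y : F} (h : W.Equation x y) : psi2sq W x ≠ 0 ↔ y ≠ W.negY x y := by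
  rw [psi2sq_eq' h, ne_eq, ne_eq, sq_eq_zero_iff, sub_eq_zero]

variable [DecidableEq F]

/-- **Pair formulas.** For `x₁ ≠ x₂` the points `P₁ ± P₂` are affine, and the symmetric functions
of their `x`-coordinates are given by `pairProd`, `pairSum`. Moreover `x(P₁ - P₂)` is given by the
secant slope through `P₁` and `-P₂`. -/
theorem add_sub_some {x₁ y₁ x₂ y₂ : F} (h₁ : W.Nonsingular x₁ y₁) (h₂ : W.Nonsingular x₂ y₂)
    (hx : x₁ ≠ x₂) :
    ∃ (xp yp xm ym : F) (hp : W.Nonsingular xp yp) (hm : W.Nonsingular xm ym),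
      Point.some x₁ y₁ h₁ + Point.some x₂ y₂ h₂ = Point.some xp yp hp ∧
      Point.some x₁ y₁ h₁ - Point.some x₂ y₂ h₂ = Point.some xm ym hm ∧
      xp * xm * (x₁ - x₂) ^ 2 = pairProd W x₁ x₂ ∧
      (xp + xm) * (x₁ - x₂) ^ 2 = pairSum W x₁ x₂ ∧
      xp = ((y₁ - y₂) / (x₁ - x₂)) ^ 2 + W.a₁ * ((y₁ - y₂) / (x₁ - x₂)) - W.a₂ - x₁ - x₂ ∧
      xm = ((y₁ - W.negY x₂ y₂) / (x₁ - x₂)) ^ 2 + W.a₁ * ((y₁ - W.negY x₂ y₂) / (x₁ - x₂))
        - W.a₂ - x₁ - x₂ := by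
  have h₂' : W.Nonsingular x₂ (W.negY x₂ y₂) := (nonsingular_neg x₂ y₂).mpr h₂
  have hd : x₁ - x₂ ≠ 0 := sub_ne_zero.mpr hx
  have e₁ := (equation_iff x₁ y₁).mp h₁.1
  have e₂ := (equation_iff x₂ y₂).mp h₂.1
  refine ⟨_, _, _, _, nonsingular_add h₁ h₂ fun hxy => hx hxy.left,
    nonsingular_add h₁ h₂' fun hxy => hx hxy.left, Point.add_of_X_ne hx, ?_, ?_, ?_, ?_, ?_⟩
  · rw [sub_eq_add_neg, Point.neg_some, Point.add_of_X_ne hx]
  · rw [slope_of_X_ne hx, slope_of_X_ne hx]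
    simp only [addX, pairProd, negY, WeierstrassCurve.b₄,
      WeierstrassCurve.b₆, WeierstrassCurve.b₈]
    field_simp
    linear_combination
      (W.a₁^2*x₁*x₂ - W.a₁^2*x₂^2 + W.a₁*W.a₃*x₁ - W.a₁*W.a₃*x₂ + W.a₁*x₁*y₁ - 2*W.a₁*x₂*y₂
        - W.a₂*x₁^2 + 4*W.a₂*x₁*x₂ - 2*W.a₂*x₂^2 + W.a₃*y₁ - 2*W.a₃*y₂ + W.a₄*x₁ + W.a₆ - x₁^3
        + 2*x₁^2*x₂ + 2*x₁*x₂^2 + y₁^2 - 2*x₂^3 - 2*y₂^2) * e₁ +
      (-W.a₁^2*x₁^2 + W.a₁^2*x₁*x₂ - W.a₁*W.a₃*x₁ + W.a₁*W.a₃*x₂ + W.a₁*x₂*y₂ - 4*W.a₂*x₁^2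
        + 4*W.a₂*x₁*x₂ - W.a₂*x₂^2 + W.a₃*y₂ - 2*W.a₄*x₁ + W.a₄*x₂ - W.a₆ - 4*x₁^3 + 2*x₁^2*x₂
        + 2*x₁*x₂^2 - x₂^3 + y₂^2) * e₂
  · rw [slope_of_X_ne hx, slope_of_X_ne hx]
    simp only [addX, pairSum, negY, WeierstrassCurve.b₂, WeierstrassCurve.b₄,
      WeierstrassCurve.b₆]
    field_simp
    linear_combination (2 : F) * e₁ + (2 : F) * e₂
  · rw [slope_of_X_ne hx]; rfl
  · rw [slope_of_X_ne hx]; rfl

/-- **Duplication formula.** -/
theorem add_self_some {x y : F} (h : W.Nonsingular x y) (hy : y ≠ W.negY x y) :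
    ∃ (xd yd : F) (hd : W.Nonsingular xd yd),
      Point.some x y h + Point.some x y h = Point.some xd yd hd ∧
      xd * psi2sq W x = phi2 W x := by
  refine ⟨_, _, nonsingular_add h h fun hxy => hy hxy.right, Point.add_self_of_Y_ne hy, ?_⟩
  have hD : y - W.negY x y ≠ 0 := sub_ne_zero.mpr hy
  have e := (equation_iff x y).mp h.1
  rw [slope_of_Y_ne rfl hy, psi2sq_eq' h.1]
  simp only [addX]
  field_simp
  simp only [negY, phi2, WeierstrassCurve.b₄, WeierstrassCurve.b₆, WeierstrassCurve.b₈]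
  linear_combination (-W.a₁ ^ 2 - 4 * W.a₂ - 8 * x) * e

lemma add_self_some_eq_zero {x y : F} (h : W.Nonsingular x y) (hy : y = W.negY x y) :
    Point.some x y h + Point.some x y h = 0 :=
  Point.add_self_of_Y_eq hy

end Fermat.Agent.S05.PairFormulas
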