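/-
T-S05, piece P2a (helper27): facts about the inertia subgroup of a valuation subring.

Setting: `L/K` a field extension, `A : ValuationSubring L`, `v := A.valuation`,
`σ ∈ A.inertiaSubgroupIn K` (the Prelude's image of Mathlib's inertia subgroup in `L ≃ₐ[K] L`).

Main exports (namespace `Fermat.Agent.S05.Inertia`):
* `mem_decompositionSubgroup`, `smul_eq`, `apply_mem_iff`
* `valuation_apply`      : `v (σ x) = v x`                      (needs `L/K` algebraic)
* `valuation_sub_lt_one` : `v x ≤ 1 → v (σ x - x) < 1`
* `valuation_sub_lt`     : `σ h = h → h ≠ 0 → v x = v h → v (σ x - x) < v x`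
* `valuation_sub_lt_of_algebraMap` : the same with `h = algebraMap K L r`
* integers: `valuation_intCast_le_one`, `valuation_intCast_lt_one_iff`,
  `valuation_intCast_eq_one`, and `natCast` versions, for `A.LiesOverPrime q`.
-/
import Mathlib
import Fermat.Prelude.Def_FLTPrelim_Ramification

set_option autoImplicit false

namespace Fermat.Agent.S05.Inertia

open ValuationSubring
open scoped Pointwise

section General

variable {K L : Type*} [Field K] [Field L] [Algebra K L]
variable {A : ValuationSubring L} {σ : L ≃ₐ[K] L}

/-- An element of the inertia subgroup lies in the decomposition subgroup. -/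
theorem mem_decompositionSubgroup (hσ : σ ∈ A.inertiaSubgroupIn K) :
    σ ∈ A.decompositionSubgroup K := by
  obtain ⟨g, _, rfl⟩ := Subgroup.mem_map.mp hσ
  exact g.2

/-- An element of the inertia subgroup stabilises `A`. -/
theorem smul_eq (hσ : σ ∈ A.inertiaSubgroupIn K) : σ • A = A :=
  MulAction.mem_stabilizer_iff.mp (mem_decompositionSubgroup hσ)

/-- Membership in `A` is invariant under an element of the decomposition subgroup. -/
theorem apply_mem_iff_of_mem_decomposition (hσ : σ ∈ A.decompositionSubgroup K) (x : L) :
    σ x ∈ A ↔ x ∈ A := by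
  have h : σ • A = A := MulAction.mem_stabilizer_iff.mp hσ
  constructor
  · intro hx
    have h1 : σ x ∈ σ • A := by rw [h]; exact hx
    rw [ValuationSubring.mem_pointwise_smul_iff_inv_smul_mem] at h1
    simpa using h1
  · intro hx
    rw [← h, ValuationSubring.mem_pointwise_smul_iff_inv_smul_mem]
    simpa using hx

/-- Membership in `A` is invariant under an element of the inertia subgroup. -/
theorem apply_mem_iff (hσ : σ ∈ A.inertiaSubgroupIn K) (x : L) : σ x ∈ A ↔ x ∈ A :=
  apply_mem_iff_of_mem_decomposition (mem_decompositionSubgroup hσ) x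

/-- Comparison of valuations in terms of membership. -/
theorem valuation_le_iff_div_mem (x y : L) (hy : y ≠ 0) :
    A.valuation x ≤ A.valuation y ↔ x / y ∈ A := by
  rw [← ValuationSubring.valuation_le_one_iff, map_div₀]
  have h0 : 0 < A.valuation y := by
    rw [Valuation.pos_iff]; exact hy
  rw [div_le_one₀ h0]

/-- The order of valuations is preserved by the decomposition subgroup. -/
theorem valuation_apply_le_iff (hσ : σ ∈ A.decompositionSubgroup K) (x y : L) :
    A.valuation (σ x) ≤ A.valuation (σ y) ↔ A.valuation x ≤ A.valuation y := by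
  by_cases hy : y = 0
  · subst hy
    simp only [map_zero, le_zero_iff, Valuation.zero_iff, EmbeddingLike.map_eq_zero_iff]
  · have hy' : σ y ≠ 0 := by simpa using hy
    rw [valuation_le_iff_div_mem _ _ hy', valuation_le_iff_div_mem _ _ hy, ← map_div₀,
      apply_mem_iff_of_mem_decomposition hσ]

theorem valuation_apply_lt_iff (hσ : σ ∈ A.decompositionSubgroup K) (x y : L) :
    A.valuation (σ x) < A.valuation (σ y) ↔ A.valuation x < A.valuation y :=
  lt_iff_lt_of_le_iff_le (valuation_apply_le_iff hσ y x)

/-- The decomposition subgroup preserves the valuation (for an algebraic extension). -/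
theorem valuation_apply_of_mem_decomposition [Algebra.IsAlgebraic K L]
    (hσ : σ ∈ A.decompositionSubgroup K) (x : L) :
    A.valuation (σ x) = A.valuation x := by
  by_contra hne
  -- the orbit of `x` under powers of `σ`
  set f : ℕ → L := fun k => (σ ^ k) x with hf
  have hfs : ∀ k, f (k + 1) = σ (f k) := by
    intro k
    simp only [hf, pow_succ', AlgEquiv.mul_apply]
  -- all `f k` are roots of the minimal polynomial
  have hx : IsIntegral K x := (Algebra.IsAlgebraic.isAlgebraic x).isIntegral
  have hroot : ∀ k, f k ∈ (minpoly K x).rootSet L := by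
    intro k
    rw [Polynomial.mem_rootSet]
    refine ⟨minpoly.ne_zero hx, ?_⟩
    simp only [hf]
    rw [Polynomial.aeval_algEquiv, AlgHom.coe_comp, Function.comp_apply, minpoly.aeval]
    simp
  have hfin : ((minpoly K x).rootSet L).Finite := Polynomial.rootSet_finite _ _
  -- so `f` is not injective
  have hninj : ¬ Function.Injective f := by
    intro hinj
    have : (Set.range f).Infinite := Set.infinite_range_of_injective hinj
    exact this (hfin.subset (by rintro _ ⟨k, rfl⟩; exact hroot k))
  apply hninj
  rcases lt_or_gt_of_ne hne with hlt | hgt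
  · -- strictly decreasing
    have hanti : StrictAnti fun k => A.valuation (f k) := by
      apply strictAnti_nat_of_succ_lt
      intro k
      induction k with
      | zero => simpa [hf] using hlt
      | succ k ih =>
        have h := (valuation_apply_lt_iff hσ (f (k + 1)) (f k)).mpr ih
        rw [← hfs, ← hfs] at h
        exact h
    exact fun a b hab => hanti.injective (congrArg A.valuation hab)
  · have hmono : StrictMono fun k => A.valuation (f k) := by
      apply strictMono_nat_of_lt_succ
      intro k
      induction k with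
      | zero => simpa [hf] using hgt
      | succ k ih =>
        have h := (valuation_apply_lt_iff hσ (f k) (f (k + 1))).mpr ih
        rw [← hfs, ← hfs] at h
        exact h
    exact fun a b hab => hmono.injective (congrArg A.valuation hab)

/-- **(s1)** The inertia subgroup preserves the valuation (for an algebraic extension). -/
theorem valuation_apply [Algebra.IsAlgebraic K L] (hσ : σ ∈ A.inertiaSubgroupIn K) (x : L) :
    A.valuation (σ x) = A.valuation x :=
  valuation_apply_of_mem_decomposition (mem_decompositionSubgroup hσ) x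

/-- **(s2)** An element of the inertia subgroup moves integral elements by elements of the
maximal ideal. -/
theorem apply_sub_mem_nonunits (hσ : σ ∈ A.inertiaSubgroupIn K) {x : L} (hx : x ∈ A) :
    σ x - x ∈ A.nonunits := by
  obtain ⟨g, hg, rfl⟩ := Subgroup.mem_map.mp hσ
  have hg' : MulSemiringAction.toRingAut (A.decompositionSubgroup K)
      (IsLocalRing.ResidueField A) g = 1 := hg
  have h1 : g • (IsLocalRing.residue A ⟨x, hx⟩) = IsLocalRing.residue A ⟨x, hx⟩ := by
    have := DFunLike.congr_fun hg' (IsLocalRing.residue A ⟨x, hx⟩)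
    simpa using this
  rw [← IsLocalRing.ResidueField.residue_smul, ← sub_eq_zero, ← map_sub,
    IsLocalRing.residue_eq_zero_iff] at h1
  have h2 : ((g • (⟨x, hx⟩ : A) - ⟨x, hx⟩ : A) : L) = (A.decompositionSubgroup K).subtype g x - x :=
    rfl
  rw [← h2]
  exact ValuationSubring.mem_nonunits_iff_exists_mem_maximalIdeal.mpr ⟨_, h1⟩

/-- **(s2)** in valuation form. -/
theorem valuation_sub_lt_one (hσ : σ ∈ A.inertiaSubgroupIn K) {x : L}
    (hx : A.valuation x ≤ 1) : A.valuation (σ x - x) < 1 := by
  have hxA : x ∈ A := (ValuationSubring.valuation_le_one_iff A x).mp hx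
  exact (ValuationSubring.mem_nonunits_iff (A := A)).mp (apply_sub_mem_nonunits hσ hxA)

/-- If `x` has the same valuation as a `σ`-fixed nonzero element `h`, then `σ x - x` has strictly
smaller valuation than `x`. -/
theorem valuation_sub_lt (hσ : σ ∈ A.inertiaSubgroupIn K) {x h : L} (hfix : σ h = h)
    (h0 : h ≠ 0) (hv : A.valuation x = A.valuation h) :
    A.valuation (σ x - x) < A.valuation x := by
  have hpos : 0 < A.valuation h := by rw [Valuation.pos_iff]; exact h0
  have h1 : A.valuation (x / h) ≤ 1 := by
    rw [map_div₀, hv, div_self hpos.ne']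
  have h2 := valuation_sub_lt_one hσ h1
  have h3 : σ (x / h) - x / h = (σ x - x) / h := by
    rw [map_div₀, hfix, sub_div]
  rw [h3, map_div₀, div_lt_one₀ hpos] at h2
  rw [hv]; exact h2

/-- Special case of `valuation_sub_lt` for elements of the base field. -/
theorem valuation_sub_lt_of_algebraMap (hσ : σ ∈ A.inertiaSubgroupIn K) {x : L} {r : K}
    (hr : r ≠ 0) (hv : A.valuation x = A.valuation (algebraMap K L r)) :
    A.valuation (σ x - x) < A.valuation x :=
  valuation_sub_lt hσ (σ.commutes r) (by simpa using hr) hv

/-- The ring homomorphism underlying `σ` fixes the base field. -/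
theorem apply_algebraMap (r : K) : σ (algebraMap K L r) = algebraMap K L r := σ.commutes r

theorem apply_intCast (n : ℤ) : σ (n : L) = n := map_intCast σ n

theorem apply_natCast (n : ℕ) : σ (n : L) = n := map_natCast σ n

end General

section Integers

variable {L : Type*} [Field L] {A : ValuationSubring L}

theorem valuation_intCast_le_one (n : ℤ) : A.valuation (n : L) ≤ 1 :=
  (ValuationSubring.valuation_le_one_iff A _).mpr (intCast_mem A n)

theorem valuation_natCast_le_one (n : ℕ) : A.valuation (n : L) ≤ 1 :=
  (ValuationSubring.valuation_le_one_iff A _).mpr (natCast_mem A n)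

variable {q : ℕ}

theorem valuation_prime_lt_one (hA : A.LiesOverPrime q) : A.valuation (q : L) < 1 :=
  (ValuationSubring.mem_nonunits_iff (A := A)).mp hA

/-- An integer has valuation `< 1` iff it is divisible by `q`. -/
theorem valuation_intCast_lt_one_iff (hq : q.Prime) (hA : A.LiesOverPrime q) (n : ℤ) :
    A.valuation (n : L) < 1 ↔ (q : ℤ) ∣ n := by
  constructor
  · intro hn
    by_contra hdvd
    have hcop : IsCoprime n (q : ℤ) := by
      have hqp : Prime (q : ℤ) := Nat.prime_iff_prime_int.mp hq
      exact ((hqp.irreducible.coprime_iff_not_dvd).mpr hdvd).symm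
    obtain ⟨s, t, hst⟩ := hcop
    have h1 : (s : L) * n + t * ((q : ℤ) : L) = 1 := by
      exact_mod_cast congrArg (Int.cast : ℤ → L) hst
    have h2 : A.valuation ((s : L) * n + t * ((q : ℤ) : L)) < 1 := by
      apply Valuation.map_add_lt
      · rw [map_mul]
        calc A.valuation (s : L) * A.valuation (n : L) ≤ 1 * A.valuation (n : L) :=
              mul_le_mul_left (valuation_intCast_le_one s) _
          _ < 1 := by rw [one_mul]; exact hn
      · rw [map_mul]
        calc A.valuation (t : L) * A.valuation ((q : ℤ) : L) ≤ 1 * A.valuation ((q : ℤ) : L) :=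
              mul_le_mul_left (valuation_intCast_le_one t) _
          _ < 1 := by rw [one_mul]; simpa using valuation_prime_lt_one hA
    rw [h1, map_one] at h2
    exact lt_irrefl _ h2
  · rintro ⟨m, rfl⟩
    rw [Int.cast_mul, map_mul]
    calc A.valuation ((q : ℤ) : L) * A.valuation (m : L) ≤ A.valuation ((q : ℤ) : L) * 1 :=
          mul_le_mul_right (valuation_intCast_le_one m) _
      _ < 1 := by rw [mul_one]; simpa using valuation_prime_lt_one hA

/-- An integer prime to `q` is a unit of `A`. -/
theorem valuation_intCast_eq_one (hq : q.Prime) (hA : A.LiesOverPrime q) {n : ℤ}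
    (hn : ¬ (q : ℤ) ∣ n) : A.valuation (n : L) = 1 :=
  le_antisymm (valuation_intCast_le_one n)
    (not_lt.mp fun h => hn ((valuation_intCast_lt_one_iff hq hA n).mp h))

theorem valuation_natCast_lt_one_iff (hq : q.Prime) (hA : A.LiesOverPrime q) (n : ℕ) :
    A.valuation (n : L) < 1 ↔ q ∣ n := by
  have := valuation_intCast_lt_one_iff hq hA (n : ℤ)
  rw [Int.cast_natCast, Int.natCast_dvd_natCast] at this
  exact this

theorem valuation_natCast_eq_one (hq : q.Prime) (hA : A.LiesOverPrime q) {n : ℕ}
    (hn : ¬ q ∣ n) : A.valuation (n : L) = 1 :=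
  le_antisymm (valuation_natCast_le_one n)
    (not_lt.mp fun h => hn ((valuation_natCast_lt_one_iff hq hA n).mp h))

/-- If `A` lies over an odd prime, `2` is a unit. -/
theorem valuation_two_eq_one (hq : q.Prime) (hA : A.LiesOverPrime q) (hq2 : q ≠ 2) :
    A.valuation (2 : L) = 1 := by
  have h := valuation_natCast_eq_one (L := L) hq hA (n := 2) (by
    intro h
    exact hq2 ((Nat.prime_dvd_prime_iff_eq hq Nat.prime_two).mp h))
  simpa using h

/-- If `A` lies over `q` and `p ≠ q` is a prime, then `p` is a unit. -/
theorem valuation_prime_eq_one (hq : q.Prime) (hA : A.LiesOverPrime q) {p : ℕ} (hp : p.Prime)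
    (hpq : q ≠ p) : A.valuation (p : L) = 1 :=
  valuation_natCast_eq_one hq hA fun h => hpq ((Nat.prime_dvd_prime_iff_eq hq hp).mp h)

/-- A rational number whose denominator is prime to `q` is integral. -/
theorem valuation_ratCast_le_one [CharZero L] (hq : q.Prime) (hA : A.LiesOverPrime q) (r : ℚ)
    (hr : ¬ q ∣ r.den) : A.valuation (r : L) ≤ 1 := by
  have h1 : (r : L) = (r.num : L) / (r.den : L) := by
    rw [Rat.cast_def]
  rw [h1, map_div₀, valuation_natCast_eq_one hq hA hr, div_one]
  exact valuation_intCast_le_one _

/-- A rational number whose numerator and denominator are prime to `q` is a unit. -/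
theorem valuation_ratCast_eq_one [CharZero L] (hq : q.Prime) (hA : A.LiesOverPrime q) (r : ℚ)
    (hr : ¬ q ∣ r.den) (hn : ¬ (q : ℤ) ∣ r.num) : A.valuation (r : L) = 1 := by
  have h1 : (r : L) = (r.num : L) / (r.den : L) := by
    rw [Rat.cast_def]
  rw [h1, map_div₀, valuation_natCast_eq_one hq hA hr, div_one, valuation_intCast_eq_one hq hA hn]

end Integers

section Rat

/-- `AlgebraicClosure ℚ` is algebraic over `ℚ` for the default (`DivisionRing.toRatAlgebra`)
`ℚ`-algebra structure, which is the one used by the Prelude's Galois group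
`AlgebraicClosure ℚ ≃ₐ[ℚ] AlgebraicClosure ℚ`. -/
instance isAlgebraic_rat : Algebra.IsAlgebraic ℚ (AlgebraicClosure ℚ) := by
  have h : (DivisionRing.toRatAlgebra : Algebra ℚ (AlgebraicClosure ℚ)) =
      AlgebraicClosure.instAlgebra ℚ := Subsingleton.elim _ _
  rw [h]; infer_instance

variable {A : ValuationSubring (AlgebraicClosure ℚ)}
  {σ : AlgebraicClosure ℚ ≃ₐ[ℚ] AlgebraicClosure ℚ}

/-- **(s1)** for the absolute Galois group of `ℚ`. -/
theorem valuation_apply_rat (hσ : σ ∈ A.inertiaSubgroupIn ℚ) (x : AlgebraicClosure ℚ) :
    A.valuation (σ x) = A.valuation x :=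
  valuation_apply hσ x

/-- **(s2)** for the absolute Galois group of `ℚ`. -/
theorem valuation_sub_lt_one_rat (hσ : σ ∈ A.inertiaSubgroupIn ℚ) {x : AlgebraicClosure ℚ}
    (hx : A.valuation x ≤ 1) : A.valuation (σ x - x) < 1 :=
  valuation_sub_lt_one hσ hx

/-- `σ` fixes rational numbers (cast form). -/
theorem apply_ratCast (r : ℚ) : σ (r : AlgebraicClosure ℚ) = r := map_ratCast σ r

/-- If `x` has the valuation of a nonzero integer, `σ x - x` has smaller valuation. -/
theorem valuation_sub_lt_of_intCast (hσ : σ ∈ A.inertiaSubgroupIn ℚ) {x : AlgebraicClosure ℚ}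
    {n : ℤ} (hn : n ≠ 0) (hv : A.valuation x = A.valuation (n : AlgebraicClosure ℚ)) :
    A.valuation (σ x - x) < A.valuation x :=
  valuation_sub_lt hσ (map_intCast σ n) (by exact_mod_cast hn) hv

/-- If `x` has the valuation of a nonzero rational number, `σ x - x` has smaller valuation. -/
theorem valuation_sub_lt_of_ratCast (hσ : σ ∈ A.inertiaSubgroupIn ℚ) {x : AlgebraicClosure ℚ}
    {r : ℚ} (hr : r ≠ 0) (hv : A.valuation x = A.valuation (r : AlgebraicClosure ℚ)) :
    A.valuation (σ x - x) < A.valuation x :=
  valuation_sub_lt hσ (map_ratCast σ r) (by exact_mod_cast hr) hv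

end Rat

end Fermat.Agent.S05.Inertia
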