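import Mathlib

/-!
# S05, piece P3: the kernel of reduction `E₁` is a subgroup without prime-to-residue torsion

General Weierstrass curve `W` over a field `K` with a valuation `v` such that all `aᵢ` are
integral.  `E₁ = {O} ∪ {(x, y) : 1 < v x}`.  We work in the coordinates `z = -x/y`, `w = -1/y`,
with the uniform slope `λ = N/D` (valid for chords and tangents).
-/

set_option autoImplicit false

open WeierstrassCurve WeierstrassCurve.Affine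

namespace Fermat.Agent.S05.Kernel

section Algebra

variable {K : Type*} [Field K] (W : Affine K)

/-- numerator of the uniform slope in `(z,w)`-coordinates. -/
def slN (z₁ z₂ w₁ : K) : K :=
  z₁ ^ 2 + z₁ * z₂ + z₂ ^ 2 + W.a₁ * w₁ + W.a₂ * (z₁ + z₂) * w₁ + W.a₄ * w₁ ^ 2

/-- denominator of the uniform slope in `(z,w)`-coordinates. -/
def slD (z₂ w₁ w₂ : K) : K :=
  1 - W.a₁ * z₂ - W.a₂ * z₂ ^ 2 - W.a₃ * (w₁ + w₂) - W.a₄ * z₂ * (w₁ + w₂)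
    - W.a₆ * (w₁ ^ 2 + w₁ * w₂ + w₂ ^ 2)

/-- The Weierstrass equation in the coordinates `z = -x/y`, `w = -1/y`. -/
def ZW (z w : K) : Prop :=
  w = z ^ 3 + W.a₁ * z * w + W.a₂ * z ^ 2 * w + W.a₃ * w ^ 2 + W.a₄ * z * w ^ 2 + W.a₆ * w ^ 3

variable {W}

lemma zw_of_equation {x y : K} (h : W.Equation x y) (hy : y ≠ 0) : ZW W (-x / y) (-1 / y) := by
  rw [equation_iff] at h
  unfold ZW
  field_simp
  linear_combination (-1 : K) * h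

lemma zw_key {z₁ w₁ z₂ w₂ : K} (h₁ : ZW W z₁ w₁) (h₂ : ZW W z₂ w₂) :
    (w₁ - w₂) * slD W z₂ w₁ w₂ = (z₁ - z₂) * slN W z₁ z₂ w₁ := by
  unfold ZW at h₁ h₂
  unfold slD slN
  linear_combination h₁ - h₂

lemma vieta_sums (a₁ a₂ a₃ a₄ a₆ ℓ ν x₁ x₂ x₃ : K)
    (e₁ : x₁ + x₂ + x₃ = ℓ ^ 2 + a₁ * ℓ - a₂)
    (e₂ : x₁ * x₂ + x₁ * x₃ + x₂ * x₃ = a₄ - 2 * ℓ * ν - a₁ * ν - a₃ * ℓ)
    (e₃ : x₁ * x₂ * x₃ = ν ^ 2 + a₃ * ν - a₆) :
    x₁ * (ℓ * x₂ + ν) * (ℓ * x₃ + ν) + x₂ * (ℓ * x₁ + ν) * (ℓ * x₃ + ν)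
        + x₃ * (ℓ * x₁ + ν) * (ℓ * x₂ + ν)
      = a₃ * ℓ ^ 2 * ν - 3 * a₆ * ℓ ^ 2 + 2 * a₄ * ℓ * ν - a₁ * ℓ * ν ^ 2 - a₂ * ν ^ 2 ∧
    (ℓ * x₁ + ν) * (ℓ * x₂ + ν) * (ℓ * x₃ + ν)
      = ν ^ 3 - a₂ * ℓ * ν ^ 2 + a₄ * ℓ ^ 2 * ν - a₆ * ℓ ^ 3 := by
  constructor
  · linear_combination (3 * ℓ ^ 2) * e₃ + (2 * ℓ * ν) * e₂ + ν ^ 2 * e₁
  · linear_combination ℓ ^ 3 * e₃ + ℓ ^ 2 * ν * e₂ + ℓ * ν ^ 2 * e₁

variable [DecidableEq K]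

lemma vieta_of_slope {x₁ x₂ y₁ y₂ : K} (h₁ : W.Equation x₁ y₁) (h₂ : W.Equation x₂ y₂)
    (hxy : ¬(x₁ = x₂ ∧ y₁ = W.negY x₂ y₂)) :
    x₁ + x₂ + W.addX x₁ x₂ (W.slope x₁ x₂ y₁ y₂)
      = (W.slope x₁ x₂ y₁ y₂) ^ 2 + W.a₁ * (W.slope x₁ x₂ y₁ y₂) - W.a₂ ∧
    x₁ * x₂ + x₁ * W.addX x₁ x₂ (W.slope x₁ x₂ y₁ y₂) + x₂ * W.addX x₁ x₂ (W.slope x₁ x₂ y₁ y₂)
      = W.a₄ - 2 * (W.slope x₁ x₂ y₁ y₂) * (y₁ - (W.slope x₁ x₂ y₁ y₂) * x₁)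
        - W.a₁ * (y₁ - (W.slope x₁ x₂ y₁ y₂) * x₁) - W.a₃ * (W.slope x₁ x₂ y₁ y₂) ∧
    x₁ * x₂ * W.addX x₁ x₂ (W.slope x₁ x₂ y₁ y₂)
      = (y₁ - (W.slope x₁ x₂ y₁ y₂) * x₁) ^ 2 + W.a₃ * (y₁ - (W.slope x₁ x₂ y₁ y₂) * x₁) - W.a₆ := by
  have := addPolynomial_slope h₁ h₂ hxy
  rw [addPolynomial_eq, neg_inj, Cubic.prod_X_sub_C_eq, Cubic.toPoly_injective] at this
  rw [Cubic.mk.injEq] at this
  obtain ⟨-, hb, hc, hd⟩ := this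
  generalize W.slope x₁ x₂ y₁ y₂ = ℓ at *
  refine ⟨?_, ?_, ?_⟩
  · simp only [addX]; ring
  · linear_combination -hc
  · linear_combination hd

/-- The line through the two points, in `(z,w)`-coordinates: `ℓ M = N`, `ν M = -D`. -/
lemma slope_rel {x₁ x₂ y₁ y₂ : K} (h₁ : W.Equation x₁ y₁) (h₂ : W.Equation x₂ y₂)
    (hy₁ : y₁ ≠ 0) (hy₂ : y₂ ≠ 0)
    (hxy : ¬(x₁ = x₂ ∧ y₁ = W.negY x₂ y₂))
    (hD : slD W (-x₂ / y₂) (-1 / y₁) (-1 / y₂) ≠ 0) :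
    W.slope x₁ x₂ y₁ y₂ *
        ((-1 / y₁) * slD W (-x₂ / y₂) (-1 / y₁) (-1 / y₂)
          - (-x₁ / y₁) * slN W (-x₁ / y₁) (-x₂ / y₂) (-1 / y₁))
      = slN W (-x₁ / y₁) (-x₂ / y₂) (-1 / y₁) ∧
    (y₁ - W.slope x₁ x₂ y₁ y₂ * x₁) *
        ((-1 / y₁) * slD W (-x₂ / y₂) (-1 / y₁) (-1 / y₂)
          - (-x₁ / y₁) * slN W (-x₁ / y₁) (-x₂ / y₂) (-1 / y₁))
      = - slD W (-x₂ / y₂) (-1 / y₁) (-1 / y₂) ∧
    y₂ = W.slope x₁ x₂ y₁ y₂ * x₂ + (y₁ - W.slope x₁ x₂ y₁ y₂ * x₁) := by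
  have hz₁ := zw_of_equation h₁ hy₁
  have hz₂ := zw_of_equation h₂ hy₂
  have key := zw_key hz₁ hz₂
  by_cases hx : x₁ = x₂
  · -- tangent case
    have hy : y₁ ≠ W.negY x₂ y₂ := fun h => hxy ⟨hx, h⟩
    obtain rfl : y₁ = y₂ := Y_eq_of_Y_ne h₁ h₂ hx hy
    subst hx
    rw [slope_of_Y_ne rfl hy]
    have hψ : y₁ - W.negY x₁ y₁ ≠ 0 := sub_ne_zero.mpr hy
    rw [equation_iff] at h₁
    have h6 : W.a₆ = y₁ ^ 2 + W.a₁ * x₁ * y₁ + W.a₃ * y₁ - x₁ ^ 3 - W.a₂ * x₁ ^ 2 - W.a₄ * x₁ := by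
      linear_combination (-1 : K) * h₁
    have hψe : y₁ - W.negY x₁ y₁ = 2 * y₁ + W.a₁ * x₁ + W.a₃ := by simp only [negY]; ring
    rw [hψe] at hψ ⊢
    simp only [slD, slN]
    rw [h6]
    generalize hψdef : 2 * y₁ + W.a₁ * x₁ + W.a₃ = ψ at hψ ⊢
    refine ⟨?_, ?_, ?_⟩
    · field_simp
      rw [← hψdef]
      ring
    · field_simp
      rw [← hψdef]
      ring
    · ring
  · -- chord case
    rw [slope_of_X_ne hx]
    have hxs : x₁ - x₂ ≠ 0 := sub_ne_zero.mpr hx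
    set ℓ : K := (y₁ - y₂) / (x₁ - x₂) with hℓ
    set ν : K := y₁ - ℓ * x₁ with hν
    have hline₂ : y₂ = ℓ * x₂ + ν := by
      rw [hν, hℓ]; field_simp; ring
    set z₁ : K := -x₁ / y₁ with hz₁d
    set z₂ : K := -x₂ / y₂ with hz₂d
    set w₁ : K := -1 / y₁ with hw₁d
    set w₂ : K := -1 / y₂ with hw₂d
    set D : K := slD W z₂ w₁ w₂ with hDd
    set N : K := slN W z₁ z₂ w₁ with hNd
    have hl₁ : ℓ * z₁ + ν * w₁ = -1 := by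
      rw [hz₁d, hw₁d, hν]; field_simp; ring
    have hl₂ : ℓ * z₂ + ν * w₂ = -1 := by
      have e : ℓ * (-x₂ / y₂) + ν * (-1 / y₂) = -(ℓ * x₂ + ν) / y₂ := by ring
      rw [hz₂d, hw₂d, e, ← hline₂, neg_div, div_self hy₂]
    have hzne : z₁ - z₂ ≠ 0 := by
      intro hz
      rw [hz, zero_mul] at key
      have hw : w₁ - w₂ = 0 := (mul_eq_zero.mp key).resolve_right hD
      have hyy : y₁ = y₂ := by
        have : (-1 : K) / y₁ = -1 / y₂ := sub_eq_zero.mp hw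
        field_simp at this
        exact (neg_inj.mp this).symm
      apply hx
      have : -x₁ / y₁ = -x₂ / y₂ := sub_eq_zero.mp hz
      rw [hyy] at this
      field_simp at this
      exact neg_inj.mp this
    have hMdet : (w₁ * D - z₁ * N) * (z₁ - z₂) = D * (z₁ * w₂ - z₂ * w₁) := by
      linear_combination z₁ * key
    have hℓdet : ℓ * (z₁ * w₂ - z₂ * w₁) = w₁ - w₂ := by
      linear_combination w₂ * hl₁ - w₁ * hl₂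
    have hνdet : ν * (z₁ * w₂ - z₂ * w₁) = z₂ - z₁ := by
      linear_combination z₁ * hl₂ - z₂ * hl₁
    refine ⟨?_, ?_, hline₂⟩
    · apply mul_right_cancel₀ hzne
      linear_combination ℓ * hMdet + D * hℓdet + key
    · apply mul_right_cancel₀ hzne
      linear_combination ν * hMdet + D * hνdet

/-- `M = w₁ D - z₁ N`. -/
def slM (W : Affine K) (z₁ z₂ w₁ w₂ : K) : K := w₁ * slD W z₂ w₁ w₂ - z₁ * slN W z₁ z₂ w₁

/-- `Q = D³ + a₂ N D² + a₄ N² D + a₆ N³`. -/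
def slQ (W : Affine K) (N D : K) : K :=
  D ^ 3 + W.a₂ * N * D ^ 2 + W.a₄ * N ^ 2 * D + W.a₆ * N ^ 3

/-- `R = a₁ N D² + a₂ M D² + a₃ N² D + 2 a₄ N M D + 3 a₆ N² M`. -/
def slR (W : Affine K) (N D M : K) : K :=
  W.a₁ * N * D ^ 2 + W.a₂ * M * D ^ 2 + W.a₃ * N ^ 2 * D + 2 * W.a₄ * N * M * D
    + 3 * W.a₆ * N ^ 2 * M

/-- The third intersection point of the line through two points, in `(z,w)`-coordinates. -/
theorem third_point {x₁ x₂ y₁ y₂ z₁ z₂ w₁ w₂ : K} (h₁ : W.Equation x₁ y₁) (h₂ : W.Equation x₂ y₂)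
    (hy₁ : y₁ ≠ 0) (hy₂ : y₂ ≠ 0) (hxy : ¬(x₁ = x₂ ∧ y₁ = W.negY x₂ y₂))
    (hz₁ : z₁ = -x₁ / y₁) (hz₂ : z₂ = -x₂ / y₂) (hw₁ : w₁ = -1 / y₁) (hw₂ : w₂ = -1 / y₂)
    (hD : slD W z₂ w₁ w₂ ≠ 0) (hQ : slQ W (slN W z₁ z₂ w₁) (slD W z₂ w₁ w₂) ≠ 0) :
    W.negAddY x₁ x₂ y₁ (W.slope x₁ x₂ y₁ y₂) ≠ 0 ∧
    -(W.addX x₁ x₂ (W.slope x₁ x₂ y₁ y₂)) / W.negAddY x₁ x₂ y₁ (W.slope x₁ x₂ y₁ y₂)
      = -z₁ - z₂ - slR W (slN W z₁ z₂ w₁) (slD W z₂ w₁ w₂) (slM W z₁ z₂ w₁ w₂)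
          / slQ W (slN W z₁ z₂ w₁) (slD W z₂ w₁ w₂) ∧
    (-1 / W.negAddY x₁ x₂ y₁ (W.slope x₁ x₂ y₁ y₂)) * slD W z₂ w₁ w₂
      = slN W z₁ z₂ w₁ *
          (-(W.addX x₁ x₂ (W.slope x₁ x₂ y₁ y₂)) / W.negAddY x₁ x₂ y₁ (W.slope x₁ x₂ y₁ y₂))
        + slM W z₁ z₂ w₁ w₂ := by
  subst hz₁ hz₂ hw₁ hw₂
  obtain ⟨hℓM, hνM, hline₂⟩ := slope_rel h₁ h₂ hy₁ hy₂ hxy hD
  obtain ⟨e₁, e₂, e₃⟩ := vieta_of_slope h₁ h₂ hxy
  have hy₃ : W.negAddY x₁ x₂ y₁ (W.slope x₁ x₂ y₁ y₂)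
      = W.slope x₁ x₂ y₁ y₂ * W.addX x₁ x₂ (W.slope x₁ x₂ y₁ y₂)
        + (y₁ - W.slope x₁ x₂ y₁ y₂ * x₁) := by
    simp only [negAddY]; ring
  generalize W.negAddY x₁ x₂ y₁ (W.slope x₁ x₂ y₁ y₂) = y₃ at hy₃ ⊢
  generalize W.addX x₁ x₂ (W.slope x₁ x₂ y₁ y₂) = x₃ at e₁ e₂ e₃ hy₃ ⊢
  generalize W.slope x₁ x₂ y₁ y₂ = ℓ at hℓM hνM hline₂ e₁ e₂ e₃ hy₃ ⊢
  have hline₁ : y₁ = ℓ * x₁ + (y₁ - ℓ * x₁) := by ring
  generalize y₁ - ℓ * x₁ = ν at hℓM hνM hline₂ e₁ e₂ e₃ hy₃ hline₁ ⊢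
  obtain ⟨hS, hP⟩ := vieta_sums W.a₁ W.a₂ W.a₃ W.a₄ W.a₆ ℓ ν x₁ x₂ x₃ e₁ e₂ e₃
  rw [← hline₁, ← hline₂, ← hy₃] at hS hP
  have hMe : slM W (-x₁ / y₁) (-x₂ / y₂) (-1 / y₁) (-1 / y₂)
      = -1 / y₁ * slD W (-x₂ / y₂) (-1 / y₁) (-1 / y₂)
        - -x₁ / y₁ * slN W (-x₁ / y₁) (-x₂ / y₂) (-1 / y₁) := rfl
  rw [← hMe] at hℓM hνM
  generalize slM W (-x₁ / y₁) (-x₂ / y₂) (-1 / y₁) (-1 / y₂) = M at hℓM hνM ⊢
  generalize hNd : slN W (-x₁ / y₁) (-x₂ / y₂) (-1 / y₁) = N at hℓM hνM hQ ⊢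
  generalize hDd : slD W (-x₂ / y₂) (-1 / y₁) (-1 / y₂) = D at hℓM hνM hQ hD ⊢
  have hM : M ≠ 0 := by
    rintro rfl
    rw [mul_zero] at hνM
    exact hD (neg_eq_zero.mp hνM.symm)
  have hPM : y₁ * y₂ * y₃ * M ^ 3 = - slQ W N D := by
    rw [hP, slQ]
    have : (ν ^ 3 - W.a₂ * ℓ * ν ^ 2 + W.a₄ * ℓ ^ 2 * ν - W.a₆ * ℓ ^ 3) * M ^ 3
        = (ν * M) ^ 3 - W.a₂ * (ℓ * M) * (ν * M) ^ 2 + W.a₄ * (ℓ * M) ^ 2 * (ν * M)
          - W.a₆ * (ℓ * M) ^ 3 := by ring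
    rw [this, hℓM, hνM]; ring
  have hSM : (x₁ * y₂ * y₃ + x₂ * y₁ * y₃ + x₃ * y₁ * y₂) * M ^ 3 = - slR W N D M := by
    rw [hS, slR]
    have : (W.a₃ * ℓ ^ 2 * ν - 3 * W.a₆ * ℓ ^ 2 + 2 * W.a₄ * ℓ * ν - W.a₁ * ℓ * ν ^ 2
          - W.a₂ * ν ^ 2) * M ^ 3
        = W.a₃ * (ℓ * M) ^ 2 * (ν * M) - 3 * W.a₆ * (ℓ * M) ^ 2 * M
          + 2 * W.a₄ * (ℓ * M) * (ν * M) * M - W.a₁ * (ℓ * M) * (ν * M) ^ 2
          - W.a₂ * (ν * M) ^ 2 * M := by ring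
    rw [this, hℓM, hνM]; ring
  have hy₃ne : y₃ ≠ 0 := by
    rintro rfl
    rw [mul_zero, zero_mul] at hPM
    exact hQ (neg_eq_zero.mp hPM.symm)
  refine ⟨hy₃ne, ?_, ?_⟩
  · have hM3 : M ^ 3 ≠ 0 := pow_ne_zero 3 hM
    have hR : slR W N D M = -((x₁ * y₂ * y₃ + x₂ * y₁ * y₃ + x₃ * y₁ * y₂) * M ^ 3) := by
      rw [hSM]; ring
    have hQ' : slQ W N D = -(y₁ * y₂ * y₃ * M ^ 3) := by rw [hPM]; ring
    rw [hR, hQ']
    field_simp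
    ring
  · have hl₃ : ℓ * (-x₃ / y₃) + ν * (-1 / y₃) = -1 := by
      have e : ℓ * (-x₃ / y₃) + ν * (-1 / y₃) = -(ℓ * x₃ + ν) / y₃ := by ring
      rw [e, ← hy₃, neg_div, div_self hy₃ne]
    linear_combination (-M) * hl₃ + (-x₃ / y₃) * hℓM + (-1 / y₃) * hνM

end Algebra

section Val

variable {K : Type*} [Field K] {Γ₀ : Type*} [LinearOrderedCommGroupWithZero Γ₀]
  (v : Valuation K Γ₀)

/-- all Weierstrass coefficients are integral. -/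
def IntegralCoeffs (W : Affine K) : Prop :=
  v W.a₁ ≤ 1 ∧ v W.a₂ ≤ 1 ∧ v W.a₃ ≤ 1 ∧ v W.a₄ ≤ 1 ∧ v W.a₆ ≤ 1

variable {v}

lemma vle_mul {x y : K} {c d : Γ₀} (hx : v x ≤ c) (hy : v y ≤ d) : v (x * y) ≤ c * d := by
  rw [map_mul]; exact mul_le_mul' hx hy

lemma vle_int_mul {a x : K} {c : Γ₀} (ha : v a ≤ 1) (hx : v x ≤ c) : v (a * x) ≤ c := by
  simpa using vle_mul ha hx

lemma vle_mul_int {a x : K} {c : Γ₀} (hx : v x ≤ c) (ha : v a ≤ 1) : v (x * a) ≤ c := by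
  simpa using vle_mul hx ha

lemma vle_pow {x : K} {c : Γ₀} (hx : v x ≤ c) (n : ℕ) : v (x ^ n) ≤ c ^ n := by
  rw [map_pow]; exact pow_le_pow_left' hx n

lemma vle_natCast (n : ℕ) : v (n : K) ≤ 1 := by
  induction n with
  | zero => simp
  | succ n ih => rw [Nat.cast_succ]; exact v.map_add_le ih (by simp)

lemma vle_ofNat_two : v (2 : K) ≤ 1 := by
  simpa using vle_natCast (v := v) 2

lemma vle_ofNat_three : v (3 : K) ≤ 1 := by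
  simpa using vle_natCast (v := v) 3

lemma vle_mono {r : Γ₀} (hr : r ≤ 1) {x : K} {j k : ℕ} (h : j ≤ k) (hx : v x ≤ r ^ k) :
    v x ≤ r ^ j :=
  hx.trans (pow_le_pow_right_of_le_one' hr h)

lemma vle_of_le_sq {r : Γ₀} (hr : r ≤ 1) {x : K} (hx : v x ≤ r ^ 2) : v x ≤ r := by
  simpa using vle_mono hr (show 1 ≤ 2 by norm_num) hx

lemma vle_one_of_le {r : Γ₀} (hr : r ≤ 1) {x : K} (hx : v x ≤ r) : v x ≤ 1 := hx.trans hr

theorem zw_estimates {W : Affine K} (hW : IntegralCoeffs v W) {r : Γ₀} (hr : r < 1)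
    {z₁ z₂ w₁ w₂ : K} (hz₁ : v z₁ ≤ r) (hz₂ : v z₂ ≤ r) (hw₁ : v w₁ ≤ r ^ 2)
    (hw₂ : v w₂ ≤ r ^ 2) :
    v (slN W z₁ z₂ w₁) ≤ r ^ 2 ∧ v (slD W z₂ w₁ w₂) = 1 ∧ v (slM W z₁ z₂ w₁ w₂) ≤ r ^ 2 ∧
    v (slQ W (slN W z₁ z₂ w₁) (slD W z₂ w₁ w₂)) = 1 ∧
    v (slR W (slN W z₁ z₂ w₁) (slD W z₂ w₁ w₂) (slM W z₁ z₂ w₁ w₂)) ≤ r ^ 2 := by
  obtain ⟨ha₁, ha₂, ha₃, ha₄, ha₆⟩ := hW
  have hr1 : r ≤ 1 := hr.le
  have hr2le : r ^ 2 ≤ r := by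
    simpa using pow_le_pow_right_of_le_one' hr1 (show 1 ≤ 2 by norm_num)
  have hr2 : r ^ 2 < 1 := lt_of_le_of_lt hr2le hr
  have hz₁' : v z₁ ≤ 1 := hz₁.trans hr1
  have hz₂' : v z₂ ≤ 1 := hz₂.trans hr1
  have hw₁r : v w₁ ≤ r := vle_of_le_sq hr1 hw₁
  have hw₂r : v w₂ ≤ r := vle_of_le_sq hr1 hw₂
  have hw₁' : v w₁ ≤ 1 := hw₁r.trans hr1
  have hw₂' : v w₂ ≤ 1 := hw₂r.trans hr1
  have hrr : r * r = r ^ 2 := (sq r).symm
  -- N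
  have hN : v (slN W z₁ z₂ w₁) ≤ r ^ 2 := by
    unfold slN
    refine v.map_add_le (v.map_add_le (v.map_add_le (v.map_add_le (v.map_add_le ?_ ?_) ?_) ?_)
      ?_) ?_
    · exact vle_pow hz₁ 2
    · exact hrr ▸ vle_mul hz₁ hz₂
    · exact vle_pow hz₂ 2
    · exact vle_int_mul ha₁ hw₁
    · exact vle_int_mul (vle_int_mul ha₂ (v.map_add_le hz₁' hz₂')) hw₁
    · exact vle_int_mul ha₄ (by rw [sq]; exact vle_int_mul hw₁' hw₁)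
  -- D
  have hDe : slD W z₂ w₁ w₂ = 1 - (W.a₁ * z₂ + W.a₂ * z₂ ^ 2 + W.a₃ * (w₁ + w₂)
      + W.a₄ * z₂ * (w₁ + w₂) + W.a₆ * (w₁ ^ 2 + w₁ * w₂ + w₂ ^ 2)) := by
    unfold slD; ring
  have hDe' : v (W.a₁ * z₂ + W.a₂ * z₂ ^ 2 + W.a₃ * (w₁ + w₂)
      + W.a₄ * z₂ * (w₁ + w₂) + W.a₆ * (w₁ ^ 2 + w₁ * w₂ + w₂ ^ 2)) ≤ r := by
    refine v.map_add_le (v.map_add_le (v.map_add_le (v.map_add_le ?_ ?_) ?_) ?_) ?_
    · exact vle_int_mul ha₁ hz₂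
    · exact vle_int_mul ha₂ (by rw [sq]; exact vle_int_mul hz₂' hz₂)
    · exact vle_int_mul ha₃ (v.map_add_le hw₁r hw₂r)
    · exact vle_int_mul (vle_int_mul ha₄ hz₂') (v.map_add_le hw₁r hw₂r)
    · refine vle_int_mul ha₆ (v.map_add_le (v.map_add_le ?_ ?_) ?_)
      · rw [sq]; exact vle_int_mul hw₁' hw₁r
      · exact vle_int_mul hw₁' hw₂r
      · rw [sq]; exact vle_int_mul hw₂' hw₂r
  have hD : v (slD W z₂ w₁ w₂) = 1 := by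
    rw [hDe]; exact v.map_one_sub_of_lt (lt_of_le_of_lt hDe' hr)
  -- M
  have hM : v (slM W z₁ z₂ w₁ w₂) ≤ r ^ 2 := by
    unfold slM
    refine v.map_sub_le ?_ ?_
    · exact vle_mul_int hw₁ hD.le
    · exact vle_int_mul hz₁' hN
  have hN' : v (slN W z₁ z₂ w₁) ≤ 1 := hN.trans hr2.le
  have hM' : v (slM W z₁ z₂ w₁ w₂) ≤ 1 := hM.trans hr2.le
  refine ⟨hN, hD, hM, ?_, ?_⟩
  · -- Q
    generalize slN W z₁ z₂ w₁ = N at hN hN' ⊢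
    generalize slD W z₂ w₁ w₂ = D at hD ⊢
    have hD3 : v (D ^ 3) = 1 := by rw [map_pow, hD, one_pow]
    have hf : v (W.a₂ * N * D ^ 2 + W.a₄ * N ^ 2 * D + W.a₆ * N ^ 3) ≤ r ^ 2 := by
      refine v.map_add_le (v.map_add_le ?_ ?_) ?_
      · exact vle_mul_int (vle_int_mul ha₂ hN) (by rw [map_pow, hD, one_pow])
      · exact vle_mul_int (vle_int_mul ha₄ (by rw [sq]; exact vle_int_mul hN' hN)) hD.le
      · have h2 : v (N ^ 2) ≤ r ^ 2 := by rw [sq]; exact vle_int_mul hN' hN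
        have h3 : v (N ^ 3) ≤ r ^ 2 := by rw [pow_succ]; exact vle_mul_int h2 hN'
        exact vle_int_mul ha₆ h3
    have : slQ W N D = D ^ 3 + (W.a₂ * N * D ^ 2 + W.a₄ * N ^ 2 * D + W.a₆ * N ^ 3) := by
      unfold slQ; ring
    rw [this, v.map_add_eq_of_lt_left (by rw [hD3]; exact lt_of_le_of_lt hf hr2), hD3]
  · -- R
    generalize slN W z₁ z₂ w₁ = N at hN hN' ⊢
    generalize slD W z₂ w₁ w₂ = D at hD ⊢
    generalize slM W z₁ z₂ w₁ w₂ = M at hM hM' ⊢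
    have hD2 : v (D ^ 2) ≤ 1 := by rw [map_pow, hD, one_pow]
    unfold slR
    refine v.map_add_le (v.map_add_le (v.map_add_le (v.map_add_le ?_ ?_) ?_) ?_) ?_
    · exact vle_mul_int (vle_int_mul ha₁ hN) hD2
    · exact vle_mul_int (vle_int_mul ha₂ hM) hD2
    · exact vle_mul_int (vle_int_mul ha₃ (by rw [sq]; exact vle_int_mul hN' hN)) hD.le
    · exact vle_mul_int (vle_mul_int (vle_int_mul (vle_int_mul vle_ofNat_two ha₄) hN) hM') hD.le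
    · exact vle_mul_int (vle_int_mul (vle_int_mul vle_ofNat_three ha₆)
        (by rw [sq]; exact vle_int_mul hN' hN)) hM'

/-- (V1) a point with non-integral `x` has `v y ^ 2 = v x ^ 3`, `v x < v y`. -/
lemma vy_of_vx {W : Affine K} (hW : IntegralCoeffs v W) {x y : K} (h : W.Equation x y)
    (hx : 1 < v x) : v x < v y ∧ v y ^ 2 = v x ^ 3 := by
  obtain ⟨ha₁, ha₂, ha₃, ha₄, ha₆⟩ := hW
  rw [equation_iff] at h
  have hx0 : 0 < v x := lt_trans zero_lt_one hx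
  have hx1 : 1 ≤ v x := hx.le
  -- RHS
  have hrest : v (W.a₂ * x ^ 2 + W.a₄ * x + W.a₆) ≤ v x ^ 2 := by
    refine v.map_add_le (v.map_add_le ?_ ?_) ?_
    · exact vle_int_mul ha₂ (by rw [map_pow])
    · refine (vle_int_mul ha₄ le_rfl).trans ?_
      calc v x = v x ^ 1 := (pow_one _).symm
        _ ≤ v x ^ 2 := pow_le_pow_right₀ hx1 (by norm_num)
    · exact ha₆.trans (one_le_pow₀ hx1)
  have hlt : v x ^ 2 < v x ^ 3 := pow_lt_pow_right₀ hx (by norm_num)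
  have hR : v (x ^ 3 + W.a₂ * x ^ 2 + W.a₄ * x + W.a₆) = v x ^ 3 := by
    have : x ^ 3 + W.a₂ * x ^ 2 + W.a₄ * x + W.a₆
        = x ^ 3 + (W.a₂ * x ^ 2 + W.a₄ * x + W.a₆) := by ring
    rw [this, v.map_add_eq_of_lt_left (by rw [map_pow]; exact lt_of_le_of_lt hrest hlt), map_pow]
  have hL : y ^ 2 + W.a₁ * x * y + W.a₃ * y = y * (y + (W.a₁ * x + W.a₃)) := by ring
  have hax : v (W.a₁ * x + W.a₃) ≤ v x :=
    v.map_add_le (vle_int_mul ha₁ le_rfl) (ha₃.trans hx1)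
  have hxy : v x < v y := by
    by_contra hcon
    replace hcon : v y ≤ v x := not_lt.mp hcon
    have h1 : v (y + (W.a₁ * x + W.a₃)) ≤ v x := v.map_add_le hcon hax
    have h2 : v (y * (y + (W.a₁ * x + W.a₃))) ≤ v x ^ 2 := by
      rw [sq]; exact vle_mul hcon h1
    rw [← hL, h, hR] at h2
    exact absurd h2 (not_le.mpr hlt)
  refine ⟨hxy, ?_⟩
  have h3 : v (y + (W.a₁ * x + W.a₃)) = v y :=
    v.map_add_eq_of_lt_left (lt_of_le_of_lt hax hxy)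
  have h4 : v (y * (y + (W.a₁ * x + W.a₃))) = v y ^ 2 := by rw [map_mul, h3, sq]
  rw [← h4, ← hL, h, hR]

/-- (V2) a point with non-integral `y` has non-integral `x`. -/
lemma vx_of_vy {W : Affine K} (hW : IntegralCoeffs v W) {x y : K} (h : W.Equation x y)
    (hy : 1 < v y) : 1 < v x := by
  obtain ⟨ha₁, ha₂, ha₃, ha₄, ha₆⟩ := hW
  rw [equation_iff] at h
  by_contra hcon
  replace hcon : v x ≤ 1 := not_lt.mp hcon
  have hR : v (x ^ 3 + W.a₂ * x ^ 2 + W.a₄ * x + W.a₆) ≤ 1 := by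
    refine v.map_add_le (v.map_add_le (v.map_add_le ?_ ?_) ?_) ha₆
    · rw [map_pow]; exact pow_le_one₀ zero_le hcon
    · exact vle_int_mul ha₂ (by rw [map_pow]; exact pow_le_one₀ zero_le hcon)
    · exact vle_int_mul ha₄ hcon
  have hL : y ^ 2 + W.a₁ * x * y + W.a₃ * y = y * (y + (W.a₁ * x + W.a₃)) := by ring
  have hax : v (W.a₁ * x + W.a₃) ≤ 1 := v.map_add_le (vle_int_mul ha₁ hcon) ha₃
  have h3 : v (y + (W.a₁ * x + W.a₃)) = v y :=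
    v.map_add_eq_of_lt_left (lt_of_le_of_lt hax hy)
  have h4 : v (y * (y + (W.a₁ * x + W.a₃))) = v y ^ 2 := by rw [map_mul, h3, sq]
  rw [← h, hL, h4] at hR
  exact absurd hR (not_le.mpr (one_lt_pow₀ hy (by norm_num)))

/-- the `(z,w)`-coordinates of a point with non-integral `x`. -/
lemma zw_of_vx {W : Affine K} (hW : IntegralCoeffs v W) {x y : K} (h : W.Equation x y)
    (hx : 1 < v x) : y ≠ 0 ∧ v (-x / y) < 1 ∧ 0 < v (-x / y) ∧ v (-1 / y) = v (-x / y) ^ 3 := by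
  obtain ⟨hxy, hyx⟩ := vy_of_vx hW h hx
  have hx0 : 0 < v x := lt_trans zero_lt_one hx
  have hy0 : 0 < v y := lt_trans hx0 hxy
  have hyne : y ≠ 0 := by
    rintro rfl; simp at hy0
  have hz : v (-x / y) = v x / v y := by rw [map_div₀, Valuation.map_neg]
  have hw : v (-1 / y) = 1 / v y := by rw [map_div₀, Valuation.map_neg, map_one]
  refine ⟨hyne, ?_, ?_, ?_⟩
  · rw [hz, div_lt_one₀ hy0]; exact hxy
  · rw [hz]; exact div_pos hx0 hy0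
  · rw [hz, hw, div_pow, ← hyx]
    have : v y ≠ 0 := hy0.ne'
    field_simp

/-- negation in `z`-coordinates: `z(-P) ≡ -z(P)` modulo `r ^ 2`. -/
lemma neg_estimate {W : Affine K} (hW : IntegralCoeffs v W) {r : Γ₀} (hr : r < 1) {x y : K}
    (hy : y ≠ 0) (hz : v (-x / y) ≤ r) (hw : v (-1 / y) ≤ r) :
    W.negY x y ≠ 0 ∧ v (-x / W.negY x y + -x / y) ≤ r ^ 2 ∧
      v (-1 / W.negY x y) = v (-1 / y) := by
  obtain ⟨ha₁, ha₂, ha₃, ha₄, ha₆⟩ := hW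
  set u : K := W.a₁ * (-x / y) + W.a₃ * (-1 / y) with hu
  have hneg : W.negY x y = -y * (1 - u) := by
    rw [hu, negY]; field_simp; ring
  have hvu : v u ≤ r := v.map_add_le (vle_int_mul ha₁ hz) (vle_int_mul ha₃ hw)
  have h1u : v (1 - u) = 1 := v.map_one_sub_of_lt (lt_of_le_of_lt hvu hr)
  have h1une : 1 - u ≠ 0 := by
    intro h0; rw [h0, map_zero] at h1u; exact zero_ne_one h1u
  have hne : W.negY x y ≠ 0 := by
    rw [hneg]; exact mul_ne_zero (neg_ne_zero.mpr hy) h1une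
  refine ⟨hne, ?_, ?_⟩
  · have : -x / W.negY x y + -x / y = -((-x / y) * u) / (1 - u) := by
      rw [hneg]; field_simp; ring
    rw [this, map_div₀, h1u, div_one, Valuation.map_neg, sq]
    exact vle_mul hz hvu
  · rw [hneg, map_div₀, map_div₀, map_mul, h1u, mul_one, Valuation.map_neg, Valuation.map_neg]

variable [DecidableEq K]

/-- The main estimate in coordinates: the sum of two points with non-integral `x` again has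
non-integral `x`, and `z` is additive modulo `r ^ 2`. -/
theorem add_coord_estimate {W : Affine K} (hW : IntegralCoeffs v W) {r : Γ₀} (hr : r < 1)
    {x₁ y₁ x₂ y₂ : K} (h₁ : W.Equation x₁ y₁) (h₂ : W.Equation x₂ y₂)
    (hx₁ : 1 < v x₁) (hx₂ : 1 < v x₂) (hz₁ : v (-x₁ / y₁) ≤ r) (hz₂ : v (-x₂ / y₂) ≤ r)
    (hxy : ¬(x₁ = x₂ ∧ y₁ = W.negY x₂ y₂)) :
    1 < v (W.addX x₁ x₂ (W.slope x₁ x₂ y₁ y₂)) ∧
    v (-(W.addX x₁ x₂ (W.slope x₁ x₂ y₁ y₂)) / W.addY x₁ x₂ y₁ (W.slope x₁ x₂ y₁ y₂)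
        - -x₁ / y₁ - -x₂ / y₂) ≤ r ^ 2 := by
  obtain ⟨hy₁, -, -, hw₁⟩ := zw_of_vx hW h₁ hx₁
  obtain ⟨hy₂, -, -, hw₂⟩ := zw_of_vx hW h₂ hx₂
  have hr1 : r ≤ 1 := hr.le
  have hr32 : r ^ 3 ≤ r ^ 2 := pow_le_pow_right_of_le_one' hr1 (by norm_num)
  have hr2le : r ^ 2 ≤ r := by
    simpa using pow_le_pow_right_of_le_one' hr1 (show 1 ≤ 2 by norm_num)
  have hr2 : r ^ 2 < 1 := lt_of_le_of_lt hr2le hr
  have hw₁' : v (-1 / y₁) ≤ r ^ 2 := by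
    rw [hw₁]; exact (pow_le_pow_left' hz₁ 3).trans hr32
  have hw₂' : v (-1 / y₂) ≤ r ^ 2 := by
    rw [hw₂]; exact (pow_le_pow_left' hz₂ 3).trans hr32
  obtain ⟨hN, hD, hM, hQ, hR⟩ := zw_estimates hW hr hz₁ hz₂ hw₁' hw₂'
  have hDne : slD W (-x₂ / y₂) (-1 / y₁) (-1 / y₂) ≠ 0 := by
    intro h0; rw [h0, map_zero] at hD; exact zero_ne_one hD
  have hQne : slQ W (slN W (-x₁ / y₁) (-x₂ / y₂) (-1 / y₁))
      (slD W (-x₂ / y₂) (-1 / y₁) (-1 / y₂)) ≠ 0 := by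
    intro h0; rw [h0, map_zero] at hQ; exact zero_ne_one hQ
  obtain ⟨hy₃, hz₃, hw₃⟩ := third_point h₁ h₂ hy₁ hy₂ hxy rfl rfl rfl rfl hDne hQne
  have heq₃ := equation_negAdd h₁ h₂ hxy
  rw [addY]
  generalize W.negAddY x₁ x₂ y₁ (W.slope x₁ x₂ y₁ y₂) = y₃ at hy₃ hz₃ hw₃ heq₃ ⊢
  generalize W.addX x₁ x₂ (W.slope x₁ x₂ y₁ y₂) = x₃ at hz₃ hw₃ heq₃ ⊢
  generalize slM W (-x₁ / y₁) (-x₂ / y₂) (-1 / y₁) (-1 / y₂) = M at hM hR hz₃ hw₃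
  generalize slN W (-x₁ / y₁) (-x₂ / y₂) (-1 / y₁) = N at hN hQ hR hz₃ hw₃ hQne
  generalize slD W (-x₂ / y₂) (-1 / y₁) (-1 / y₂) = D at hD hQ hR hz₃ hw₃ hQne hDne
  generalize slQ W N D = Q at hQ hz₃ hQne
  generalize slR W N D M = R at hR hz₃
  have hRQ : v (R / Q) ≤ r ^ 2 := by rw [map_div₀, hQ, div_one]; exact hR
  have hz₃' : v (-x₃ / y₃) ≤ r := by
    rw [hz₃]
    refine v.map_sub_le (v.map_sub_le ?_ hz₂) (hRQ.trans hr2le)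
    rw [Valuation.map_neg]; exact hz₁
  have hw₃' : v (-1 / y₃) ≤ r ^ 2 := by
    have : v (-1 / y₃ * D) = v (-1 / y₃) := by rw [map_mul, hD, mul_one]
    rw [← this, hw₃]
    exact v.map_add_le (vle_mul_int hN (hz₃'.trans hr1)) hM
  have hy₃v : 1 < v y₃ := by
    rw [map_div₀, Valuation.map_neg, map_one] at hw₃'
    have hlt : 1 / v y₃ < 1 := lt_of_le_of_lt hw₃' hr2
    have hy0 : 0 < v y₃ := by
      rw [pos_iff_ne_zero, ne_eq, map_eq_zero]; exact hy₃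
    rwa [div_lt_one₀ hy0] at hlt
  refine ⟨vx_of_vy hW heq₃ hy₃v, ?_⟩
  obtain ⟨-, hneg, -⟩ := neg_estimate hW hr hy₃ hz₃' (hw₃'.trans hr2le)
  have : -x₃ / W.negY x₃ y₃ - -x₁ / y₁ - -x₂ / y₂
      = (-x₃ / W.negY x₃ y₃ + -x₃ / y₃) + R / Q := by
    rw [hz₃]; ring
  rw [this]
  exact v.map_add_le hneg hRQ

end Val

section Points

variable {K : Type*} [Field K] {Γ₀ : Type*} [LinearOrderedCommGroupWithZero Γ₀]
  (v : Valuation K Γ₀) {W : Affine K}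

/-- The `z`-coordinate `-x/y` of a point (`0` at infinity). -/
def zc : W.Point → K
  | .zero => 0
  | .some x y _ => -x / y

@[simp] lemma zc_zero : zc (0 : W.Point) = 0 := rfl
@[simp] lemma zc_some {x y : K} (h : W.Nonsingular x y) : zc (Point.some x y h) = -x / y := rfl

/-- Membership in the kernel of reduction `E₁ = {O} ∪ {(x,y) : 1 < v x}`. -/
def InE1 (P : W.Point) : Prop :=
  P = 0 ∨ ∃ (x y : K) (h : W.Nonsingular x y), P = Point.some x y h ∧ 1 < v x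

lemma inE1_zero : InE1 v (0 : W.Point) := Or.inl rfl

lemma inE1_some {x y : K} (h : W.Nonsingular x y) : InE1 v (Point.some x y h) ↔ 1 < v x := by
  constructor
  · rintro (h0 | ⟨x', y', h', he, hx⟩)
    · exact absurd h0 (Point.some_ne_zero h)
    · rw [Point.some.injEq] at he
      rw [he.1]; exact hx
  · intro hx; exact Or.inr ⟨x, y, h, rfl, hx⟩

variable {v}

lemma InE1.neg {P : W.Point} (hP : InE1 v P) : InE1 v (-P) := by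
  rcases hP with rfl | ⟨x, y, h, rfl, hx⟩
  · exact Or.inl rfl
  · rw [Point.neg_some, inE1_some]; exact hx

lemma InE1.zc_lt_one (hW : IntegralCoeffs v W) {P : W.Point} (hP : InE1 v P) : v (zc P) < 1 := by
  rcases hP with rfl | ⟨x, y, h, rfl, hx⟩
  · simp
  · exact (zw_of_vx hW h.1 hx).2.1

lemma InE1.zc_pos (hW : IntegralCoeffs v W) {P : W.Point} (hP : InE1 v P) (h0 : P ≠ 0) :
    0 < v (zc P) := by
  rcases hP with rfl | ⟨x, y, h, rfl, hx⟩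
  · exact absurd rfl h0
  · exact (zw_of_vx hW h.1 hx).2.2.1

variable [DecidableEq K]

/-- **Main estimate.** `E₁` is closed under addition and `z` is additive modulo `r ^ 2`. -/
theorem add_estimate (hW : IntegralCoeffs v W) {r : Γ₀} (hr : r < 1) {P₁ P₂ : W.Point}
    (h₁ : InE1 v P₁) (h₂ : InE1 v P₂) (hz₁ : v (zc P₁) ≤ r) (hz₂ : v (zc P₂) ≤ r) :
    InE1 v (P₁ + P₂) ∧ v (zc (P₁ + P₂) - zc P₁ - zc P₂) ≤ r ^ 2 := by
  rcases h₁ with rfl | ⟨x₁, y₁, hn₁, rfl, hx₁⟩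
  · rw [zero_add]; exact ⟨h₂, by simp⟩
  rcases h₂ with rfl | ⟨x₂, y₂, hn₂, rfl, hx₂⟩
  · rw [add_zero]; exact ⟨Or.inr ⟨x₁, y₁, hn₁, rfl, hx₁⟩, by simp⟩
  rw [zc_some] at hz₁ hz₂
  by_cases hxy : x₁ = x₂ ∧ y₁ = W.negY x₂ y₂
  · rw [Point.add_of_Y_eq hxy.1 hxy.2]
    refine ⟨inE1_zero v, ?_⟩
    obtain ⟨hy₂, -, -, hw₂⟩ := zw_of_vx hW hn₂.1 hx₂
    have hr1 : r ≤ 1 := hr.le
    have hw₂' : v (-1 / y₂) ≤ r := by
      rw [hw₂]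
      calc v (-x₂ / y₂) ^ 3 ≤ r ^ 3 := pow_le_pow_left' hz₂ 3
        _ ≤ r ^ 1 := pow_le_pow_right_of_le_one' hr1 (by norm_num)
        _ = r := pow_one r
    obtain ⟨-, hneg, -⟩ := neg_estimate hW hr hy₂ hz₂ hw₂'
    rw [zc_zero, zc_some, zc_some, hxy.1, hxy.2]
    have : (0 : K) - -x₂ / W.negY x₂ y₂ - -x₂ / y₂ = -(-x₂ / W.negY x₂ y₂ + -x₂ / y₂) := by ring
    rw [this, Valuation.map_neg]
    exact hneg
  · rw [Point.add_some hxy, zc_some, zc_some, zc_some, inE1_some]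
    exact add_coord_estimate hW hr hn₁.1 hn₂.1 hx₁ hx₂ hz₁ hz₂ hxy

/-- multiples stay in `E₁` and `z (n • P) ≡ n z(P)` modulo `r ^ 2`. -/
theorem nsmul_estimate (hW : IntegralCoeffs v W) {r : Γ₀} (hr : r < 1) {P : W.Point}
    (hP : InE1 v P) (hz : v (zc P) ≤ r) (n : ℕ) :
    InE1 v (n • P) ∧ v (zc (n • P) - n * zc P) ≤ r ^ 2 := by
  have hr1 : r ≤ 1 := hr.le
  have hr2le : r ^ 2 ≤ r := by
    simpa using pow_le_pow_right_of_le_one' hr1 (show 1 ≤ 2 by norm_num)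
  induction n with
  | zero => simp [inE1_zero]
  | succ n ih =>
    obtain ⟨ih₁, ih₂⟩ := ih
    have hzn : v (zc (n • P)) ≤ r := by
      have : zc (n • P) = (zc (n • P) - n * zc P) + n * zc P := by ring
      rw [this]
      exact v.map_add_le (ih₂.trans hr2le) (vle_int_mul (vle_natCast n) hz)
    obtain ⟨h₁, h₂⟩ := add_estimate hW hr ih₁ hP hzn hz
    rw [succ_nsmul]
    refine ⟨h₁, ?_⟩
    have : zc (n • P + P) - ((n + 1 : ℕ) : K) * zc P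
        = (zc (n • P + P) - zc (n • P) - zc P) + (zc (n • P) - n * zc P) := by
      push_cast; ring
    rw [this]
    exact v.map_add_le h₂ ih₂

/-- **`E₁` has no torsion of order prime to the residue characteristic.** -/
theorem eq_zero_of_nsmul_eq_zero (hW : IntegralCoeffs v W) {P : W.Point} (hP : InE1 v P)
    {n : ℕ} (hn : v (n : K) = 1) (h : n • P = 0) : P = 0 := by
  by_contra h0
  have hlt := hP.zc_lt_one hW
  have hpos := hP.zc_pos hW h0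
  obtain ⟨-, h₂⟩ := nsmul_estimate hW hlt hP le_rfl n
  rw [h, zc_zero, zero_sub, Valuation.map_neg, map_mul, hn, one_mul, sq] at h₂
  have : (1 : Γ₀) ≤ v (zc P) := by
    have h3 : v (zc P) * 1 ≤ v (zc P) * v (zc P) := by rwa [mul_one]
    exact le_of_mul_le_mul_left h3 hpos
  exact absurd hlt (not_lt.mpr this)

variable (v W) in
/-- The kernel of reduction as a subgroup. -/
def E1 (hW : IntegralCoeffs v W) : AddSubgroup W.Point where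
  carrier := {P | InE1 v P}
  zero_mem' := inE1_zero v
  add_mem' := by
    intro P Q hP hQ
    have h1 := hP.zc_lt_one hW
    have h2 := hQ.zc_lt_one hW
    exact (add_estimate hW (max_lt h1 h2) hP hQ (le_max_left _ _) (le_max_right _ _)).1
  neg_mem' := fun hP => hP.neg

lemma mem_E1 (hW : IntegralCoeffs v W) {P : W.Point} : P ∈ E1 v W hW ↔ InE1 v P := Iff.rfl

/-- A point killed by `n` with `v n = 1` has integral `x`-coordinate. -/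
theorem x_integral_of_nsmul_eq_zero (hW : IntegralCoeffs v W) {x y : K} (h : W.Nonsingular x y)
    {n : ℕ} (hn : v (n : K) = 1) (hP : n • Point.some x y h = 0) : v x ≤ 1 := by
  by_contra hx
  have hx' : 1 < v x := not_le.mp hx
  exact Point.some_ne_zero h
    (eq_zero_of_nsmul_eq_zero hW ((inE1_some v h).mpr hx') hn hP)

end Points

end Fermat.Agent.S05.Kernel
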