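/-
T-S05 (helper25): the model curve `Wab a b : Y² = X³ + a X² + b X` and its basic API.
All later files of `Fermat/Agent/S05/` work on this model.
-/
import Mathlib

set_option autoImplicit false

namespace Fermat.Agent.S05

open WeierstrassCurve WeierstrassCurve.Affine

/-- The model curve `Y² = X³ + a X² + b X`. -/
def Wab {K : Type*} [CommRing K] (a b : K) : WeierstrassCurve K := ⟨0, a, 0, b, 0⟩

section CommRing

variable {K : Type*} [CommRing K] (a b : K)

@[simp] lemma Wab_a₁ : (Wab a b).a₁ = 0 := rfl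
@[simp] lemma Wab_a₂ : (Wab a b).a₂ = a := rfl
@[simp] lemma Wab_a₃ : (Wab a b).a₃ = 0 := rfl
@[simp] lemma Wab_a₄ : (Wab a b).a₄ = b := rfl
@[simp] lemma Wab_a₆ : (Wab a b).a₆ = 0 := rfl

variable {a b}

lemma Wab_equation_iff (x y : K) :
    (Wab a b).toAffine.Equation x y ↔ y ^ 2 = x ^ 3 + a * x ^ 2 + b * x := by
  rw [Affine.equation_iff]; simp

lemma Wab_nonsingular_iff (x y : K) :
    (Wab a b).toAffine.Nonsingular x y ↔
      y ^ 2 = x ^ 3 + a * x ^ 2 + b * x ∧ (3 * x ^ 2 + 2 * a * x + b ≠ 0 ∨ y ≠ -y) := by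
  rw [Affine.nonsingular_iff, Wab_equation_iff]
  simp [eq_comm]

@[simp] lemma Wab_negY (x y : K) : (Wab a b).toAffine.negY x y = -y := by
  simp [Affine.negY]

end CommRing

section Val

variable {K : Type*} [Field K] {Γ₀ : Type*} [LinearOrderedCommGroupWithZero Γ₀]
  (v : Valuation K Γ₀) {a b : K}

/-- The kernel of reduction: `O`, or `v x > 1` (valuations are multiplicative:
`v x ≤ 1` integral, `v x < 1` in the maximal ideal). -/
def InE1 : (Wab a b).toAffine.Point → Prop
  | .zero => True
  | .some x _ _ => 1 < v x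

/-- `O`, or `v x ≥ 1`: the points that do not reduce to `(0,0)`. In the multiplicative
case (`v a = 1`, `v b < 1`) these are the points with nonsingular reduction. -/
def InE0 : (Wab a b).toAffine.Point → Prop
  | .zero => True
  | .some x _ _ => 1 ≤ v x

@[simp] lemma InE1_zero : InE1 v (0 : (Wab a b).toAffine.Point) := trivial
@[simp] lemma InE0_zero : InE0 v (0 : (Wab a b).toAffine.Point) := trivial
@[simp] lemma InE1_some {x y : K} (h : (Wab a b).toAffine.Nonsingular x y) :
    InE1 v (Point.some x y h) ↔ 1 < v x := Iff.rfl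
@[simp] lemma InE0_some {x y : K} (h : (Wab a b).toAffine.Nonsingular x y) :
    InE0 v (Point.some x y h) ↔ 1 ≤ v x := Iff.rfl

lemma InE1.inE0 {P : (Wab a b).toAffine.Point} (h : InE1 v P) : InE0 v P := by
  rcases P with _ | ⟨x, y, hxy⟩
  · trivial
  · exact le_of_lt h

end Val

end Fermat.Agent.S05
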