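import Mathlib

/-!
# S05 helpers: transport of points along an admissible change of variables

Mathlib has the action of `WeierstrassCurve.VariableChange` on Weierstrass curves but no induced
map on points. For fields we construct, for `W₁ = C • W₂`, the additive isomorphism
`W₁.Point ≃+ W₂.Point`, `(x, y) ↦ (u²x + r, u³y + u²sx + t)`, and show that it commutes with
the maps on points induced by field homomorphisms fixing the data.
-/

set_option autoImplicit false

open WeierstrassCurve WeierstrassCurve.Affine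

namespace Fermat.Agent.S05.Transport

variable {F : Type*} [Field F]

/-- The `x`-coordinate of the image of a point under the change of variables `C`. -/
def vcX (C : VariableChange F) (x : F) : F := (C.u : F) ^ 2 * x + C.r

/-- The `y`-coordinate of the image of a point under the change of variables `C`. -/
def vcY (C : VariableChange F) (x y : F) : F :=
  (C.u : F) ^ 3 * y + (C.u : F) ^ 2 * C.s * x + C.t

section
variable {W₁ W₂ : WeierstrassCurve F} {C : VariableChange F}

lemma u_ne_zero (C : VariableChange F) : (C.u : F) ≠ 0 := C.u.ne_zero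

lemma vcX_injective (C : VariableChange F) : Function.Injective (vcX C) := by
  intro x x' h
  have hu := pow_ne_zero 2 (u_ne_zero C)
  simp only [vcX, add_left_inj] at h
  exact mul_left_cancel₀ hu h

lemma vcY_injective (C : VariableChange F) (x : F) : Function.Injective (vcY C x) := by
  intro y y' h
  have hu := pow_ne_zero 3 (u_ne_zero C)
  simp only [vcY, add_left_inj] at h
  exact mul_left_cancel₀ hu h

lemma equation_iff_vc (h : W₁ = C • W₂) (x y : F) :
    W₂.toAffine.Equation (vcX C x) (vcY C x y) ↔ W₁.toAffine.Equation x y := by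
  subst h
  have hu := u_ne_zero C
  rw [equation_iff, equation_iff]
  simp only [variableChange_a₁, variableChange_a₂, variableChange_a₃, variableChange_a₄,
    variableChange_a₆, vcX, vcY, Units.val_inv_eq_inv_val]
  constructor
  · intro h
    field_simp
    linear_combination h
  · intro h
    field_simp at h
    linear_combination h

lemma nonsingular_iff_vc (h : W₁ = C • W₂) (x y : F) :
    W₂.toAffine.Nonsingular (vcX C x) (vcY C x y) ↔ W₁.toAffine.Nonsingular x y := by
  rw [nonsingular_iff, nonsingular_iff, equation_iff_vc h]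
  subst h
  have hu := u_ne_zero C
  refine and_congr_right fun _ => ?_
  simp only [variableChange_a₁, variableChange_a₂, variableChange_a₃, variableChange_a₄,
    vcX, vcY, Units.val_inv_eq_inv_val]
  rw [← not_iff_not]
  simp only [not_or, not_not]
  constructor
  · rintro ⟨h1, h2⟩
    constructor
    · field_simp
      linear_combination h1 + C.s * h2
    · field_simp
      linear_combination h2
  · rintro ⟨h1, h2⟩
    field_simp at h1 h2
    constructor
    · linear_combination h1 - C.s * h2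
    · linear_combination h2

lemma negY_vc (h : W₁ = C • W₂) (x y : F) :
    W₂.toAffine.negY (vcX C x) (vcY C x y) = vcY C x (W₁.toAffine.negY x y) := by
  subst h
  have hu := u_ne_zero C
  simp only [negY, variableChange_a₁, variableChange_a₃, vcX, vcY, Units.val_inv_eq_inv_val]
  field_simp
  ring

lemma addX_vc (h : W₁ = C • W₂) (x₁ x₂ ℓ : F) :
    W₂.toAffine.addX (vcX C x₁) (vcX C x₂) (C.u * ℓ + C.s) =
      vcX C (W₁.toAffine.addX x₁ x₂ ℓ) := by
  subst h
  have hu := u_ne_zero C
  simp only [addX, variableChange_a₁, variableChange_a₂, vcX, Units.val_inv_eq_inv_val]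
  field_simp
  ring

lemma negAddY_vc (h : W₁ = C • W₂) (x₁ x₂ y₁ ℓ : F) :
    W₂.toAffine.negAddY (vcX C x₁) (vcX C x₂) (vcY C x₁ y₁) (C.u * ℓ + C.s) =
      vcY C (W₁.toAffine.addX x₁ x₂ ℓ) (W₁.toAffine.negAddY x₁ x₂ y₁ ℓ) := by
  rw [negAddY, addX_vc h, negAddY]
  simp only [vcX, vcY]
  ring

lemma addY_vc (h : W₁ = C • W₂) (x₁ x₂ y₁ ℓ : F) :
    W₂.toAffine.addY (vcX C x₁) (vcX C x₂) (vcY C x₁ y₁) (C.u * ℓ + C.s) =
      vcY C (W₁.toAffine.addX x₁ x₂ ℓ) (W₁.toAffine.addY x₁ x₂ y₁ ℓ) := by
  rw [addY, addY, negAddY_vc h, addX_vc h, negY_vc h]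

variable [DecidableEq F]

lemma slope_vc (h : W₁ = C • W₂) {x₁ x₂ y₁ y₂ : F} (h₁ : W₁.toAffine.Equation x₁ y₁)
    (h₂ : W₁.toAffine.Equation x₂ y₂) (hxy : ¬(x₁ = x₂ ∧ y₁ = W₁.toAffine.negY x₂ y₂)) :
    W₂.toAffine.slope (vcX C x₁) (vcX C x₂) (vcY C x₁ y₁) (vcY C x₂ y₂) =
      C.u * W₁.toAffine.slope x₁ x₂ y₁ y₂ + C.s := by
  have hu := u_ne_zero C
  by_cases hx : x₁ = x₂
  · have hy : y₁ ≠ W₁.toAffine.negY x₂ y₂ := fun hy => hxy ⟨hx, hy⟩
    have hy' : vcY C x₁ y₁ ≠ W₂.toAffine.negY (vcX C x₂) (vcY C x₂ y₂) := by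
      rw [negY_vc h, hx]
      exact fun h' => hy (vcY_injective C x₂ h')
    rw [slope_of_Y_ne (congrArg (vcX C) hx) hy', slope_of_Y_ne hx hy, negY_vc h]
    obtain rfl : y₁ = y₂ := Y_eq_of_Y_ne h₁ h₂ hx hy
    subst hx
    have hd : y₁ - W₁.toAffine.negY x₁ y₁ ≠ 0 := sub_ne_zero.mpr hy
    have e : vcY C x₁ y₁ - vcY C x₁ (W₁.toAffine.negY x₁ y₁) =
        (C.u : F) ^ 3 * (y₁ - W₁.toAffine.negY x₁ y₁) := by
      simp only [vcY]; ring
    rw [e, mul_div_assoc', div_add' _ _ _ hd,
      div_eq_div_iff (mul_ne_zero (pow_ne_zero 3 hu) hd) hd]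
    subst h
    simp only [negY, variableChange_a₁, variableChange_a₂, variableChange_a₃, variableChange_a₄,
      vcX, vcY, Units.val_inv_eq_inv_val]
    field_simp
    ring
  · have hx' : vcX C x₁ ≠ vcX C x₂ := fun h' => hx (vcX_injective C h')
    rw [slope_of_X_ne hx', slope_of_X_ne hx]
    have hd : x₁ - x₂ ≠ 0 := sub_ne_zero.mpr hx
    have e : vcX C x₁ - vcX C x₂ = (C.u : F) ^ 2 * (x₁ - x₂) := by
      simp only [vcX]; ring
    have e' : vcY C x₁ y₁ - vcY C x₂ y₂ =
        (C.u : F) ^ 3 * (y₁ - y₂) + (C.u : F) ^ 2 * C.s * (x₁ - x₂) := by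
      simp only [vcY]; ring
    rw [e, e']
    field_simp

/-- The map on points induced by a change of variables, as a function. -/
def pointFun (h : W₁ = C • W₂) : W₁.toAffine.Point → W₂.toAffine.Point
  | .zero => .zero
  | .some x y hxy => .some (vcX C x) (vcY C x y) ((nonsingular_iff_vc h x y).mpr hxy)

omit [DecidableEq F] in
@[simp] lemma pointFun_zero (h : W₁ = C • W₂) : pointFun h (0 : W₁.toAffine.Point) = 0 := rfl

omit [DecidableEq F] in
@[simp] lemma pointFun_some (h : W₁ = C • W₂) {x y : F} (hxy : W₁.toAffine.Nonsingular x y) :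
    pointFun h (.some x y hxy) =
      .some (vcX C x) (vcY C x y) ((nonsingular_iff_vc h x y).mpr hxy) := rfl

lemma pointFun_add (h : W₁ = C • W₂) (P Q : W₁.toAffine.Point) :
    pointFun h (P + Q) = pointFun h P + pointFun h Q := by
  rcases P with _ | ⟨x₁, y₁, h₁⟩ <;> rcases Q with _ | ⟨x₂, y₂, h₂⟩
  · rfl
  · rfl
  · rfl
  by_cases hxy : x₁ = x₂ ∧ y₁ = W₁.toAffine.negY x₂ y₂
  · rw [Point.add_of_Y_eq hxy.1 hxy.2, pointFun_some, pointFun_some,
      Point.add_of_Y_eq (congrArg (vcX C) hxy.1) (by rw [negY_vc h, hxy.2, hxy.1])]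
    rfl
  · have hxy' : ¬(vcX C x₁ = vcX C x₂ ∧
        vcY C x₁ y₁ = W₂.toAffine.negY (vcX C x₂) (vcY C x₂ y₂)) := by
      rintro ⟨hx, hy⟩
      have hx' := vcX_injective C hx
      subst hx'
      rw [negY_vc h] at hy
      exact hxy ⟨rfl, vcY_injective C x₁ hy⟩
    rw [Point.add_some hxy, pointFun_some, pointFun_some, pointFun_some, Point.add_some hxy']
    simp only [slope_vc h h₁.1 h₂.1 hxy, addX_vc h, addY_vc h]

omit [DecidableEq F] in
lemma pointFun_injective (h : W₁ = C • W₂) : Function.Injective (pointFun h) := by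
  rintro (_ | ⟨x₁, y₁, h₁⟩) (_ | ⟨x₂, y₂, h₂⟩) hPQ
  · rfl
  · exact absurd hPQ (by simp [pointFun])
  · exact absurd hPQ (by simp [pointFun])
  · simp only [pointFun_some, Point.some.injEq] at hPQ
    obtain ⟨hx, hy⟩ := hPQ
    have hx' := vcX_injective C hx
    subst hx'
    have hy' := vcY_injective C x₁ hy
    subst hy'
    rfl

omit [DecidableEq F] in
lemma pointFun_surjective (h : W₁ = C • W₂) : Function.Surjective (pointFun h) := by
  have hu := u_ne_zero C
  rintro (_ | ⟨X, Y, hXY⟩)
  · exact ⟨0, rfl⟩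
  · have hx : vcX C ((X - C.r) / (C.u : F) ^ 2) = X := by
      simp only [vcX]; field_simp; ring
    have hy : vcY C ((X - C.r) / (C.u : F) ^ 2)
        ((Y - C.s * (X - C.r) - C.t) / (C.u : F) ^ 3) = Y := by
      simp only [vcY]; field_simp; ring
    have hns : W₁.toAffine.Nonsingular ((X - C.r) / (C.u : F) ^ 2)
        ((Y - C.s * (X - C.r) - C.t) / (C.u : F) ^ 3) := by
      rw [← nonsingular_iff_vc h, hx, hy]; exact hXY
    refine ⟨.some _ _ hns, ?_⟩
    rw [pointFun_some]
    simp only [hx, hy]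

/-- The additive homomorphism on points induced by a change of variables `W₁ = C • W₂`. -/
noncomputable def pointHom (h : W₁ = C • W₂) : W₁.toAffine.Point →+ W₂.toAffine.Point where
  toFun := pointFun h
  map_zero' := rfl
  map_add' := pointFun_add h

/-- The additive isomorphism on points induced by a change of variables `W₁ = C • W₂`:
`(x, y) ↦ (u²x + r, u³y + u²sx + t)`. -/
noncomputable def pointEquiv (h : W₁ = C • W₂) : W₁.toAffine.Point ≃+ W₂.toAffine.Point :=
  AddEquiv.ofBijective (pointHom h) ⟨pointFun_injective h, pointFun_surjective h⟩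

lemma pointEquiv_apply (h : W₁ = C • W₂) (P : W₁.toAffine.Point) :
    pointEquiv h P = pointFun h P := rfl

@[simp] lemma pointEquiv_zero (h : W₁ = C • W₂) : pointEquiv h (0 : W₁.toAffine.Point) = 0 := rfl

@[simp] lemma pointEquiv_some (h : W₁ = C • W₂) {x y : F} (hxy : W₁.toAffine.Nonsingular x y) :
    pointEquiv h (.some x y hxy) =
      .some (vcX C x) (vcY C x y) ((nonsingular_iff_vc h x y).mpr hxy) := rfl

end

end Fermat.Agent.S05.Transport
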