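import Mathlib
import Fermat.Prelude.Def_FLTPrelim_GaloisRep
import Fermat.Agent.S05.Defs
import Fermat.Agent.S05.Transport

/-!
# S05: base change of the point-level variable change, Galois equivariance, and the transport
statement in the shape consumed by `Glue.lean` (`TransportExistsQ`).
-/

set_option autoImplicit false

open WeierstrassCurve WeierstrassCurve.Affine

namespace Fermat.Agent.S05.TransportQ

open Fermat.Agent.S05 Fermat.Agent.S05.Transport

section BaseChange

variable {R : Type*} [CommRing R] {W₁ W₂ : WeierstrassCurve R} {C : VariableChange R}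

lemma baseChange_eq (K : Type*) [CommRing K] [Algebra R K] (h : W₁ = C • W₂) :
    W₁.baseChange K = C.baseChange K • W₂.baseChange K := by
  rw [h]
  exact (map_variableChange W₂ C (algebraMap R K)).symm

/-- The point-level change of variables after base change to a field `K`. -/
noncomputable def pointEquivBC (K : Type*) [Field K] [DecidableEq K] [Algebra R K]
    (h : W₁ = C • W₂) : (W₁⁄K).Point ≃+ (W₂⁄K).Point :=
  Transport.pointEquiv (baseChange_eq K h)

variable {S : Type*} [CommRing S] [Algebra R S]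
  {F : Type*} [Field F] [DecidableEq F] [Algebra R F] [Algebra S F] [IsScalarTower R S F]
  {K : Type*} [Field K] [DecidableEq K] [Algebra R K] [Algebra S K] [IsScalarTower R S K]

omit [DecidableEq F] [DecidableEq K] in
lemma map_algebraMap_tower (f : F →ₐ[S] K) (r : R) : f (algebraMap R F r) = algebraMap R K r :=
  RingHom.congr_fun (f.comp_algebraMap_of_tower R) r

omit [DecidableEq F] [DecidableEq K] in
lemma map_vcX (f : F →ₐ[S] K) (x : F) :
    f (vcX (C.baseChange F) x) = vcX (C.baseChange K) (f x) := by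
  simp only [vcX, VariableChange.baseChange, VariableChange.map, Units.coe_map, MonoidHom.coe_coe,
    map_add, map_mul, map_pow, map_algebraMap_tower]

omit [DecidableEq F] [DecidableEq K] in
lemma map_vcY (f : F →ₐ[S] K) (x y : F) :
    f (vcY (C.baseChange F) x y) = vcY (C.baseChange K) (f x) (f y) := by
  simp only [vcY, VariableChange.baseChange, VariableChange.map, Units.coe_map, MonoidHom.coe_coe,
    map_add, map_mul, map_pow, map_algebraMap_tower]

lemma pointEquivBC_map (h : W₁ = C • W₂) (f : F →ₐ[S] K) (P : (W₁⁄F).Point) :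
    pointEquivBC K h (Point.map f P) = Point.map f (pointEquivBC F h P) := by
  rcases P with _ | ⟨x, y, hxy⟩
  · rfl
  · rw [Point.map_some]
    simp only [pointEquivBC, Transport.pointEquiv_some, Point.map_some, Point.some.injEq]
    exact ⟨(map_vcX f x).symm, (map_vcY f x y).symm⟩

end BaseChange

/-- The change of variables `(X, Y) = (4x - t, 8y + 4x)` over `ℚ`. -/
def vcQ (t : ℚ) : VariableChange ℚ := ⟨Units.mk0 2 two_ne_zero, -t, 1, 0⟩

/-- Over `ℚ`: the curve `y² + xy = x³ + ((B-1-A)/4) x² - (AB/16) x` is the transform of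
`Wab (3t + B - A) (3t² + 2t(B - A) - AB)` under `vcQ t`, when `t (t - A) (t + B) = 0`. -/
lemma frey_shape_eq {A B t : ℚ} (ht : t * (t - A) * (t + B) = 0) :
    (⟨1, (B - 1 - A) / 4, 0, -A * B / 16, 0⟩ : WeierstrassCurve ℚ) =
      vcQ t • Wab (3 * t + B - A) (3 * t ^ 2 + 2 * t * (B - A) - A * B) := by
  ext
  · simp [vcQ, variableChange_a₁]
  · simp only [vcQ, variableChange_a₂, Wab_a₁, Wab_a₂, Units.val_inv_eq_inv_val, Units.val_mk0]
    field_simp; ring
  · simp [vcQ, variableChange_a₃]
  · simp only [vcQ, variableChange_a₄, Wab_a₁, Wab_a₂, Wab_a₃, Wab_a₄, Units.val_inv_eq_inv_val,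
      Units.val_mk0]
    field_simp; ring
  · simp only [vcQ, variableChange_a₆, Wab_a₁, Wab_a₂, Wab_a₃, Wab_a₄, Wab_a₆,
      Units.val_inv_eq_inv_val, Units.val_mk0]
    have : (0 : ℚ) + -t * (3 * t ^ 2 + 2 * t * (B - A) - A * B) +
        (-t) ^ 2 * (3 * t + B - A) + (-t) ^ 3 - 0 * 0 - 0 ^ 2 - -t * 0 * 0 =
        -(t * (t - A) * (t + B)) := by ring
    rw [this, ht]; simp

local notation "Qbar" => AlgebraicClosure ℚ

/-- The transport piece in the exact shape of `Glue.TransportExistsQ`. -/
theorem transportExistsQ :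
    ∀ (A B t : ℚ), t * (t - A) * (t + B) = 0 → ∀ W : WeierstrassCurve ℚ,
      W = ⟨1, (B - 1 - A) / 4, 0, -A * B / 16, 0⟩ →
      ∃ φ : (W⁄Qbar).Point ≃+
          ((Wab (3 * t + B - A) (3 * t ^ 2 + 2 * t * (B - A) - A * B) :
            WeierstrassCurve ℚ)⁄Qbar).Point,
        ∀ (σ : Qbar ≃ₐ[ℚ] Qbar) (P : (W⁄Qbar).Point), φ (σ • P) = σ • φ P := by
  intro A B t ht W hW
  have h : W = vcQ t • Wab (3 * t + B - A) (3 * t ^ 2 + 2 * t * (B - A) - A * B) :=
    hW.trans (frey_shape_eq ht)
  exact ⟨pointEquivBC Qbar h, fun σ P => pointEquivBC_map h σ.toAlgHom P⟩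

end Fermat.Agent.S05.TransportQ
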