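/-
T-S05 (helper25): exact addition formulas on the model curve `Wab a b : Y² = X³ + aX² + bX`
in the coordinates `(x, s)`, `s = y / x` (so `s² = x + a + b / x`), over a field.

* `s_sq`, `ssub_mul_sadd`            : curve equation, `(s₁-s₂)(s₁+s₂) = (x₁-x₂)(1 - b/(x₁x₂))`
* `T0`, `add_T0_xs`, `neg_xs`        : `(x,s) + T0 = (b/x, -s)`, `-(x,s) = (x,-s)`
* `add_xs`                           : master formula (`s₁+s₂ ≠ 0`, `x₁x₂ ≠ b`), chord AND doubling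
* `add_xs_eq_T0`, `add_xs_of_S_eq_zero` : the degenerate cases
* `add_xs_chord`                     : `x(P₁+P₂) = x₁x₂(s₁-s₂)²/(x₁-x₂)²` for `x₁ ≠ x₂`
* `point_cases`                      : a point is `0`, `T0` or `(x, s)` with `x ≠ 0`
-/
import Fermat.Agent.S05.Defs

set_option autoImplicit false
set_option linter.unusedSectionVars false

namespace Fermat.Agent.S05

open WeierstrassCurve WeierstrassCurve.Affine

variable {K : Type*} [Field K] [DecidableEq K] {a b : K}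

/-- Transport of `Point.some` along equalities of coordinates. -/
lemma some_congr {W : Affine K} {x y x' y' : K} (h : W.Nonsingular x y) (hx : x = x')
    (hy : y = y') : ∃ h' : W.Nonsingular x' y', Point.some x y h = Point.some x' y' h' := by
  subst hx hy; exact ⟨h, rfl⟩

/-- The curve equation in `(x, s)`-coordinates, `s = y / x`. -/
lemma s_sq {x s : K} (h : (Wab a b).toAffine.Nonsingular x (x * s)) (hx : x ≠ 0) :
    s ^ 2 = x + a + b / x := by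
  have h1 := ((Wab_nonsingular_iff _ _).1 h).1
  field_simp
  have : x * (x * s ^ 2 - (x ^ 2 + a * x + b)) = 0 := by linear_combination h1
  rcases mul_eq_zero.1 this with h0 | h0
  · exact absurd h0 hx
  · linear_combination h0

lemma a_eq {x s : K} (h : (Wab a b).toAffine.Nonsingular x (x * s)) (hx : x ≠ 0) :
    a = s ^ 2 - x - b / x := by
  rw [s_sq h hx]; ring

/-- `(s₁ - s₂)(s₁ + s₂) = (x₁ - x₂)(1 - b/(x₁x₂))`. -/
lemma ssub_mul_sadd {x₁ s₁ x₂ s₂ : K} (h₁ : (Wab a b).toAffine.Nonsingular x₁ (x₁ * s₁))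
    (h₂ : (Wab a b).toAffine.Nonsingular x₂ (x₂ * s₂)) (hx₁ : x₁ ≠ 0) (hx₂ : x₂ ≠ 0) :
    (s₁ - s₂) * (s₁ + s₂) = (x₁ - x₂) * (1 - b / (x₁ * x₂)) := by
  have e1 := s_sq h₁ hx₁
  have e2 := s_sq h₂ hx₂
  have : (s₁ - s₂) * (s₁ + s₂) = s₁ ^ 2 - s₂ ^ 2 := by ring
  rw [this, e1, e2]
  field_simp
  ring

lemma b_eq_of_ne {x₁ s₁ x₂ s₂ : K} (h₁ : (Wab a b).toAffine.Nonsingular x₁ (x₁ * s₁))
    (h₂ : (Wab a b).toAffine.Nonsingular x₂ (x₂ * s₂)) (hx₁ : x₁ ≠ 0) (hx₂ : x₂ ≠ 0)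
    (hne : x₁ ≠ x₂) :
    b = x₁ * x₂ * (1 - (s₁ - s₂) * (s₁ + s₂) / (x₁ - x₂)) := by
  have := ssub_mul_sadd h₁ h₂ hx₁ hx₂
  have hne' : x₁ - x₂ ≠ 0 := sub_ne_zero.2 hne
  rw [this]
  field_simp
  ring

/-- `x`-coordinate of the sum in `(x,s)`-coordinates. -/
def addXs (b x₁ s₁ x₂ s₂ : K) : K := (x₁ * x₂ - b) ^ 2 / (x₁ * x₂ * (s₁ + s₂) ^ 2)

/-- `s`-coordinate of the sum in `(x,s)`-coordinates. -/
def addSs (a b x₁ s₁ x₂ s₂ : K) : K :=
  s₁ * s₂ / (s₁ + s₂) + (a + b / x₁ + b / x₂) / (s₁ + s₂) + (s₁ + s₂) * b / (x₁ * x₂ - b)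

theorem add_xs {x₁ s₁ x₂ s₂ : K} (h₁ : (Wab a b).toAffine.Nonsingular x₁ (x₁ * s₁))
    (h₂ : (Wab a b).toAffine.Nonsingular x₂ (x₂ * s₂)) (hx₁ : x₁ ≠ 0) (hx₂ : x₂ ≠ 0)
    (hS : s₁ + s₂ ≠ 0) (hb' : x₁ * x₂ ≠ b) :
    ∃ h₃ : (Wab a b).toAffine.Nonsingular (addXs b x₁ s₁ x₂ s₂)
        (addXs b x₁ s₁ x₂ s₂ * addSs a b x₁ s₁ x₂ s₂),
      Point.some _ _ h₁ + Point.some _ _ h₂ = Point.some _ _ h₃ := by
  have hb'' : x₁ * x₂ - b ≠ 0 := sub_ne_zero.2 hb'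
  by_cases hne : x₁ = x₂
  · subst hne
    have e1 := s_sq h₁ hx₁
    have e2 := s_sq h₂ hx₂
    have hs : s₁ = s₂ := by
      have : (s₁ - s₂) * (s₁ + s₂) = 0 := by rw [ssub_mul_sadd h₁ h₂ hx₁ hx₁]; ring
      rcases mul_eq_zero.1 this with h0 | h0
      · exact sub_eq_zero.1 h0
      · exact absurd h0 hS
    subst hs
    have h2s : (2 : K) * s₁ ≠ 0 := by rwa [two_mul]
    have h2 : (2 : K) ≠ 0 := left_ne_zero_of_mul h2s
    have hs0 : s₁ ≠ 0 := right_ne_zero_of_mul h2s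
    have h4 : (4 : K) ≠ 0 := by
      have : (4 : K) = 2 * 2 := by norm_num
      rw [this]; exact mul_ne_zero h2 h2
    have hy : x₁ * s₁ ≠ (Wab a b).toAffine.negY x₁ (x₁ * s₁) := by
      rw [Wab_negY]; intro h
      have : x₁ * (2 * s₁) = 0 := by linear_combination h
      exact (mul_ne_zero hx₁ h2s) this
    rw [Point.add_self_of_Y_ne hy]
    have ha := a_eq h₁ hx₁
    have hx2b : x₁ ^ 2 - b ≠ 0 := by rwa [pow_two]
    have h8 : (8 : K) ≠ 0 := by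
      have : (8 : K) = 2 * 2 * 2 := by norm_num
      rw [this]; exact mul_ne_zero (mul_ne_zero h2 h2) h2
    have hsl : (Wab a b).toAffine.slope x₁ x₁ (x₁ * s₁) (x₁ * s₁) =
        (3 * x₁ ^ 2 + 2 * a * x₁ + b) / (2 * x₁ * s₁) := by
      rw [Affine.slope_of_Y_ne rfl hy]
      simp only [Wab_a₁, Wab_a₂, Wab_a₄, Wab_negY]
      congr 1
      · ring
      · ring
    apply some_congr
    · rw [hsl]
      simp only [Affine.addX, Wab_a₁, Wab_a₂, addXs, ← two_mul]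
      rw [ha]
      field_simp
      ring
    · rw [hsl]
      simp only [Affine.addY, Affine.negAddY, Affine.addX, Wab_a₁, Wab_a₂, Wab_negY, addXs, addSs, ← two_mul]
      rw [ha]
      field_simp
      ring
  · have hne' : x₁ - x₂ ≠ 0 := sub_ne_zero.2 hne
    have ha := a_eq h₁ hx₁
    have hb := b_eq_of_ne h₁ h₂ hx₁ hx₂ hne
    have hM : s₁ - s₂ ≠ 0 := by
      intro h0
      have := ssub_mul_sadd h₁ h₂ hx₁ hx₂
      rw [h0, zero_mul] at this
      rcases mul_eq_zero.1 this.symm with h1 | h1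
      · exact hne' h1
      · apply hb''
        field_simp at h1
        linear_combination h1
    have hM' : s₁ ^ 2 - s₂ ^ 2 ≠ 0 := by
      have : s₁ ^ 2 - s₂ ^ 2 = (s₁ - s₂) * (s₁ + s₂) := by ring
      rw [this]; exact mul_ne_zero hM hS
    rw [Point.add_of_X_ne hne]
    apply some_congr
    · rw [Affine.slope_of_X_ne hne]
      simp only [Affine.addX, Wab_a₁, Wab_a₂, Wab_a₄, Wab_negY, addXs]
      rw [ha, hb]
      field_simp
      ring
    · rw [Affine.slope_of_X_ne hne]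
      simp only [Affine.addY, Affine.negAddY, Affine.addX, Wab_a₁, Wab_a₂, Wab_a₄, Wab_negY, addXs, addSs]
      rw [ha, hb]
      field_simp
      ring

lemma nonsingular_T0 (hb : b ≠ 0) : (Wab a b).toAffine.Nonsingular 0 0 := by
  rw [Wab_nonsingular_iff]; simp [hb]

/-- The rational 2-torsion point `(0, 0)`. -/
def T0 (hb : b ≠ 0) : (Wab a b).toAffine.Point := .some 0 0 (nonsingular_T0 hb)

/-- A point with `x = 0` is `T0`. -/
lemma eq_T0_of_x_eq_zero (hb : b ≠ 0) {y : K} (h : (Wab a b).toAffine.Nonsingular 0 y) :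
    Point.some 0 y h = T0 hb := by
  have h1 := ((Wab_nonsingular_iff _ _).1 h).1
  have hy : y = 0 := by simpa using h1
  subst hy; rfl

/-- Every affine point with `x ≠ 0` can be written in `(x, s)`-coordinates. -/
lemma some_eq_xs {x y : K} (h : (Wab a b).toAffine.Nonsingular x y) (hx : x ≠ 0) :
    ∃ h' : (Wab a b).toAffine.Nonsingular x (x * (y / x)),
      Point.some x y h = Point.some x (x * (y / x)) h' :=
  some_congr h rfl (by field_simp)

/-- Classification: a point is `0`, `T0`, or `(x, s)` with `x ≠ 0`. -/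
lemma point_cases (hb : b ≠ 0) (P : (Wab a b).toAffine.Point) :
    P = 0 ∨ P = T0 hb ∨ ∃ (x s : K) (h : (Wab a b).toAffine.Nonsingular x (x * s)),
      x ≠ 0 ∧ P = Point.some x (x * s) h := by
  rcases P with _ | ⟨x, y, h⟩
  · exact Or.inl rfl
  · by_cases hx : x = 0
    · subst hx; exact Or.inr (Or.inl (eq_T0_of_x_eq_zero hb h))
    · obtain ⟨h', e⟩ := some_eq_xs h hx
      exact Or.inr (Or.inr ⟨x, y / x, h', hx, e⟩)

lemma neg_xs {x s : K} (h : (Wab a b).toAffine.Nonsingular x (x * s)) :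
    ∃ h' : (Wab a b).toAffine.Nonsingular x (x * (-s)),
      -Point.some x (x * s) h = Point.some x (x * (-s)) h' := by
  rw [Point.neg_some]
  exact some_congr _ rfl (by simp)

lemma neg_T0 (hb : b ≠ 0) : -(T0 hb : (Wab a b).toAffine.Point) = T0 hb := by
  rw [T0, Point.neg_some]
  obtain ⟨h', e⟩ := some_congr ((Affine.nonsingular_neg ..).mpr (nonsingular_T0 (a := a) hb)) rfl
    (show (Wab a b).toAffine.negY 0 0 = 0 by simp)
  exact e

lemma T0_add_T0 (hb : b ≠ 0) : (T0 hb : (Wab a b).toAffine.Point) + T0 hb = 0 := by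
  rw [T0]; exact Point.add_of_Y_eq rfl (by simp)

/-- Translation by `T0`: `(x, s) ↦ (b / x, -s)`. -/
lemma add_T0_xs (hb : b ≠ 0) {x s : K} (h : (Wab a b).toAffine.Nonsingular x (x * s))
    (hx : x ≠ 0) :
    ∃ h' : (Wab a b).toAffine.Nonsingular (b / x) (b / x * (-s)),
      Point.some x (x * s) h + T0 hb = Point.some (b / x) (b / x * (-s)) h' := by
  have ha := a_eq h hx
  rw [T0, Point.add_of_X_ne hx]
  apply some_congr
  · rw [Affine.slope_of_X_ne hx]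
    simp only [Affine.addX, Wab_a₁, Wab_a₂]
    rw [ha]
    field_simp
    ring
  · rw [Affine.slope_of_X_ne hx]
    simp only [Affine.addY, Affine.negAddY, Affine.addX, Wab_a₁, Wab_a₂, Wab_negY]
    rw [ha]
    field_simp
    ring

/-- If `s₁ + s₂ ≠ 0` and `x₁ x₂ = b` then the sum is `T0`. -/
theorem add_xs_eq_T0 (hb : b ≠ 0) {x₁ s₁ x₂ s₂ : K}
    (h₁ : (Wab a b).toAffine.Nonsingular x₁ (x₁ * s₁))
    (h₂ : (Wab a b).toAffine.Nonsingular x₂ (x₂ * s₂)) (hx₁ : x₁ ≠ 0) (hx₂ : x₂ ≠ 0)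
    (hS : s₁ + s₂ ≠ 0) (hb' : x₁ * x₂ = b) :
    Point.some _ _ h₁ + Point.some _ _ h₂ = T0 hb := by
  have hs : s₁ = s₂ := by
    have : (s₁ - s₂) * (s₁ + s₂) = 0 := by
      rw [ssub_mul_sadd h₁ h₂ hx₁ hx₂, hb', div_self hb]; ring
    rcases mul_eq_zero.1 this with h0 | h0
    · exact sub_eq_zero.1 h0
    · exact absurd h0 hS
  subst hs
  have hx₂' : x₂ = b / x₁ := by rw [← hb']; field_simp
  subst hx₂'
  obtain ⟨hn, en⟩ := neg_xs h₁
  obtain ⟨ht, et⟩ := add_T0_xs hb hn hx₁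
  have e2 : Point.some _ _ h₂ = -Point.some _ _ h₁ + T0 hb := by
    rw [en, et]
    obtain ⟨h', e'⟩ := some_congr h₂ rfl (show b / x₁ * s₁ = b / x₁ * (- -s₁) by ring)
    exact e'
  rw [e2, add_neg_cancel_left]

/-- If `s₁ + s₂ = 0` then either `x₁ = x₂` (and the sum is `0`) or `x₁ x₂ = b`
(and `P₂ = P₁ + T0`). -/
theorem add_xs_of_S_eq_zero (hb : b ≠ 0) {x₁ s₁ x₂ s₂ : K}
    (h₁ : (Wab a b).toAffine.Nonsingular x₁ (x₁ * s₁))
    (h₂ : (Wab a b).toAffine.Nonsingular x₂ (x₂ * s₂)) (hx₁ : x₁ ≠ 0) (hx₂ : x₂ ≠ 0)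
    (hS : s₁ + s₂ = 0) :
    (x₁ = x₂ ∧ Point.some _ _ h₁ + Point.some _ _ h₂ = 0) ∨
      (x₁ * x₂ = b ∧ Point.some _ _ h₂ = Point.some _ _ h₁ + T0 hb) := by
  have hs : s₂ = -s₁ := by linear_combination hS
  subst hs
  have key : (x₁ - x₂) * (1 - b / (x₁ * x₂)) = 0 := by
    rw [← ssub_mul_sadd h₁ h₂ hx₁ hx₂]; ring
  rcases mul_eq_zero.1 key with h0 | h0
  · left
    have hx : x₁ = x₂ := sub_eq_zero.1 h0
    refine ⟨hx, Point.add_of_Y_eq hx ?_⟩
    rw [Wab_negY, hx]; ring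
  · right
    have hb' : x₁ * x₂ = b := by
      field_simp at h0
      linear_combination h0
    refine ⟨hb', ?_⟩
    have hx₂' : x₂ = b / x₁ := by rw [← hb']; field_simp
    subst hx₂'
    obtain ⟨ht, et⟩ := add_T0_xs hb h₁ hx₁
    rw [et]

/-- Chord formula for the `x`-coordinate (`x₁ ≠ x₂`). -/
theorem add_xs_chord {x₁ s₁ x₂ s₂ : K} (h₁ : (Wab a b).toAffine.Nonsingular x₁ (x₁ * s₁))
    (h₂ : (Wab a b).toAffine.Nonsingular x₂ (x₂ * s₂)) (hx₁ : x₁ ≠ 0) (hx₂ : x₂ ≠ 0)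
    (hne : x₁ ≠ x₂) :
    ∃ (y₃ : K) (h₃ : (Wab a b).toAffine.Nonsingular
        (x₁ * x₂ * (s₁ - s₂) ^ 2 / (x₁ - x₂) ^ 2) y₃),
      Point.some _ _ h₁ + Point.some _ _ h₂ = Point.some _ _ h₃ := by
  have hne' : x₁ - x₂ ≠ 0 := sub_ne_zero.2 hne
  have ha := a_eq h₁ hx₁
  have hb := b_eq_of_ne h₁ h₂ hx₁ hx₂ hne
  rw [Point.add_of_X_ne hne]
  refine ⟨(Wab a b).toAffine.addY x₁ x₂ (x₁ * s₁)
    ((Wab a b).toAffine.slope x₁ x₂ (x₁ * s₁) (x₂ * s₂)), ?_⟩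
  apply some_congr _ _ rfl
  rw [Affine.slope_of_X_ne hne]
  simp only [Affine.addX, Wab_a₁, Wab_a₂]
  rw [ha, hb]
  field_simp
  ring

end Fermat.Agent.S05
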