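import Mathlib
import Fermat.Agent.S05.Defs

/-!
# S05 helper (P4, helper16): Claim C

Setting of the T-S05 blueprint: `K` a field, `v : Valuation K Γ₀`, `v 2 = 1`, curve
`Y² = X³ + aX² + bX` (any `W : WeierstrassCurve.Affine K` with `a₁ = a₃ = a₆ = 0`, `a = a₂`,
`b = a₄`, both integral).

* `one_lt_val_chord`, `one_lt_val_dbl`: coordinate forms.
* `claimC`: two integral points with unit `x`-coordinates, congruent modulo the maximal ideal in the
  coordinates `(x, s = y/x)`, with nonsingular common reduction (`v s = 1 ∨ v (x² - b) = 1`),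
  differ by `0` or by a point with `1 < v x` (a point of the kernel of reduction `E₁`).
-/

set_option autoImplicit false

open WeierstrassCurve WeierstrassCurve.Affine

namespace Fermat.Agent.S05.ClaimC

variable {K : Type*} [Field K] {Γ₀ : Type*} [LinearOrderedCommGroupWithZero Γ₀]
  (v : Valuation K Γ₀)

/-- if `v t ≤ 1 < v ℓ` then `v (ℓ ^ 2 - t) > 1`. -/
lemma one_lt_sq_sub {ℓ t : K} (hℓ : 1 < v ℓ) (ht : v t ≤ 1) : 1 < v (ℓ ^ 2 - t) := by
  have h2 : 1 < v (ℓ ^ 2) := by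
    rw [map_pow]; exact one_lt_pow₀ hℓ (by norm_num)
  have : v (ℓ ^ 2 - t) = v (ℓ ^ 2) := by
    rw [sub_eq_add_neg]
    apply Valuation.map_add_eq_of_lt_left
    rw [Valuation.map_neg]; exact lt_of_le_of_lt ht h2
  rw [this]; exact h2

variable {v}

lemma val_s_le_one {a b x y : K} (ha : v a ≤ 1) (hb : v b ≤ 1) (hx : v x = 1)
    (e : y ^ 2 = x ^ 3 + a * x ^ 2 + b * x) : v (y / x) ≤ 1 := by
  have hx0 : x ≠ 0 := by
    rintro rfl; simp at hx
  have h2 : (y / x) ^ 2 = x + a + b / x := by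
    field_simp; linear_combination e
  have : v ((y / x) ^ 2) ≤ 1 := by
    rw [h2]
    refine le_trans (Valuation.map_add _ _ _) (max_le (le_trans (Valuation.map_add _ _ _)
      (max_le hx.le ha)) ?_)
    rw [map_div₀, hx, div_one]; exact hb
  rw [map_pow] at this
  exact (pow_le_one_iff_of_nonneg zero_le (by norm_num)).mp this

/-- chord case of Claim C, coordinate form. -/
lemma one_lt_val_chord {a b x₁ y₁ x₂ y₂ : K} (hv2 : v 2 = 1) (ha : v a ≤ 1) (hb : v b ≤ 1)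
    (e₁ : y₁ ^ 2 = x₁ ^ 3 + a * x₁ ^ 2 + b * x₁) (e₂ : y₂ ^ 2 = x₂ ^ 3 + a * x₂ ^ 2 + b * x₂)
    (hx₁ : v x₁ = 1) (hx₂ : v x₂ = 1) (hx : v (x₁ - x₂) < 1) (hs : v (y₁ / x₁ - y₂ / x₂) < 1)
    (hns : v (y₁ / x₁) = 1 ∨ v (x₁ ^ 2 - b) = 1) (hne : x₁ ≠ x₂) :
    1 < v (((y₁ + y₂) / (x₁ - x₂)) ^ 2 - (a + x₁ + x₂)) := by
  have hx₁0 : x₁ ≠ 0 := by rintro rfl; simp at hx₁
  have hx₂0 : x₂ ≠ 0 := by rintro rfl; simp at hx₂
  have hd0 : x₁ - x₂ ≠ 0 := sub_ne_zero.mpr hne
  have hd0' : v (x₁ - x₂) ≠ 0 := (Valuation.ne_zero_iff v).mpr hd0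
  have hs₁ := val_s_le_one ha hb hx₁ e₁
  have hs₂ := val_s_le_one ha hb hx₂ e₂
  have ht : v (a + x₁ + x₂) ≤ 1 :=
    le_trans (Valuation.map_add _ _ _) (max_le (le_trans (Valuation.map_add _ _ _)
      (max_le ha hx₁.le)) hx₂.le)
  apply one_lt_sq_sub v _ ht
  -- `v (x₁ + x₂) = 1`
  have hsum : v (x₁ + x₂) = 1 := by
    have : x₁ + x₂ = 2 * x₁ + (x₂ - x₁) := by ring
    rw [this, Valuation.map_add_eq_of_lt_left, map_mul, hv2, hx₁, one_mul]
    rw [map_mul, hv2, hx₁, one_mul, Valuation.map_sub_swap]; exact hx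
  by_cases hs1 : v (y₁ / x₁) = 1
  · -- numerator is a unit
    have hnum : v (y₁ + y₂) = 1 := by
      have : y₁ + y₂ = (y₁ / x₁) * (x₁ + x₂) + (y₂ / x₂ - y₁ / x₁) * x₂ := by
        field_simp; ring
      rw [this, Valuation.map_add_eq_of_lt_left, map_mul, hs1, hsum, one_mul]
      rw [map_mul, map_mul, hs1, hsum, one_mul, hx₂, mul_one, Valuation.map_sub_swap]
      exact hs
    rw [map_div₀, hnum]
    exact (one_lt_div₀ (zero_lt_iff.mpr hd0')).mpr hx
  · -- `v s₁ < 1`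
    have hxb : v (x₁ ^ 2 - b) = 1 := hns.resolve_left hs1
    have hs1' : v (y₁ / x₁) < 1 := lt_of_le_of_ne hs₁ hs1
    set M : K := x₁ ^ 2 + x₁ * x₂ + x₂ ^ 2 + a * (x₁ + x₂) + b with hMdef
    have hM : v M = 1 := by
      have : M = (x₁ ^ 2 - b) + (2 * x₁ * (y₁ / x₁) ^ 2 + (x₂ - x₁) * (x₂ + 2 * x₁ + a)) := by
        rw [hMdef]; field_simp; linear_combination (-2 : K) * e₁
      rw [this, Valuation.map_add_eq_of_lt_left, hxb]
      rw [hxb]
      refine lt_of_le_of_lt (Valuation.map_add _ _ _) (max_lt ?_ ?_)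
      · rw [map_mul, map_mul, hv2, hx₁, one_mul, one_mul, map_pow]
        exact pow_lt_one₀ zero_le hs1' (by norm_num)
      · rw [map_mul, Valuation.map_sub_swap]
        refine lt_of_le_of_lt (mul_le_of_le_one_right zero_le ?_) hx
        refine le_trans (Valuation.map_add _ _ _) (max_le (le_trans (Valuation.map_add _ _ _)
          (max_le hx₂.le ?_)) ha)
        rw [map_mul, hv2, hx₁, one_mul]
    have hid : (y₁ + y₂) * (y₁ - y₂) = (x₁ - x₂) * M := by
      rw [hMdef]; linear_combination e₁ - e₂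
    have hy : v (y₁ - y₂) < 1 := by
      have : y₁ - y₂ = (y₁ / x₁) * (x₁ - x₂) + (y₁ / x₁ - y₂ / x₂) * x₂ := by
        field_simp; ring
      rw [this]
      refine lt_of_le_of_lt (Valuation.map_add _ _ _) (max_lt ?_ ?_)
      · rw [map_mul]; exact mul_lt_one_of_nonneg_of_lt_one_left zero_le hs1' hx.le
      · rw [map_mul, hx₂, mul_one]; exact hs
    have hM0 : M ≠ 0 := by
      intro h; rw [h, map_zero] at hM; exact zero_ne_one hM
    have hy0 : y₁ - y₂ ≠ 0 := by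
      intro h; rw [h, mul_zero] at hid
      exact (mul_ne_zero hd0 hM0) hid.symm
    have hℓ : (y₁ + y₂) / (x₁ - x₂) = M / (y₁ - y₂) := by
      rw [div_eq_div_iff hd0 hy0]; linear_combination hid
    rw [hℓ, map_div₀, hM]
    exact (one_lt_div₀ (zero_lt_iff.mpr ((Valuation.ne_zero_iff v).mpr hy0))).mpr hy

/-- doubling case of Claim C, coordinate form. -/
lemma one_lt_val_dbl {a b x y : K} (hv2 : v 2 = 1) (ha : v a ≤ 1)
    (e : y ^ 2 = x ^ 3 + a * x ^ 2 + b * x)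
    (hx : v x = 1) (hs : v (y / x) < 1) (hxb : v (x ^ 2 - b) = 1) (hy0 : y ≠ 0) :
    1 < v (((3 * x ^ 2 + 2 * a * x + b) / (2 * y)) ^ 2 - (a + x + x)) := by
  have hx0 : x ≠ 0 := by rintro rfl; simp at hx
  have ht : v (a + x + x) ≤ 1 :=
    le_trans (Valuation.map_add _ _ _) (max_le (le_trans (Valuation.map_add _ _ _)
      (max_le ha hx.le)) hx.le)
  apply one_lt_sq_sub v _ ht
  have hnum : v (3 * x ^ 2 + 2 * a * x + b) = 1 := by
    have : 3 * x ^ 2 + 2 * a * x + b = (x ^ 2 - b) + 2 * x * (y / x) ^ 2 := by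
      field_simp; linear_combination (-2 : K) * e
    rw [this, Valuation.map_add_eq_of_lt_left, hxb]
    rw [hxb, map_mul, map_mul, hv2, hx, one_mul, one_mul, map_pow]
    exact pow_lt_one₀ zero_le hs (by norm_num)
  have hden : v (2 * y) < 1 := by
    have : 2 * y = 2 * x * (y / x) := by field_simp
    rw [this, map_mul, map_mul, hv2, hx, one_mul, one_mul]; exact hs
  have hden0 : (2 : K) * y ≠ 0 := by
    refine mul_ne_zero ?_ hy0
    intro h; rw [h, map_zero] at hv2; exact zero_ne_one hv2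
  rw [map_div₀, hnum]
  exact (one_lt_div₀ (zero_lt_iff.mpr ((Valuation.ne_zero_iff v).mpr hden0))).mpr hden

variable [DecidableEq K]

/-- **Claim C**, point level, for a curve `Y² = X³ + aX² + bX` (`a = W.a₂`, `b = W.a₄`):
two integral points with unit `x`-coordinates which are congruent modulo the maximal ideal
(in the coordinates `(x, s = y / x)`) and whose common reduction is nonsingular
(`s` a unit, or `x² - b` a unit) differ by a point of the kernel of reduction. -/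
theorem claimC (W : Affine K) (h1 : W.a₁ = 0) (h3 : W.a₃ = 0) (h6 : W.a₆ = 0)
    (hv2 : v 2 = 1) (ha : v W.a₂ ≤ 1) (hb : v W.a₄ ≤ 1)
    {x₁ y₁ x₂ y₂ : K} (hP₁ : W.Nonsingular x₁ y₁) (hP₂ : W.Nonsingular x₂ y₂)
    (hx₁ : v x₁ = 1) (hx₂ : v x₂ = 1) (hx : v (x₁ - x₂) < 1)
    (hs : v (y₁ / x₁ - y₂ / x₂) < 1)
    (hns : v (y₁ / x₁) = 1 ∨ v (x₁ ^ 2 - W.a₄) = 1) :
    Point.some x₁ y₁ hP₁ - Point.some x₂ y₂ hP₂ = 0 ∨
      ∃ (x y : K) (h : W.Nonsingular x y),
        Point.some x₁ y₁ hP₁ - Point.some x₂ y₂ hP₂ = Point.some x y h ∧ 1 < v x := by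
  have e₁ : y₁ ^ 2 = x₁ ^ 3 + W.a₂ * x₁ ^ 2 + W.a₄ * x₁ := by
    have := (equation_iff x₁ y₁).mp hP₁.1
    rw [h1, h3, h6] at this; linear_combination this
  have e₂ : y₂ ^ 2 = x₂ ^ 3 + W.a₂ * x₂ ^ 2 + W.a₄ * x₂ := by
    have := (equation_iff x₂ y₂).mp hP₂.1
    rw [h1, h3, h6] at this; linear_combination this
  have hneg : W.negY x₂ y₂ = -y₂ := by simp [negY, h1, h3]
  have hx₁0 : x₁ ≠ 0 := by rintro rfl; simp at hx₁
  rw [sub_eq_add_neg, Point.neg_some]
  by_cases hxx : x₁ = x₂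
  · subst hxx
    rcases Y_eq_of_X_eq hP₁.1 hP₂.1 rfl with hy | hy
    · -- same point
      subst hy
      left; exact Point.add_of_Y_eq rfl (by rw [negY_negY])
    · -- `P₁ = -P₂`, so `P₁ - P₂ = 2 P₁`
      rw [hneg] at hy
      by_cases hy0 : y₁ = 0
      · left
        have hy2 : y₂ = 0 := by rw [hy0] at hy; exact neg_eq_zero.mp hy.symm
        exact Point.add_of_Y_eq rfl (by rw [negY_negY, hy0, hy2])
      · right
        have hyne : y₁ ≠ W.negY x₁ (W.negY x₁ y₂) := by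
          rw [negY_negY]; intro h
          rw [h] at hy
          have : (2 : K) * y₂ = 0 := by linear_combination hy
          have h2 : (2 : K) ≠ 0 := by
            intro h2; rw [h2, map_zero] at hv2; exact zero_ne_one hv2
          rcases mul_eq_zero.mp this with h' | h'
          · exact h2 h'
          · exact hy0 (by rw [h, h'])
        have hs' : v (y₁ / x₁) < 1 := by
          have : y₁ / x₁ - y₂ / x₁ = 2 * (y₁ / x₁) := by
            rw [show y₂ = -y₁ by rw [hy, neg_neg]]; ring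
          rw [this, map_mul, hv2, one_mul] at hs; exact hs
        have hxb : v (x₁ ^ 2 - W.a₄) = 1 := hns.resolve_left (ne_of_lt hs')
        refine ⟨_, _, nonsingular_add hP₁ ((nonsingular_neg x₁ y₂).mpr hP₂)
          fun hxy => hyne hxy.right, Point.add_of_Y_ne hyne, ?_⟩
        have hsl : W.slope x₁ x₁ y₁ (W.negY x₁ y₂)
            = (3 * x₁ ^ 2 + 2 * W.a₂ * x₁ + W.a₄) / (2 * y₁) := by
          rw [slope_of_Y_ne rfl hyne]
          simp only [negY, h1, h3]; ring_nf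
        rw [hsl]
        have := one_lt_val_dbl hv2 ha e₁ hx₁ hs' hxb hy0
        simp only [addX, h1]
        convert this using 2; ring
  · right
    refine ⟨_, _, nonsingular_add hP₁ ((nonsingular_neg x₂ y₂).mpr hP₂)
      fun hxy => hxx hxy.left, Point.add_of_X_ne hxx, ?_⟩
    rw [slope_of_X_ne hxx, hneg]
    have := one_lt_val_chord hv2 ha hb e₁ e₂ hx₁ hx₂ hx hs hns hxx
    simp only [addX, h1]
    convert this using 2; ring

end Fermat.Agent.S05.ClaimC

namespace Fermat.Agent.S05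

variable {K : Type*} [Field K] [DecidableEq K] {Γ₀ : Type*} [LinearOrderedCommGroupWithZero Γ₀]
  (v : Valuation K Γ₀) {a b : K}

/-- **Claim C** in the interface shape of the T-S05 blueprint (`(x, s)`-coordinates, `y = x * s`,
conclusion phrased with `InE1`). -/
theorem claimC (h2 : v 2 = 1) (ha : v a ≤ 1) (hb : v b ≤ 1) {x₁ s₁ x₂ s₂ : K}
    (h₁ : (Wab a b).toAffine.Nonsingular x₁ (x₁ * s₁))
    (h₂ : (Wab a b).toAffine.Nonsingular x₂ (x₂ * s₂))
    (hx₁ : v x₁ = 1) (hx₂ : v x₂ = 1) (hx : v (x₁ - x₂) < 1) (hs : v (s₁ - s₂) < 1)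
    (hns : v s₁ = 1 ∨ v (x₁ ^ 2 - b) = 1) :
    InE1 v (Point.some _ _ h₁ - Point.some _ _ h₂) := by
  have hx₁0 : x₁ ≠ 0 := by rintro rfl; simp at hx₁
  have hx₂0 : x₂ ≠ 0 := by rintro rfl; simp at hx₂
  have e₁ : x₁ * s₁ / x₁ = s₁ := by field_simp
  have e₂ : x₂ * s₂ / x₂ = s₂ := by field_simp
  rcases ClaimC.claimC (v := v) (Wab a b).toAffine rfl rfl rfl h2 ha hb h₁ h₂ hx₁ hx₂ hx
      (by rw [e₁, e₂]; exact hs) (by rw [e₁]; exact hns) with h0 | ⟨x, y, h, he, hv⟩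
  · rw [h0]; exact InE1_zero v
  · rw [he]; exact (InE1_some v h).mpr hv

end Fermat.Agent.S05
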