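/-
T-S05, piece P6 (helper27): the multiplicative case.

Model curve `Wab a b : Y² = X³ + aX² + bX` over a valued field `(K, v)` with `v 2 = 1`, `v a = 1`,
`v b < 1`, `b ≠ 0`; `σ : K →+* K` with (s1) `v (σ x) = v x`, (s2) `v x ≤ 1 → v (σ x - x) < 1`,
`σ a = a`, `σ b = b`; `v b = v h₀ ^ p` with `σ h₀ = h₀`.
If `P = (x, y)` and `σ P = (σ x, σ y)` are both killed by `p`, then `σ P = P`.

`mult_fixed_aux` takes the facts about the kernel of reduction `E₁` (P3, `Kernel.lean`) and the
consequence of the component homomorphism (P5, `Components.lean`) as hypotheses.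
-/
import Fermat.Agent.S05.Formulas
import Fermat.Agent.S05.ClaimC

set_option autoImplicit false

namespace Fermat.Agent.S05

open WeierstrassCurve WeierstrassCurve.Affine

namespace Mult

variable {K : Type*} [Field K] {Γ₀ : Type*} [LinearOrderedCommGroupWithZero Γ₀]
  {v : Valuation K Γ₀}

/-- `v (z ^ 2) ≤ 1 → v z ≤ 1`. -/
lemma val_le_one_of_sq {z : K} (h : v (z ^ 2) ≤ 1) : v z ≤ 1 := by
  by_contra hlt
  push Not at hlt
  have : 1 < v (z ^ 2) := by rw [map_pow]; exact one_lt_pow₀ hlt (by norm_num)
  exact absurd h (not_le.mpr this)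

/-- `v (z ^ 2) = 1 → v z = 1`. -/
lemma val_eq_one_of_sq {z : K} (h : v (z ^ 2) = 1) : v z = 1 := by
  rcases lt_trichotomy (v z) 1 with hlt | heq | hgt
  · have : v (z ^ 2) < 1 := by rw [map_pow]; exact pow_lt_one₀ zero_le hlt (by norm_num)
    rw [h] at this; exact absurd this (lt_irrefl _)
  · exact heq
  · have : 1 < v (z ^ 2) := by rw [map_pow]; exact one_lt_pow₀ hgt (by norm_num)
    rw [h] at this; exact absurd this (lt_irrefl _)

/-- If `x` has the valuation of a `σ`-fixed nonzero element, then `v (σ x - x) < v x`. -/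
lemma val_sub_lt_of_fixed (σ : K →+* K) (hσr : ∀ x, v x ≤ 1 → v (σ x - x) < 1)
    {x c : K} (hc : σ c = c) (hc0 : c ≠ 0) (hv : v x = v c) : v (σ x - x) < v x := by
  have hpos : 0 < v c := by rw [Valuation.pos_iff]; exact hc0
  have h1 : v (x / c) ≤ 1 := by rw [map_div₀, hv, div_self hpos.ne']
  have h2 := hσr _ h1
  have h3 : σ (x / c) - x / c = (σ x - x) / c := by rw [map_div₀, hc, sub_div]
  rw [h3, map_div₀, div_lt_one₀ hpos] at h2
  rw [hv]; exact h2

/-- `v (s' + s) = 1` if `v 2 = 1`, `v s = 1` and `v (s' - s) < 1`. -/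
lemma val_add_eq_one {s s' : K} (h2 : v 2 = 1) (hs : v s = 1) (hd : v (s' - s) < 1) :
    v (s' + s) = 1 := by
  have e : s' + s = 2 * s + (s' - s) := by ring
  have h2s : v (2 * s) = 1 := by rw [map_mul, h2, hs, one_mul]
  rw [e, v.map_add_eq_of_lt_left (show v (s' - s) < v (2 * s) by rw [h2s]; exact hd), h2s]

/-- `v (z ^ 2 - b) = 1` if `v z = 1` and `v b < 1`. -/
lemma val_sq_sub_eq_one {z b : K} (hz : v z = 1) (hb : v b < 1) : v (z ^ 2 - b) = 1 := by
  have hsq : v (z ^ 2) = 1 := by rw [map_pow, hz, one_pow]
  rw [v.map_sub_eq_of_lt_left (show v b < v (z ^ 2) by rw [hsq]; exact hb), hsq]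

end Mult

open Mult

variable {K : Type*} [Field K] [DecidableEq K] {Γ₀ : Type*} [LinearOrderedCommGroupWithZero Γ₀]
  (v : Valuation K Γ₀) {a b : K}

omit [DecidableEq K] in
/-- Membership in `E₁` from the output shape of `claimC`. -/
lemma inE1_of_claimC {P : (Wab a b).toAffine.Point}
    (h : P = 0 ∨ ∃ (x y : K) (h : (Wab a b).toAffine.Nonsingular x y),
      P = Point.some x y h ∧ 1 < v x) : InE1 v P := by
  rcases h with h | ⟨x, y, hxy, rfl, hv⟩
  · rw [h]; trivial
  · exact hv

/-- Final step: if `σ P - P ∈ E₁` and both are `p`-torsion, then `σ P = P`. -/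
lemma fixed_of_inE1_sub {p : ℕ}
    (hE1tf : ∀ P : (Wab a b).toAffine.Point, InE1 v P → p • P = 0 → P = 0)
    {x y x' y' : K} (h : (Wab a b).toAffine.Nonsingular x y)
    (h' : (Wab a b).toAffine.Nonsingular x' y')
    (ht : p • Point.some x y h = 0) (ht' : p • Point.some x' y' h' = 0)
    (hE : InE1 v (Point.some x' y' h' - Point.some x y h)) : x' = x ∧ y' = y := by
  have h0 := hE1tf _ hE (by rw [smul_sub, ht, ht', sub_zero])
  have h1 : Point.some x' y' h' = Point.some x y h := sub_eq_zero.mp h0
  simpa using h1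

/-- **Multiplicative case**, with the facts on `E₁` (P3) and on the component map (P5) as
hypotheses. -/
theorem mult_fixed_aux (h2 : v 2 = 1) (ha : v a = 1) (hb : v b < 1) (hb0 : b ≠ 0)
    (σ : K →+* K) (hσv : ∀ x, v (σ x) = v x) (hσr : ∀ x, v x ≤ 1 → v (σ x - x) < 1)
    (hσb : σ b = b) (h₀ : K) (hσh : σ h₀ = h₀)
    {p : ℕ} (hp0 : p ≠ 0) (hbh : v b = v h₀ ^ p)
    (hE1sub : ∀ P Q : (Wab a b).toAffine.Point, InE1 v P → InE1 v Q → InE1 v (P - Q))
    (hE1tf : ∀ P : (Wab a b).toAffine.Point, InE1 v P → p • P = 0 → P = 0)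
    (hbranch : ∀ {x s : K} (h : (Wab a b).toAffine.Nonsingular x (x * s)), v x < 1 → v b < v x →
      p • Point.some x (x * s) h = 0 → ∃ k : ℤ, v x ^ p = v b ^ (2 * k))
    {x y : K} (h : (Wab a b).toAffine.Nonsingular x y)
    (h' : (Wab a b).toAffine.Nonsingular (σ x) (σ y))
    (ht : p • Point.some x y h = 0) (ht' : p • Point.some _ _ h' = 0) :
    σ x = x ∧ σ y = y := by
  have hale : v a ≤ 1 := le_of_eq ha
  have hble : v b ≤ 1 := le_of_lt hb
  rcases lt_trichotomy (v x) 1 with hlt | heq | hgt
  · -- `v x < 1`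
    by_cases hx0 : x = 0
    · -- the point `T0`
      subst hx0
      have hy0 : y = 0 := by
        have h1 := ((Wab_nonsingular_iff _ _).1 h).1
        have : y ^ 2 = 0 := by rw [h1]; ring
        exact pow_eq_zero_iff (by norm_num) |>.mp this
      subst hy0
      simp
    · have hσx0 : σ x ≠ 0 := by
        intro h0; apply hx0
        have := hσv x
        rw [h0, map_zero] at this
        exact (Valuation.zero_iff v).mp this.symm
      -- `(x, s)`-coordinates
      obtain ⟨s, rfl⟩ : ∃ s, y = x * s := ⟨y / x, by field_simp⟩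
      obtain ⟨hP', eP'⟩ := some_congr h' rfl (map_mul σ x s)
      have es := s_sq h hx0
      have es' := s_sq hP' hσx0
      rw [eP'] at ht'
      -- it suffices to show `σ x = x` and `σ s = s`
      suffices hgoal : σ x = x ∧ σ s = s by
        refine ⟨hgoal.1, ?_⟩
        rw [map_mul, hgoal.1, hgoal.2]
      have hfix : InE1 v (Point.some _ _ hP' - Point.some _ _ h) → σ x = x ∧ σ s = s := by
        intro hE
        have := fixed_of_inE1_sub v hE1tf h hP' ht ht' hE
        refine ⟨this.1, ?_⟩
        have h3 := this.2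
        rw [this.1] at h3
        exact mul_left_cancel₀ hx0 h3
      by_cases hfar : v x ≤ v b
      · -- far points: translate by `T0`
        apply hfix
        have hxpos : 0 < v x := by rw [Valuation.pos_iff]; exact hx0
        have hbx : 1 ≤ v (b / x) := by
          rw [map_div₀]
          exact (one_le_div₀ hxpos).mpr hfar
        have hbx' : v (b / σ x) = v (b / x) := by
          rw [map_div₀, map_div₀, hσv]
        obtain ⟨hQ, eQ⟩ := add_T0_xs hb0 h hx0
        obtain ⟨hQ', eQ'⟩ := add_T0_xs hb0 hP' hσx0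
        have hsub : Point.some _ _ hP' - Point.some _ _ h =
            Point.some _ _ hQ' - Point.some _ _ hQ := by
          rw [← eQ, ← eQ']; abel
        rw [hsub]
        rcases lt_or_eq_of_le hbx with hgt1 | heq1
        · -- both translates are in `E₁`
          apply hE1sub
          · rw [InE1_some, hbx']; exact hgt1
          · rw [InE1_some]; exact hgt1
        · -- both translates have unit `x`-coordinate: Claim C
          have hbx0 : b / x ≠ 0 := div_ne_zero hb0 hx0
          have hbx0' : b / σ x ≠ 0 := div_ne_zero hb0 hσx0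
          have hsle : v s ≤ 1 := by
            apply val_le_one_of_sq
            rw [es]
            exact v.map_add_le (v.map_add_le (le_of_lt hlt) hale) (le_of_eq heq1.symm)
          apply inE1_of_claimC
          refine ClaimC.claimC (v := v) (Wab a b).toAffine rfl rfl rfl h2 hale hble hQ' hQ
            (by rw [hbx']; exact heq1.symm) heq1.symm ?_ ?_ (Or.inr ?_)
          · have : b / σ x - b / x = σ (b / x) - b / x := by rw [map_div₀, hσb]
            rw [this]
            exact hσr _ (le_of_eq heq1.symm)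
          · have e1 : b / σ x * -σ s / (b / σ x) - b / x * -s / (b / x) = -(σ s - s) := by
              field_simp; ring
            rw [e1, Valuation.map_neg]
            exact hσr _ hsle
          · exact val_sq_sub_eq_one (by rw [hbx']; exact heq1.symm) hb
      · -- on a branch: `v b < v x < 1`
        push Not at hfar
        obtain ⟨k, hk⟩ := hbranch h hlt hfar ht
        -- `v x = v (h₀ ^ (2k))`
        have hh0 : h₀ ≠ 0 := by
          rintro rfl
          rw [map_zero, zero_pow hp0] at hbh
          exact hb0 ((Valuation.zero_iff v).mp hbh)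
        obtain ⟨c, hc⟩ : ∃ c : K, c = h₀ ^ (2 * k) := ⟨_, rfl⟩
        have hc0 : c ≠ 0 := by rw [hc]; exact zpow_ne_zero _ hh0
        have hσc : σ c = c := by rw [hc, map_zpow₀, hσh]
        have hvc : v x = v c := by
          have e1 : v x ^ p = v c ^ p := by
            rw [hk, hbh, hc, map_zpow₀, ← zpow_natCast (v h₀) p, ← zpow_mul, ← zpow_natCast,
              ← zpow_mul, mul_comm]
          exact (pow_left_inj₀ zero_le zero_le hp0).mp e1
        have hdx : v (σ x - x) < v x := val_sub_lt_of_fixed σ hσr hσc hc0 hvc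
        -- `s` is a unit
        have hxpos : 0 < v x := by rw [Valuation.pos_iff]; exact hx0
        have hbx : v (b / x) < 1 := by
          rw [map_div₀]
          exact (div_lt_one₀ hxpos).mpr hfar
        have hs1 : v s = 1 := by
          apply val_eq_one_of_sq
          have e : s ^ 2 = a + (x + b / x) := by rw [es]; ring
          rw [e, v.map_add_eq_of_lt_left (show v (x + b / x) < v a by
            rw [ha]; exact v.map_add_lt hlt hbx), ha]
        have hds : v (σ s - s) < 1 := hσr _ (le_of_eq hs1)
        have hadd : v (σ s + s) = 1 := val_add_eq_one h2 hs1 hds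
        by_cases hxx : σ x = x
        · -- same `x`-coordinate
          refine ⟨hxx, ?_⟩
          have hsq : σ s ^ 2 = s ^ 2 := by rw [es, es', hxx]
          have hmul : (σ s - s) * (σ s + s) = 0 := by
            have : (σ s - s) * (σ s + s) = σ s ^ 2 - s ^ 2 := by ring
            rw [this, hsq, sub_self]
          rcases mul_eq_zero.mp hmul with h3 | h3
          · exact sub_eq_zero.mp h3
          · rw [h3, map_zero] at hadd; exact absurd hadd zero_ne_one
        · -- chord formula for `σ P - P`
          apply hfix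
          obtain ⟨hN, eN⟩ := neg_xs h
          obtain ⟨y₃, h₃, e₃⟩ := add_xs_chord hP' hN hσx0 hx0 hxx
          rw [sub_eq_add_neg, eN, e₃, InE1_some]
          have hne : σ x - x ≠ 0 := sub_ne_zero.mpr hxx
          have hpos : 0 < v (σ x - x) := by rw [Valuation.pos_iff]; exact hne
          rw [sub_neg_eq_add, map_div₀, map_mul, map_mul, map_pow, map_pow, hadd, hσv, one_pow,
            mul_one, one_lt_div₀ (pow_pos hpos 2), ← pow_two]
          exact pow_lt_pow_left₀ hdx zero_le (by norm_num)
  · -- `v x = 1`: Claim C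
    have hx0 : x ≠ 0 := by rintro rfl; simp at heq
    have hσx1 : v (σ x) = 1 := by rw [hσv]; exact heq
    suffices hE : InE1 v (Point.some _ _ h' - Point.some _ _ h) from
      fixed_of_inE1_sub v hE1tf h h' ht ht' hE
    have hsle : v (y / x) ≤ 1 := by
      obtain ⟨hP, eP⟩ := some_eq_xs h hx0
      have es := s_sq hP hx0
      apply val_le_one_of_sq
      rw [es]
      refine v.map_add_le (v.map_add_le (le_of_eq heq) hale) ?_
      rw [map_div₀, heq, div_one]; exact hble
    apply inE1_of_claimC
    refine ClaimC.claimC (v := v) (Wab a b).toAffine rfl rfl rfl h2 hale hble h' h hσx1 heq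
      (hσr _ (le_of_eq heq)) ?_ (Or.inr ?_)
    · rw [← map_div₀]; exact hσr _ hsle
    · exact val_sq_sub_eq_one hσx1 hb
  · -- `1 < v x`: both points are in `E₁`
    suffices hE : InE1 v (Point.some _ _ h' - Point.some _ _ h) from
      fixed_of_inE1_sub v hE1tf h h' ht ht' hE
    apply hE1sub
    · rw [InE1_some, hσv]; exact hgt
    · rw [InE1_some]; exact hgt

end Fermat.Agent.S05
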