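-- S05 helper (helper8): valuation bookkeeping for the component map on the curve
-- `Y^2 = X^3 + a X^2 + b X` in the coordinates `(x, s = y / x)`:  `s^2 = x + a + b / x`.
-- Pure coordinate form of (H3), (H4) of the T-S05 blueprint.
import Mathlib

set_option autoImplicit false

namespace Fermat.Agent.S05.CompH3

variable {K : Type*} [Field K] {Γ₀ : Type*} [LinearOrderedCommGroupWithZero Γ₀]
  (v : Valuation K Γ₀)

/-- `x`-coordinate of the sum in `(x, s)`-coordinates, `S = s₁ + s₂`. -/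
noncomputable def x3 (b x₁ x₂ S : K) : K := (x₁ * x₂ - b) ^ 2 / (x₁ * x₂ * S ^ 2)

/-- `s`-coordinate of the sum in `(x, s)`-coordinates. -/
noncomputable def s3 (a b x₁ s₁ x₂ s₂ : K) : K :=
  (s₁ * s₂ + a + b / x₁ + b / x₂) / (s₁ + s₂) + (s₁ + s₂) * b / (x₁ * x₂ - b)

/-- The `α`-branch: `v b < v x < 1` and `s ≡ α`. -/
def IsAlpha (b α x s : K) : Prop := v b < v x ∧ v x < 1 ∧ v (s - α) < 1

/-- The `β`-branch: `v b < v x < 1` and `s ≡ -α`. -/
def IsBeta (b α x s : K) : Prop := v b < v x ∧ v x < 1 ∧ v (s + α) < 1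

variable {v} {a b α : K}

theorem IsAlpha.v_s (hα : v α = 1) {x s : K} (h : IsAlpha v b α x s) : v s = 1 := by
  have : v (s - α) < v α := by rw [hα]; exact h.2.2
  rw [Valuation.map_eq_of_sub_lt v this, hα]

theorem IsBeta.v_s (hα : v α = 1) {x s : K} (h : IsBeta v b α x s) : v s = 1 := by
  have : v (s - (-α)) < v (-α) := by rw [sub_neg_eq_add, Valuation.map_neg, hα]; exact h.2.2
  rw [Valuation.map_eq_of_sub_lt v this, Valuation.map_neg, hα]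

theorem IsAlpha.x_ne_zero {x s : K} (h : IsAlpha v b α x s) : x ≠ 0 := by
  rintro rfl
  have := h.1
  simp at this

theorem IsBeta.x_ne_zero {x s : K} (h : IsBeta v b α x s) : x ≠ 0 := by
  rintro rfl
  have := h.1
  simp at this

/-- Negation swaps the branches. -/
theorem IsAlpha.neg {x s : K} (h : IsAlpha v b α x s) : IsBeta v b α x (-s) := by
  refine ⟨h.1, h.2.1, ?_⟩
  have : -s + α = -(s - α) := by ring
  rw [this, Valuation.map_neg]; exact h.2.2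

theorem IsBeta.neg {x s : K} (h : IsBeta v b α x s) : IsAlpha v b α x (-s) := by
  refine ⟨h.1, h.2.1, ?_⟩
  have : -s - α = -(s + α) := by ring
  rw [this, Valuation.map_neg]; exact h.2.2

/-- Translation by `T₀ = (0, 0)`, i.e. `(x, s) ↦ (b / x, -s)`, swaps the branches and replaces
`v x` by `v b / v x`. -/
theorem IsAlpha.transl (hb : b ≠ 0) {x s : K} (h : IsAlpha v b α x s) :
    IsBeta v b α (b / x) (-s) := by
  have hx0 : v x ≠ 0 := (Valuation.ne_zero_iff v).mpr h.x_ne_zero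
  have hb0 : v b ≠ 0 := (Valuation.ne_zero_iff v).mpr hb
  refine ⟨?_, ?_, h.neg.2.2⟩
  · rw [map_div₀, lt_div_iff₀ (zero_lt_iff.mpr hx0)]
    calc v b * v x < v b * 1 := by
          exact mul_lt_mul_of_pos_left h.2.1 (zero_lt_iff.mpr hb0)
      _ = v b := mul_one _
  · rw [map_div₀, div_lt_one₀ (zero_lt_iff.mpr hx0)]
    exact h.1

theorem IsBeta.transl (hb : b ≠ 0) {x s : K} (h : IsBeta v b α x s) :
    IsAlpha v b α (b / x) (-s) := by
  have hx0 : v x ≠ 0 := (Valuation.ne_zero_iff v).mpr h.x_ne_zero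
  have hb0 : v b ≠ 0 := (Valuation.ne_zero_iff v).mpr hb
  refine ⟨?_, ?_, h.neg.2.2⟩
  · rw [map_div₀, lt_div_iff₀ (zero_lt_iff.mpr hx0)]
    calc v b * v x < v b * 1 := by
          exact mul_lt_mul_of_pos_left h.2.1 (zero_lt_iff.mpr hb0)
      _ = v b := mul_one _
  · rw [map_div₀, div_lt_one₀ (zero_lt_iff.mpr hx0)]
    exact h.1

/-- On the annulus `v b < v x < 1` every point of the curve lies on exactly one branch. -/
theorem isAlpha_or_isBeta (ha : a = α ^ 2) {x s : K} (hx1 : v b < v x) (hx2 : v x < 1)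
    (hs : s ^ 2 = x + a + b / x) : IsAlpha v b α x s ∨ IsBeta v b α x s := by
  have hx0 : v x ≠ 0 := fun h => by rw [h] at hx1; exact not_lt_zero hx1
  have hprod : v ((s - α) * (s + α)) < 1 := by
    have : (s - α) * (s + α) = x + b / x := by
      have : (s - α) * (s + α) = s ^ 2 - α ^ 2 := by ring
      rw [this, hs, ha]; ring
    rw [this]
    refine lt_of_le_of_lt (v.map_add _ _) (max_lt hx2 ?_)
    rw [map_div₀, div_lt_one₀ (zero_lt_iff.mpr hx0)]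
    exact hx1
  rw [map_mul] at hprod
  by_contra hcon
  rw [not_or] at hcon
  have h1 : 1 ≤ v (s - α) := by
    by_contra h
    exact hcon.1 ⟨hx1, hx2, not_le.mp h⟩
  have h2 : 1 ≤ v (s + α) := by
    by_contra h
    exact hcon.2 ⟨hx1, hx2, not_le.mp h⟩
  have : (1 : Γ₀) ≤ v (s - α) * v (s + α) := by
    calc (1 : Γ₀) = 1 * 1 := (mul_one 1).symm
      _ ≤ v (s - α) * v (s + α) := mul_le_mul' h1 h2
  exact absurd hprod (not_lt.mpr this)

theorem not_isAlpha_and_isBeta (hα : v α = 1) (h2 : v (2 : K) = 1) {x s : K}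
    (h : IsAlpha v b α x s) (h' : IsBeta v b α x s) : False := by
  have : v (2 * α) < 1 := by
    have e : 2 * α = (s + α) - (s - α) := by ring
    rw [e]
    exact lt_of_le_of_lt (v.map_sub _ _) (max_lt h'.2.2 h.2.2)
  rw [map_mul, h2, hα, one_mul] at this
  exact lt_irrefl _ this

/-! ### Sum of two points on the `α`-branch -/

section AlphaAlpha

variable {x₁ s₁ x₂ s₂ : K}

theorem v_add_of_isAlpha (hα : v α = 1) (h2 : v (2 : K) = 1)
    (h₁ : IsAlpha v b α x₁ s₁) (h₂ : IsAlpha v b α x₂ s₂) :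
    v (s₁ + s₂ - 2 * α) < 1 ∧ v (s₁ + s₂) = 1 := by
  have h : v (s₁ + s₂ - 2 * α) < 1 := by
    have e : s₁ + s₂ - 2 * α = (s₁ - α) + (s₂ - α) := by ring
    rw [e]
    exact lt_of_le_of_lt (v.map_add _ _) (max_lt h₁.2.2 h₂.2.2)
  refine ⟨h, ?_⟩
  have h2α : v (2 * α) = 1 := by rw [map_mul, h2, hα, one_mul]
  have : v (s₁ + s₂ - 2 * α) < v (2 * α) := by rw [h2α]; exact h
  rw [Valuation.map_eq_of_sub_lt v this, h2α]

/-- The "regular part" of `s₃ - α`. -/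
theorem v_regular_part (ha : a = α ^ 2) (hα : v α = 1) (h2 : v (2 : K) = 1)
    (h₁ : IsAlpha v b α x₁ s₁) (h₂ : IsAlpha v b α x₂ s₂) :
    v ((s₁ * s₂ + a + b / x₁ + b / x₂) / (s₁ + s₂) - α) < 1 := by
  obtain ⟨-, hS⟩ := v_add_of_isAlpha hα h2 h₁ h₂
  have hS0 : s₁ + s₂ ≠ 0 := by
    intro h; rw [h, map_zero] at hS; exact zero_ne_one hS
  have hx₁ : v x₁ ≠ 0 := (Valuation.ne_zero_iff v).mpr h₁.x_ne_zero
  have hx₂ : v x₂ ≠ 0 := (Valuation.ne_zero_iff v).mpr h₂.x_ne_zero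
  have e : (s₁ * s₂ + a + b / x₁ + b / x₂) / (s₁ + s₂) - α =
      ((s₁ - α) * (s₂ - α) + b / x₁ + b / x₂) / (s₁ + s₂) := by
    rw [ha]; field_simp; ring
  rw [e, map_div₀, hS, div_one]
  refine lt_of_le_of_lt (v.map_add _ _) (max_lt ?_ ?_)
  · refine lt_of_le_of_lt (v.map_add _ _) (max_lt ?_ ?_)
    · rw [map_mul]
      calc v (s₁ - α) * v (s₂ - α) < 1 * 1 := mul_lt_mul'' h₁.2.2 h₂.2.2 zero_le zero_le
        _ = 1 := mul_one 1
    · rw [map_div₀, div_lt_one₀ (zero_lt_iff.mpr hx₁)]; exact h₁.1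
  · rw [map_div₀, div_lt_one₀ (zero_lt_iff.mpr hx₂)]; exact h₂.1

/-- (H3), first case: if `v b < v x₁ * v x₂` the sum lies on the `α`-branch and
`v x₃ = v x₁ * v x₂`. -/
theorem isAlpha_add_of_lt (ha : a = α ^ 2) (hα : v α = 1) (h2 : v (2 : K) = 1)
    (h₁ : IsAlpha v b α x₁ s₁) (h₂ : IsAlpha v b α x₂ s₂) (h : v b < v x₁ * v x₂) :
    v (x3 b x₁ x₂ (s₁ + s₂)) = v x₁ * v x₂ ∧
      IsAlpha v b α (x3 b x₁ x₂ (s₁ + s₂)) (s3 a b x₁ s₁ x₂ s₂) := by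
  obtain ⟨-, hS⟩ := v_add_of_isAlpha hα h2 h₁ h₂
  have hx₁ : v x₁ ≠ 0 := (Valuation.ne_zero_iff v).mpr h₁.x_ne_zero
  have hx₂ : v x₂ ≠ 0 := (Valuation.ne_zero_iff v).mpr h₂.x_ne_zero
  have h12 : v x₁ * v x₂ ≠ 0 := mul_ne_zero hx₁ hx₂
  have hN : v (x₁ * x₂ - b) = v x₁ * v x₂ := by
    rw [← map_mul]
    rw [← map_mul] at h
    exact Valuation.map_sub_eq_of_lt_left v h
  have hx3 : v (x3 b x₁ x₂ (s₁ + s₂)) = v x₁ * v x₂ := by
    unfold x3
    rw [map_div₀, map_pow, hN, map_mul, map_mul, map_pow, hS, one_pow, mul_one, sq,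
      mul_div_assoc, div_self h12, mul_one]
  refine ⟨hx3, ?_, ?_, ?_⟩
  · rw [hx3]; exact h
  · rw [hx3]
    calc v x₁ * v x₂ < 1 * 1 := mul_lt_mul'' h₁.2.1 h₂.2.1 zero_le zero_le
      _ = 1 := mul_one 1
  · unfold s3
    have e : (s₁ * s₂ + a + b / x₁ + b / x₂) / (s₁ + s₂) + (s₁ + s₂) * b / (x₁ * x₂ - b) - α =
        ((s₁ * s₂ + a + b / x₁ + b / x₂) / (s₁ + s₂) - α) + (s₁ + s₂) * b / (x₁ * x₂ - b) := by
      ring
    rw [e]
    refine lt_of_le_of_lt (v.map_add _ _) (max_lt (v_regular_part ha hα h2 h₁ h₂) ?_)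
    rw [map_div₀, map_mul, hS, one_mul, hN, div_lt_one₀ (zero_lt_iff.mpr h12)]
    exact h

/-- (H3), second case: if `v x₁ * v x₂ = v b` the sum is "far": `v x₃ ≤ v b`. -/
theorem v_x3_le_of_eq (hα : v α = 1) (h2 : v (2 : K) = 1)
    (h₁ : IsAlpha v b α x₁ s₁) (h₂ : IsAlpha v b α x₂ s₂) (h : v x₁ * v x₂ = v b) :
    v (x3 b x₁ x₂ (s₁ + s₂)) ≤ v b := by
  obtain ⟨-, hS⟩ := v_add_of_isAlpha hα h2 h₁ h₂
  have hx₁ : v x₁ ≠ 0 := (Valuation.ne_zero_iff v).mpr h₁.x_ne_zero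
  have hx₂ : v x₂ ≠ 0 := (Valuation.ne_zero_iff v).mpr h₂.x_ne_zero
  have h12 : v x₁ * v x₂ ≠ 0 := mul_ne_zero hx₁ hx₂
  have hb0 : v b ≠ 0 := h ▸ h12
  have hN : v (x₁ * x₂ - b) ≤ v b := by
    refine le_trans (v.map_sub _ _) (max_le ?_ le_rfl)
    rw [map_mul, h]
  unfold x3
  rw [map_div₀, map_pow, map_mul, map_mul, map_pow, hS, one_pow, mul_one, h,
    div_le_iff₀ (zero_lt_iff.mpr hb0), sq]
  exact mul_le_mul' hN hN

/-- (H3), third case: if `v x₁ * v x₂ < v b` the sum lies on the `β`-branch and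
`v x₃ = (v b)^2 / (v x₁ * v x₂)`. -/
theorem isBeta_add_of_lt (ha : a = α ^ 2) (hα : v α = 1) (h2 : v (2 : K) = 1)
    (h₁ : IsAlpha v b α x₁ s₁) (h₂ : IsAlpha v b α x₂ s₂) (h : v x₁ * v x₂ < v b) :
    v (x3 b x₁ x₂ (s₁ + s₂)) = v b ^ 2 / (v x₁ * v x₂) ∧
      IsBeta v b α (x3 b x₁ x₂ (s₁ + s₂)) (s3 a b x₁ s₁ x₂ s₂) := by
  obtain ⟨hS2, hS⟩ := v_add_of_isAlpha hα h2 h₁ h₂
  have hx₁ : v x₁ ≠ 0 := (Valuation.ne_zero_iff v).mpr h₁.x_ne_zero
  have hx₂ : v x₂ ≠ 0 := (Valuation.ne_zero_iff v).mpr h₂.x_ne_zero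
  have h12 : v x₁ * v x₂ ≠ 0 := mul_ne_zero hx₁ hx₂
  have h12pos : 0 < v x₁ * v x₂ := zero_lt_iff.mpr h12
  have hb0 : v b ≠ 0 := fun hb => by rw [hb] at h; exact not_lt_zero h
  have hbpos : 0 < v b := zero_lt_iff.mpr hb0
  have hN : v (x₁ * x₂ - b) = v b := by
    rw [← map_mul] at h
    exact Valuation.map_sub_eq_of_lt_right v h
  have hN0 : x₁ * x₂ - b ≠ 0 := (Valuation.ne_zero_iff v).mp (hN ▸ hb0)
  have hx3 : v (x3 b x₁ x₂ (s₁ + s₂)) = v b ^ 2 / (v x₁ * v x₂) := by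
    unfold x3
    rw [map_div₀, map_pow, hN, map_mul, map_mul, map_pow, hS, one_pow, mul_one]
  refine ⟨hx3, ?_, ?_, ?_⟩
  · rw [hx3, lt_div_iff₀ h12pos, sq]
    exact mul_lt_mul_of_pos_left h hbpos
  · rw [hx3, div_lt_one₀ h12pos, sq]
    exact mul_lt_mul'' h₁.1 h₂.1 zero_le zero_le
  · unfold s3
    have e : (s₁ * s₂ + a + b / x₁ + b / x₂) / (s₁ + s₂) + (s₁ + s₂) * b / (x₁ * x₂ - b) + α =
        ((s₁ * s₂ + a + b / x₁ + b / x₂) / (s₁ + s₂) - α) +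
          (-(s₁ + s₂ - 2 * α) + (s₁ + s₂) * (x₁ * x₂) / (x₁ * x₂ - b)) := by
      have hS0 : s₁ + s₂ ≠ 0 := by
        intro h0; rw [h0, map_zero] at hS; exact zero_ne_one hS
      have hx₁' := h₁.x_ne_zero
      have hx₂' := h₂.x_ne_zero
      field_simp
      ring
    rw [e]
    refine lt_of_le_of_lt (v.map_add _ _) (max_lt (v_regular_part ha hα h2 h₁ h₂) ?_)
    refine lt_of_le_of_lt (v.map_add _ _) (max_lt ?_ ?_)
    · rw [Valuation.map_neg]; exact hS2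
    · rw [map_div₀, map_mul, hS, one_mul, hN, map_mul, div_lt_one₀ hbpos]
      exact h

end AlphaAlpha

end Fermat.Agent.S05.CompH3
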