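-- S05 helper (helper10): valuation bookkeeping for the component map on the curve
-- `Y^2 = X^3 + a X^2 + b X` in the coordinates `(x, s = y / x)`:  `s^2 = x + a + b / x`.
-- Pure coordinate form of (H1), (H2) of the T-S05 blueprint v1, in the style of `CompH3`.
import Mathlib
import Fermat.Agent.S05.CompH3

set_option autoImplicit false

namespace Fermat.Agent.S05.CompH12

open Fermat.Agent.S05.CompH3

variable {K : Type*} [Field K] {Γ₀ : Type*} [LinearOrderedCommGroupWithZero Γ₀]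
  {v : Valuation K Γ₀} {a b α : K}

/-- On the curve `s^2 = x + a + b/x`, a point with `1 ≤ v x` has `v s ^ 2 ≤ v x`. -/
theorem v_s_sq_le (ha : v a ≤ 1) (hb : v b ≤ 1) {x s : K} (hx : 1 ≤ v x)
    (hs : s ^ 2 = x + a + b / x) : v s ^ 2 ≤ v x := by
  have hxpos : 0 < v x := lt_of_lt_of_le zero_lt_one hx
  rw [← map_pow, hs]
  refine le_trans (v.map_add _ _) (max_le (le_trans (v.map_add _ _) (max_le le_rfl (ha.trans hx))) ?_)
  rw [map_div₀]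
  exact le_trans ((div_le_one₀ hxpos).mpr (hb.trans hx)) hx

/-- If `s₁ + s₂ = 0` for two points of the curve then `x₁ = x₂` or `x₁ x₂ = b`. -/
theorem eq_or_mul_eq_of_add_eq_zero {x₁ s₁ x₂ s₂ : K} (hx₁ : x₁ ≠ 0) (hx₂ : x₂ ≠ 0)
    (hs₁ : s₁ ^ 2 = x₁ + a + b / x₁) (hs₂ : s₂ ^ 2 = x₂ + a + b / x₂) (hS : s₁ + s₂ = 0) :
    x₁ = x₂ ∨ x₁ * x₂ = b := by
  have h1 : s₁ = -s₂ := eq_neg_of_add_eq_zero_left hS
  have h2 : s₁ ^ 2 = s₂ ^ 2 := by rw [h1]; ring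
  rw [hs₁, hs₂] at h2
  have h3 : (x₁ - x₂) * (x₁ * x₂ - b) = 0 := by
    field_simp at h2
    linear_combination h2
  rcases mul_eq_zero.mp h3 with h | h
  · exact Or.inl (sub_eq_zero.mp h)
  · exact Or.inr (sub_eq_zero.mp h)

section H1

variable {x₁ s₁ x₂ s₂ : K}

theorem v_mul_sub_of_one_le (hb : v b < 1) (hx₁ : 1 ≤ v x₁) (hx₂ : 1 ≤ v x₂) :
    v (x₁ * x₂ - b) = v x₁ * v x₂ := by
  have h : v b < v (x₁ * x₂) := by
    rw [map_mul]
    calc v b < 1 := hb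
      _ = 1 * 1 := (mul_one 1).symm
      _ ≤ v x₁ * v x₂ := mul_le_mul' hx₁ hx₂
  rw [← map_mul]
  exact Valuation.map_sub_eq_of_lt_left v h

/-- For two points of `E₀` (both `1 ≤ v x`), `x₁ x₂ ≠ b`. -/
theorem mul_sub_ne_zero_of_one_le (hb : v b < 1) (hx₁ : 1 ≤ v x₁) (hx₂ : 1 ≤ v x₂) :
    x₁ * x₂ - b ≠ 0 := by
  intro h
  have := v_mul_sub_of_one_le hb hx₁ hx₂
  rw [h, map_zero] at this
  have h1 : (1 : Γ₀) ≤ 0 := by
    calc (1 : Γ₀) = 1 * 1 := (mul_one 1).symm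
      _ ≤ v x₁ * v x₂ := mul_le_mul' hx₁ hx₂
      _ = 0 := this.symm
  exact absurd h1 (not_le.mpr zero_lt_one)

/-- For two points of `E₀` with `s₁ + s₂ = 0` we have `x₁ = x₂` (so the points are opposite). -/
theorem eq_of_add_eq_zero_of_one_le (hb : v b < 1) (hx₁ : 1 ≤ v x₁) (hx₂ : 1 ≤ v x₂)
    (hs₁ : s₁ ^ 2 = x₁ + a + b / x₁) (hs₂ : s₂ ^ 2 = x₂ + a + b / x₂) (hS : s₁ + s₂ = 0) :
    x₁ = x₂ := by
  have hx₁0 : x₁ ≠ 0 := by
    rintro rfl; rw [map_zero] at hx₁; exact absurd hx₁ (not_le.mpr zero_lt_one)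
  have hx₂0 : x₂ ≠ 0 := by
    rintro rfl; rw [map_zero] at hx₂; exact absurd hx₂ (not_le.mpr zero_lt_one)
  rcases eq_or_mul_eq_of_add_eq_zero hx₁0 hx₂0 hs₁ hs₂ hS with h | h
  · exact h
  · exact absurd (sub_eq_zero.mpr h) (mul_sub_ne_zero_of_one_le hb hx₁ hx₂)

/-- (H1): the sum of two points of `E₀` (both `1 ≤ v x`) with `s₁ + s₂ ≠ 0` lies in `E₀`. -/
theorem one_le_v_x3 (ha : v a ≤ 1) (hb : v b < 1) (hx₁ : 1 ≤ v x₁) (hx₂ : 1 ≤ v x₂)
    (hs₁ : s₁ ^ 2 = x₁ + a + b / x₁) (hs₂ : s₂ ^ 2 = x₂ + a + b / x₂) (hS : s₁ + s₂ ≠ 0) :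
    1 ≤ v (x3 b x₁ x₂ (s₁ + s₂)) := by
  have hx₁pos : 0 < v x₁ := lt_of_lt_of_le zero_lt_one hx₁
  have hx₂pos : 0 < v x₂ := lt_of_lt_of_le zero_lt_one hx₂
  have h12pos : 0 < v x₁ * v x₂ := mul_pos hx₁pos hx₂pos
  have hSpos : 0 < v (s₁ + s₂) := zero_lt_iff.mpr ((Valuation.ne_zero_iff v).mpr hS)
  have hN := v_mul_sub_of_one_le hb hx₁ hx₂
  have h1 := v_s_sq_le ha hb.le hx₁ hs₁
  have h2 := v_s_sq_le ha hb.le hx₂ hs₂
  -- `v S ^ 2 ≤ v x₁ * v x₂`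
  have hS2 : v (s₁ + s₂) ^ 2 ≤ v x₁ * v x₂ := by
    have hmax : v (s₁ + s₂) ≤ max (v s₁) (v s₂) := v.map_add _ _
    rcases le_total (v s₁) (v s₂) with h | h
    · rw [max_eq_right h] at hmax
      calc v (s₁ + s₂) ^ 2 ≤ v s₂ ^ 2 := pow_le_pow_left' hmax 2
        _ ≤ v x₂ := h2
        _ = 1 * v x₂ := (one_mul _).symm
        _ ≤ v x₁ * v x₂ := mul_le_mul' hx₁ le_rfl
    · rw [max_eq_left h] at hmax
      calc v (s₁ + s₂) ^ 2 ≤ v s₁ ^ 2 := pow_le_pow_left' hmax 2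
        _ ≤ v x₁ := h1
        _ = v x₁ * 1 := (mul_one _).symm
        _ ≤ v x₁ * v x₂ := mul_le_mul' le_rfl hx₂
  unfold x3
  rw [map_div₀, map_pow, hN, map_mul, map_mul, map_pow,
    one_le_div₀ (mul_pos h12pos (pow_pos hSpos 2)), sq (v x₁ * v x₂)]
  exact mul_le_mul' le_rfl hS2

end H1

section H2

variable {x₁ s₁ x₂ s₂ : K}

/-- For a point of `E₀` (`1 ≤ v x`), `v (s + α) = v (s - α)` and the square of this common value
is `v x`. -/
theorem v_add_eq_v_sub (ha : a = α ^ 2) (hα : v α = 1) (hb : v b < 1) {x s : K} (hx : 1 ≤ v x)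
    (hs : s ^ 2 = x + a + b / x) :
    v (s + α) = v (s - α) ∧ v (s + α) * v (s - α) = v x := by
  have hxpos : 0 < v x := lt_of_lt_of_le zero_lt_one hx
  have hprod : v (s + α) * v (s - α) = v x := by
    have e : (s + α) * (s - α) = x + b / x := by
      have : (s + α) * (s - α) = s ^ 2 - α ^ 2 := by ring
      rw [this, hs, ha]; ring
    rw [← map_mul, e]
    have hlt : v (b / x) < v x := by
      rw [map_div₀]
      calc v b / v x ≤ v b := by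
            rw [div_le_iff₀ hxpos]
            calc v b = v b * 1 := (mul_one _).symm
              _ ≤ v b * v x := mul_le_mul' le_rfl hx
        _ < 1 := hb
        _ ≤ v x := hx
    exact Valuation.map_add_eq_of_lt_left v hlt
  refine ⟨?_, hprod⟩
  by_contra hne
  -- then `v (2 α) = max`, so both are `≤ 1`, product `≥ 1` forces both `= 1`
  have h2α : v ((s + α) - (s - α)) = max (v (s + α)) (v (s - α)) := by
    have h := Valuation.map_add_of_distinct_val v (x := s + α) (y := -(s - α))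
      (by rwa [Valuation.map_neg])
    rwa [Valuation.map_neg, ← sub_eq_add_neg] at h
  have h2α' : v ((s + α) - (s - α)) ≤ 1 := by
    have e : (s + α) - (s - α) = α + α := by ring
    rw [e]
    exact le_trans (v.map_add _ _) (by rw [hα, max_self])
  rw [h2α] at h2α'
  have hp : v (s + α) ≤ 1 := le_trans (le_max_left _ _) h2α'
  have hm : v (s - α) ≤ 1 := le_trans (le_max_right _ _) h2α'
  have hp1 : v (s + α) = 1 := by
    refine le_antisymm hp ?_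
    calc (1 : Γ₀) ≤ v x := hx
      _ = v (s + α) * v (s - α) := hprod.symm
      _ ≤ v (s + α) * 1 := mul_le_mul' le_rfl hm
      _ = v (s + α) := mul_one _
  have hm1 : v (s - α) = 1 := by
    refine le_antisymm hm ?_
    calc (1 : Γ₀) ≤ v x := hx
      _ = v (s + α) * v (s - α) := hprod.symm
      _ ≤ 1 * v (s - α) := mul_le_mul' hp le_rfl
      _ = v (s - α) := one_mul _
  exact hne (hp1.trans hm1.symm)

/-- (H2): the sum of a point of `E₀` (`1 ≤ v x₁`) and a point of the `α`-branch lies on the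
`α`-branch, with the same `v x`. -/
theorem isAlpha_add_of_one_le (ha : a = α ^ 2) (hα : v α = 1) (hx₁ : 1 ≤ v x₁)
    (hs₁ : s₁ ^ 2 = x₁ + a + b / x₁) (h₂ : IsAlpha v b α x₂ s₂) :
    s₁ + s₂ ≠ 0 ∧ x₁ * x₂ - b ≠ 0 ∧ v (x3 b x₁ x₂ (s₁ + s₂)) = v x₂ ∧
      IsAlpha v b α (x3 b x₁ x₂ (s₁ + s₂)) (s3 a b x₁ s₁ x₂ s₂) := by
  have hb : v b < 1 := lt_trans h₂.1 h₂.2.1
  have hx₁pos : 0 < v x₁ := lt_of_lt_of_le zero_lt_one hx₁
  have hx₂0 : v x₂ ≠ 0 := (Valuation.ne_zero_iff v).mpr h₂.x_ne_zero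
  have hx₂pos : 0 < v x₂ := zero_lt_iff.mpr hx₂0
  obtain ⟨heq, hprod⟩ := v_add_eq_v_sub ha hα hb hx₁ hs₁
  -- `ρ := v (s₁ + α)`, `ρ ^ 2 = v x₁`, `1 ≤ ρ`
  have hρ2 : v (s₁ + α) * v (s₁ + α) = v x₁ := by
    conv_lhs => rw [heq]
    rw [← heq] at hprod
    rw [← heq]; exact hprod
  have hρ1 : 1 ≤ v (s₁ + α) := by
    by_contra h
    have h' : v (s₁ + α) < 1 := not_le.mp h
    have : v x₁ < 1 := by
      rw [← hρ2]
      calc v (s₁ + α) * v (s₁ + α) < 1 * 1 := mul_lt_mul'' h' h' zero_le zero_le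
        _ = 1 := mul_one 1
    exact absurd hx₁ (not_le.mpr this)
  have hρpos : 0 < v (s₁ + α) := lt_of_lt_of_le zero_lt_one hρ1
  -- `v S = ρ`
  have hS : v (s₁ + s₂) = v (s₁ + α) := by
    have e : s₁ + s₂ = (s₁ + α) + (s₂ - α) := by ring
    rw [e]
    exact Valuation.map_add_eq_of_lt_left v (lt_of_lt_of_le h₂.2.2 hρ1)
  have hS0 : s₁ + s₂ ≠ 0 := by
    intro h; rw [h, map_zero] at hS; exact hρpos.ne hS
  -- `v (x₁ x₂ - b) = v x₁ * v x₂`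
  have hN : v (x₁ * x₂ - b) = v x₁ * v x₂ := by
    have h : v b < v (x₁ * x₂) := by
      rw [map_mul]
      calc v b < v x₂ := h₂.1
        _ = 1 * v x₂ := (one_mul _).symm
        _ ≤ v x₁ * v x₂ := mul_le_mul' hx₁ le_rfl
    rw [← map_mul]
    exact Valuation.map_sub_eq_of_lt_left v h
  have h12pos : 0 < v x₁ * v x₂ := mul_pos hx₁pos hx₂pos
  have hN0 : x₁ * x₂ - b ≠ 0 := (Valuation.ne_zero_iff v).mp (hN ▸ h12pos.ne')
  have hx3 : v (x3 b x₁ x₂ (s₁ + s₂)) = v x₂ := by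
    unfold x3
    rw [map_div₀, map_pow, hN, map_mul, map_mul, map_pow, hS, sq, sq, hρ2]
    rw [div_eq_iff (mul_pos h12pos hx₁pos).ne']
    ac_rfl
  refine ⟨hS0, hN0, hx3, ?_, ?_, ?_⟩
  · rw [hx3]; exact h₂.1
  · rw [hx3]; exact h₂.2.1
  · unfold s3
    have e : (s₁ * s₂ + a + b / x₁ + b / x₂) / (s₁ + s₂) + (s₁ + s₂) * b / (x₁ * x₂ - b) - α =
        (((s₁ - α) * (s₂ - α)) / (s₁ + s₂) + (b / x₁) / (s₁ + s₂) + (b / x₂) / (s₁ + s₂)) +
          (s₁ + s₂) * b / (x₁ * x₂ - b) := by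
      rw [ha]; field_simp; ring
    rw [e]
    refine lt_of_le_of_lt (v.map_add _ _) (max_lt ?_ ?_)
    · refine lt_of_le_of_lt (v.map_add _ _) (max_lt ?_ ?_)
      · refine lt_of_le_of_lt (v.map_add _ _) (max_lt ?_ ?_)
        · -- `v ((s₁-α)(s₂-α)/S) = v (s₂ - α) < 1`
          rw [map_div₀, map_mul, hS, ← heq, mul_comm, mul_div_assoc, div_self hρpos.ne', mul_one]
          exact h₂.2.2
        · -- `v (b/x₁) / ρ < 1`
          rw [map_div₀, map_div₀, hS, div_div, div_lt_one₀ (mul_pos hx₁pos hρpos)]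
          calc v b < 1 := hb
            _ = 1 * 1 := (mul_one 1).symm
            _ ≤ v x₁ * v (s₁ + α) := mul_le_mul' hx₁ hρ1
      · -- `v (b/x₂) / ρ < 1`
        rw [map_div₀, map_div₀, hS, div_div, div_lt_one₀ (mul_pos hx₂pos hρpos)]
        calc v b < v x₂ := h₂.1
          _ = v x₂ * 1 := (mul_one _).symm
          _ ≤ v x₂ * v (s₁ + α) := mul_le_mul' le_rfl hρ1
    · -- `v (S b / (x₁ x₂ - b)) = v b / (ρ * v x₂) < 1`
      rw [map_div₀, map_mul, hS, hN, ← hρ2, div_lt_one₀ (mul_pos (mul_pos hρpos hρpos) hx₂pos)]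
      calc v (s₁ + α) * v b < v (s₁ + α) * v x₂ := mul_lt_mul_of_pos_left h₂.1 hρpos
        _ = 1 * (v (s₁ + α) * v x₂) := (one_mul _).symm
        _ ≤ v (s₁ + α) * (v (s₁ + α) * v x₂) := mul_le_mul' hρ1 le_rfl
        _ = v (s₁ + α) * v (s₁ + α) * v x₂ := (mul_assoc _ _ _).symm

end H2

section Neg

variable {x₁ s₁ x₂ s₂ : K}

theorem x3_neg_neg : x3 b x₁ x₂ (-s₁ + -s₂) = x3 b x₁ x₂ (s₁ + s₂) := by
  unfold x3
  have : (-s₁ + -s₂) ^ 2 = (s₁ + s₂) ^ 2 := by ring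
  rw [this]

theorem s3_neg_neg : s3 a b x₁ (-s₁) x₂ (-s₂) = -s3 a b x₁ s₁ x₂ s₂ := by
  unfold s3
  have h1 : -s₁ + -s₂ = -(s₁ + s₂) := by ring
  have h2 : -s₁ * -s₂ = s₁ * s₂ := by ring
  rw [h1, h2, div_neg, neg_mul, neg_div]
  ring

/-- (H2) for the `β`-branch: the sum of a point of `E₀` (`1 ≤ v x₁`) and a point of the
`β`-branch lies on the `β`-branch, with the same `v x`. -/
theorem isBeta_add_of_one_le (ha : a = α ^ 2) (hα : v α = 1) (hx₁ : 1 ≤ v x₁)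
    (hs₁ : s₁ ^ 2 = x₁ + a + b / x₁) (h₂ : IsBeta v b α x₂ s₂) :
    s₁ + s₂ ≠ 0 ∧ x₁ * x₂ - b ≠ 0 ∧ v (x3 b x₁ x₂ (s₁ + s₂)) = v x₂ ∧
      IsBeta v b α (x3 b x₁ x₂ (s₁ + s₂)) (s3 a b x₁ s₁ x₂ s₂) := by
  have hs₁' : (-s₁) ^ 2 = x₁ + a + b / x₁ := by rw [neg_sq]; exact hs₁
  obtain ⟨h1, h2, h3, h4⟩ := isAlpha_add_of_one_le ha hα hx₁ hs₁' h₂.neg
  rw [x3_neg_neg] at h3 h4
  rw [s3_neg_neg] at h4
  refine ⟨?_, h2, h3, ?_⟩
  · intro h
    apply h1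
    have : -s₁ + -s₂ = -(s₁ + s₂) := by ring
    rw [this, h, neg_zero]
  · have := h4.neg
    rwa [neg_neg] at this

end Neg

end Fermat.Agent.S05.CompH12
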