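/-
T-S05 P5b (helper13): the component map on `Wab a b : Y² = X³ + a X² + b X` in the multiplicative
case (`a = α²`, `v α = 1`, `0 < v b < 1`, `v 2 = 1`), its homomorphism property modulo `(v b)^2`,
and the consequence for torsion points on the branches.
-/
import Fermat.Agent.S05.Formulas
import Fermat.Agent.S05.CompH3
import Fermat.Agent.S05.CompH12

set_option autoImplicit false
set_option linter.unusedSectionVars false

namespace Fermat.Agent.S05

open WeierstrassCurve WeierstrassCurve.Affine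
open Fermat.Agent.S05.CompH3 Fermat.Agent.S05.CompH12

section Rel

variable {Γ₀ : Type*} [LinearOrderedCommGroupWithZero Γ₀]

/-- Congruence modulo the subgroup generated by `t ^ 2`. -/
def CRel (t u w : Γ₀) : Prop := ∃ k : ℤ, u = w * t ^ (2 * k)

theorem CRel.refl (t u : Γ₀) : CRel t u u := ⟨0, by simp⟩

theorem CRel.of_eq {t u w : Γ₀} (h : u = w) : CRel t u w := h ▸ CRel.refl t u

theorem CRel.symm {t u w : Γ₀} (ht : t ≠ 0) (h : CRel t u w) : CRel t w u := by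
  obtain ⟨k, rfl⟩ := h
  refine ⟨-k, ?_⟩
  rw [mul_assoc, ← zpow_add₀ ht]
  simp

theorem CRel.trans {t u w z : Γ₀} (ht : t ≠ 0) (h : CRel t u w) (h' : CRel t w z) :
    CRel t u z := by
  obtain ⟨k, rfl⟩ := h
  obtain ⟨l, rfl⟩ := h'
  refine ⟨l + k, ?_⟩
  rw [mul_assoc, ← zpow_add₀ ht, mul_add]

theorem CRel.mul {t u w u' w' : Γ₀} (ht : t ≠ 0) (h : CRel t u w) (h' : CRel t u' w') :
    CRel t (u * u') (w * w') := by
  obtain ⟨k, rfl⟩ := h
  obtain ⟨l, rfl⟩ := h'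
  refine ⟨k + l, ?_⟩
  rw [mul_add, zpow_add₀ ht, mul_mul_mul_comm]

theorem CRel.mul_left {t u w : Γ₀} (ht : t ≠ 0) (z : Γ₀) (h : CRel t u w) :
    CRel t (z * u) (z * w) := CRel.mul ht (CRel.refl t z) h

theorem CRel.sq_mul {t : Γ₀} (ht : t ≠ 0) (u : Γ₀) : CRel t u (t * t * u) := by
  refine ⟨-1, ?_⟩
  have : t ^ (2 * (-1) : ℤ) = (t * t)⁻¹ := by
    rw [show (2 * (-1) : ℤ) = -2 by norm_num, zpow_neg, zpow_ofNat, sq]
  rw [this, mul_comm (t * t) u, mul_assoc, mul_inv_cancel₀ (mul_ne_zero ht ht), mul_one]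

theorem CRel.pow {t u w : Γ₀} (ht : t ≠ 0) (h : CRel t u w) (n : ℕ) : CRel t (u ^ n) (w ^ n) := by
  induction n with
  | zero => simp [CRel.refl]
  | succ n ih => rw [pow_succ, pow_succ]; exact CRel.mul ht ih h

end Rel

section Comp

variable {K : Type*} [Field K] [DecidableEq K] {Γ₀ : Type*} [LinearOrderedCommGroupWithZero Γ₀]
  (v : Valuation K Γ₀) {a b : K}

open Classical in
/-- The component value of a point: a representative in `((v b)^2, 1]` of its class in the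
"component group" `Γ₀ˣ / ⟨(v b)^2⟩`. -/
noncomputable def cval (α : K) : (Wab a b).toAffine.Point → Γ₀
  | .zero => 1
  | .some x y _ =>
      if 1 ≤ v x then 1
      else if v x ≤ v b then v b
      else if v (y / x - α) < 1 then v x
      else v b ^ 2 / v x

variable {v}

theorem cval_zero (α : K) : cval v α (0 : (Wab a b).toAffine.Point) = 1 := rfl

theorem cval_of_inE0 (α : K) {P : (Wab a b).toAffine.Point} (hP : InE0 v P) : cval v α P = 1 := by
  rcases P with _ | ⟨x, y, h⟩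
  · rfl
  · have hx : 1 ≤ v x := hP
    simp only [cval, if_pos hx]

theorem cval_of_far (hb : v b < 1) (α : K) {x y : K} (h : (Wab a b).toAffine.Nonsingular x y)
    (hx : v x ≤ v b) : cval v α (Point.some x y h) = v b := by
  have h1 : ¬ 1 ≤ v x := not_le.mpr (lt_of_le_of_lt hx hb)
  simp only [cval, if_neg h1, if_pos hx]

theorem cval_of_isAlpha (α : K) {x s : K} (h : (Wab a b).toAffine.Nonsingular x (x * s))
    (hA : IsAlpha v b α x s) : cval v α (Point.some x (x * s) h) = v x := by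
  have h1 : ¬ 1 ≤ v x := not_le.mpr hA.2.1
  have h2 : ¬ v x ≤ v b := not_le.mpr hA.1
  have h3 : v (x * s / x - α) < 1 := by
    rw [mul_div_cancel_left₀ s hA.x_ne_zero]; exact hA.2.2
  simp only [cval, if_neg h1, if_neg h2, if_pos h3]

theorem cval_of_isBeta (h2 : v (2 : K) = 1) {α : K} (hαv : v α = 1) {x s : K}
    (h : (Wab a b).toAffine.Nonsingular x (x * s))
    (hB : IsBeta v b α x s) : cval v α (Point.some x (x * s) h) = v b ^ 2 / v x := by
  have h1 : ¬ 1 ≤ v x := not_le.mpr hB.2.1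
  have h2' : ¬ v x ≤ v b := not_le.mpr hB.1
  have h3 : ¬ v (x * s / x - α) < 1 := by
    rw [mul_div_cancel_left₀ s hB.x_ne_zero]
    intro h3
    exact not_isAlpha_and_isBeta hαv h2 ⟨hB.1, hB.2.1, h3⟩ hB
  simp only [cval, if_neg h1, if_neg h2', if_neg h3]

/-- A point with `v b < v x < 1` lies on exactly one of the two branches. -/
theorem isAlpha_or_isBeta_of_nonsingular {α : K} (hα : α ^ 2 = a) {x s : K}
    (h : (Wab a b).toAffine.Nonsingular x (x * s)) (hxb : v b < v x) (hx1 : v x < 1) :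
    IsAlpha v b α x s ∨ IsBeta v b α x s := by
  have hx0 : x ≠ 0 := by
    rintro rfl
    simp at hxb
  exact isAlpha_or_isBeta hα.symm hxb hx1 (s_sq h hx0)

/-- **(H4)** Translation by `T0` multiplies the component value by `v b` (modulo `(v b)^2`). -/
theorem cval_add_T0 (h2 : v (2 : K) = 1) (hb : v b < 1) (hb0 : b ≠ 0) {α : K} (hα : α ^ 2 = a)
    (hαv : v α = 1) (P : (Wab a b).toAffine.Point) :
    CRel (v b) (cval v α (P + T0 hb0)) (v b * cval v α P) := by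
  have ht : v b ≠ 0 := (Valuation.ne_zero_iff v).mpr hb0
  have hT0 : cval v α (T0 hb0 : (Wab a b).toAffine.Point) = v b := by
    rw [T0]; exact cval_of_far hb α _ (by simp)
  rcases point_cases hb0 P with rfl | rfl | ⟨x, s, h, hx0, rfl⟩
  · rw [zero_add, hT0, cval_zero, mul_one]; exact CRel.refl _ _
  · rw [T0_add_T0, cval_zero, hT0]
    simpa using CRel.sq_mul ht (1 : Γ₀)
  · obtain ⟨h', e⟩ := add_T0_xs hb0 h hx0
    rw [e]
    have hvx0 : v x ≠ 0 := (Valuation.ne_zero_iff v).mpr hx0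
    have hvbx : v (b / x) = v b / v x := map_div₀ v b x
    rcases le_or_gt 1 (v x) with hx1 | hx1
    · -- `P ∈ E0`
      rw [cval_of_inE0 α (show InE0 v (Point.some x (x * s) h) from hx1), mul_one]
      refine CRel.of_eq (cval_of_far hb α _ ?_)
      rw [hvbx, div_le_iff₀ (zero_lt_iff.mpr hvx0)]
      exact le_mul_of_one_le_right' hx1
    rcases le_or_gt (v x) (v b) with hxb | hxb
    · -- `P` far
      rw [cval_of_far hb α h hxb]
      have : InE0 v (Point.some (b / x) (b / x * -s) h') := by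
        show 1 ≤ v (b / x)
        rw [hvbx, one_le_div₀ (zero_lt_iff.mpr hvx0)]
        exact hxb
      rw [cval_of_inE0 α this]
      simpa using CRel.sq_mul ht (1 : Γ₀)
    rcases isAlpha_or_isBeta_of_nonsingular hα h hxb hx1 with hA | hB
    · rw [cval_of_isAlpha α h hA, cval_of_isBeta h2 hαv h' (hA.transl hb0), hvbx]
      refine CRel.of_eq ?_
      field_simp
    · rw [cval_of_isBeta h2 hαv h hB, cval_of_isAlpha α h' (hB.transl hb0), hvbx]
      have := CRel.sq_mul ht (v b / v x)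
      have e' : v b * v b * (v b / v x) = v b * (v b ^ 2 / v x) := by field_simp
      rwa [e'] at this

theorem addXs_eq_x3 (x₁ s₁ x₂ s₂ : K) : addXs b x₁ s₁ x₂ s₂ = x3 b x₁ x₂ (s₁ + s₂) := rfl

theorem addSs_eq_s3 (x₁ s₁ x₂ s₂ : K) : addSs a b x₁ s₁ x₂ s₂ = s3 a b x₁ s₁ x₂ s₂ := by
  unfold addSs s3
  ring

/-- The fundamental domain `D = E₀ ∪ (α-branch)`. -/
def InD (v : Valuation K Γ₀) (α : K) (P : (Wab a b).toAffine.Point) : Prop :=
  InE0 v P ∨ ∃ (x s : K) (h : (Wab a b).toAffine.Nonsingular x (x * s)),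
    P = Point.some x (x * s) h ∧ IsAlpha v b α x s

/-- **(H1)** at the level of points: `E₀ + E₀ ⊆ E₀`. -/
theorem inE0_add (hb : v b < 1) (hb0 : b ≠ 0) (ha : v a ≤ 1)
    {P Q : (Wab a b).toAffine.Point} (hP : InE0 v P) (hQ : InE0 v Q) : InE0 v (P + Q) := by
  rcases point_cases hb0 P with rfl | rfl | ⟨x₁, s₁, h₁, hx₁, rfl⟩
  · rwa [zero_add]
  · exfalso
    have : (1 : Γ₀) ≤ v (0 : K) := hP
    simp at this
  rcases point_cases hb0 Q with rfl | rfl | ⟨x₂, s₂, h₂, hx₂, rfl⟩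
  · rwa [add_zero]
  · exfalso
    have : (1 : Γ₀) ≤ v (0 : K) := hQ
    simp at this
  have hv₁ : 1 ≤ v x₁ := hP
  have hv₂ : 1 ≤ v x₂ := hQ
  have e₁ := s_sq h₁ hx₁
  have e₂ := s_sq h₂ hx₂
  by_cases hS : s₁ + s₂ = 0
  · rcases add_xs_of_S_eq_zero hb0 h₁ h₂ hx₁ hx₂ hS with ⟨-, h0⟩ | ⟨hxb, -⟩
    · rw [h0]; trivial
    · exact absurd (sub_eq_zero.mpr hxb) (mul_sub_ne_zero_of_one_le hb hv₁ hv₂)
  · have hxb : x₁ * x₂ ≠ b := sub_ne_zero.mp (mul_sub_ne_zero_of_one_le hb hv₁ hv₂)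
    obtain ⟨h₃, e⟩ := add_xs h₁ h₂ hx₁ hx₂ hS hxb
    rw [e]
    show 1 ≤ v (addXs b x₁ s₁ x₂ s₂)
    rw [addXs_eq_x3]
    exact one_le_v_x3 ha hb hv₁ hv₂ e₁ e₂ hS

/-- **(H2)** at the level of points: `E₀ + (α-branch)` stays on the `α`-branch with the same
`v x`. -/
theorem inE0_add_isAlpha (hb0 : b ≠ 0) {α : K} (hα : α ^ 2 = a) (hαv : v α = 1)
    {P : (Wab a b).toAffine.Point} (hP : InE0 v P) {x₂ s₂ : K}
    (h₂ : (Wab a b).toAffine.Nonsingular x₂ (x₂ * s₂)) (hA : IsAlpha v b α x₂ s₂) :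
    ∃ (x₃ s₃ : K) (h₃ : (Wab a b).toAffine.Nonsingular x₃ (x₃ * s₃)),
      P + Point.some x₂ (x₂ * s₂) h₂ = Point.some x₃ (x₃ * s₃) h₃ ∧ v x₃ = v x₂ ∧
        IsAlpha v b α x₃ s₃ := by
  rcases point_cases hb0 P with rfl | rfl | ⟨x₁, s₁, h₁, hx₁, rfl⟩
  · exact ⟨x₂, s₂, h₂, zero_add _, rfl, hA⟩
  · exfalso
    have : (1 : Γ₀) ≤ v (0 : K) := hP
    simp at this
  have hv₁ : 1 ≤ v x₁ := hP
  obtain ⟨hS, hxb, hvx, hA₃⟩ := isAlpha_add_of_one_le hα.symm hαv hv₁ (s_sq h₁ hx₁) hA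
  obtain ⟨h₃, e⟩ := add_xs h₁ h₂ hx₁ hA.x_ne_zero hS (sub_ne_zero.mp hxb)
  refine ⟨_, _, h₃, e, ?_, ?_⟩
  · rw [addXs_eq_x3]; exact hvx
  · rw [addXs_eq_x3, addSs_eq_s3]; exact hA₃

/-- On the fundamental domain the component value is multiplicative on the nose. -/
theorem cval_add_of_inD (h2 : v (2 : K) = 1) (hb : v b < 1) (hb0 : b ≠ 0) {α : K}
    (hα : α ^ 2 = a) (hαv : v α = 1) {P Q : (Wab a b).toAffine.Point}
    (hP : InD v α P) (hQ : InD v α Q) : cval v α (P + Q) = cval v α P * cval v α Q := by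
  have hav : v a ≤ 1 := by rw [← hα, map_pow, hαv, one_pow]
  rcases hP with hP | ⟨x₁, s₁, h₁, rfl, hA₁⟩ <;> rcases hQ with hQ | ⟨x₂, s₂, h₂, rfl, hA₂⟩
  · rw [cval_of_inE0 α hP, cval_of_inE0 α hQ, cval_of_inE0 α (inE0_add hb hb0 hav hP hQ), mul_one]
  · obtain ⟨x₃, s₃, h₃, e, hvx, hA₃⟩ := inE0_add_isAlpha hb0 hα hαv hP h₂ hA₂
    rw [e, cval_of_isAlpha α h₃ hA₃, cval_of_inE0 α hP, cval_of_isAlpha α h₂ hA₂, one_mul, hvx]
  · obtain ⟨x₃, s₃, h₃, e, hvx, hA₃⟩ := inE0_add_isAlpha hb0 hα hαv hQ h₁ hA₁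
    rw [add_comm, e, cval_of_isAlpha α h₃ hA₃, cval_of_inE0 α hQ, cval_of_isAlpha α h₁ hA₁,
      mul_one, hvx]
  · rw [cval_of_isAlpha α h₁ hA₁, cval_of_isAlpha α h₂ hA₂]
    obtain ⟨-, hvS⟩ := v_add_of_isAlpha hαv h2 hA₁ hA₂
    have hS : s₁ + s₂ ≠ 0 := by
      intro h; rw [h, map_zero] at hvS; exact zero_ne_one hvS
    have hx₁ := hA₁.x_ne_zero
    have hx₂ := hA₂.x_ne_zero
    by_cases hxb : x₁ * x₂ = b
    · rw [add_xs_eq_T0 hb0 h₁ h₂ hx₁ hx₂ hS hxb, T0, cval_of_far hb α _ (by simp), ← hxb, map_mul]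
    obtain ⟨h₃, e⟩ := add_xs h₁ h₂ hx₁ hx₂ hS hxb
    rw [e]
    rcases lt_trichotomy (v b) (v x₁ * v x₂) with hlt | heq | hgt
    · obtain ⟨hvx, hA₃⟩ := isAlpha_add_of_lt hα.symm hαv h2 hA₁ hA₂ hlt
      rw [← addXs_eq_x3, ← addSs_eq_s3] at hA₃
      rw [cval_of_isAlpha α h₃ hA₃, addXs_eq_x3, hvx]
    · have hle := v_x3_le_of_eq hαv h2 hA₁ hA₂ heq.symm
      rw [cval_of_far hb α h₃ (by rw [addXs_eq_x3]; exact hle), heq]
    · obtain ⟨hvx, hB₃⟩ := isBeta_add_of_lt hα.symm hαv h2 hA₁ hA₂ hgt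
      rw [← addXs_eq_x3, ← addSs_eq_s3] at hB₃
      rw [cval_of_isBeta h2 hαv h₃ hB₃, addXs_eq_x3, hvx]
      have hv₁ : v x₁ ≠ 0 := (Valuation.ne_zero_iff v).mpr hx₁
      have hv₂ : v x₂ ≠ 0 := (Valuation.ne_zero_iff v).mpr hx₂
      have ht : v b ≠ 0 := (Valuation.ne_zero_iff v).mpr hb0
      field_simp

/-- Every point lies in the fundamental domain `D`, or its translate by `T0` does. -/
theorem inD_or_inD_add_T0 (hb0 : b ≠ 0) {α : K} (hα : α ^ 2 = a)
    (P : (Wab a b).toAffine.Point) : InD v α P ∨ InD v α (P + T0 hb0) := by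
  rcases point_cases hb0 P with rfl | rfl | ⟨x, s, h, hx0, rfl⟩
  · exact Or.inl (Or.inl trivial)
  · right; left
    rw [T0_add_T0]; trivial
  have hvx0 : v x ≠ 0 := (Valuation.ne_zero_iff v).mpr hx0
  obtain ⟨h', e⟩ := add_T0_xs hb0 h hx0
  rcases le_or_gt 1 (v x) with hx1 | hx1
  · exact Or.inl (Or.inl hx1)
  rcases le_or_gt (v x) (v b) with hxb | hxb
  · right; left
    rw [e]
    show 1 ≤ v (b / x)
    rw [map_div₀, one_le_div₀ (zero_lt_iff.mpr hvx0)]
    exact hxb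
  rcases isAlpha_or_isBeta_of_nonsingular hα h hxb hx1 with hA | hB
  · exact Or.inl (Or.inr ⟨x, s, h, rfl, hA⟩)
  · right; right
    exact ⟨b / x, -s, h', e, hB.transl hb0⟩

theorem add_T0_add_T0 (hb0 : b ≠ 0) (P : (Wab a b).toAffine.Point) :
    P + T0 hb0 + T0 hb0 = P := by
  rw [add_assoc, T0_add_T0, add_zero]

/-- **The component map is a homomorphism** modulo `(v b)^2`. -/
theorem cval_add (h2 : v (2 : K) = 1) (hb : v b < 1) (hb0 : b ≠ 0) {α : K}
    (hα : α ^ 2 = a) (hαv : v α = 1) (P Q : (Wab a b).toAffine.Point) :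
    CRel (v b) (cval v α (P + Q)) (cval v α P * cval v α Q) := by
  have ht : v b ≠ 0 := (Valuation.ne_zero_iff v).mpr hb0
  -- the mixed case
  have key : ∀ P Q : (Wab a b).toAffine.Point, InD v α P → InD v α (Q + T0 hb0) →
      CRel (v b) (cval v α (P + Q)) (cval v α P * cval v α Q) := by
    intro P Q hP hQ
    have hA := cval_add_T0 h2 hb hb0 hα hαv (P + (Q + T0 hb0))
    have e1 : P + (Q + T0 hb0) + T0 hb0 = P + Q := by rw [add_assoc, add_T0_add_T0]
    rw [e1, cval_add_of_inD h2 hb hb0 hα hαv hP hQ] at hA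
    have hC := cval_add_T0 h2 hb hb0 hα hαv (Q + T0 hb0)
    rw [add_T0_add_T0] at hC
    have hC' := (CRel.mul_left ht (cval v α P) hC).symm ht
    rw [mul_left_comm] at hC'
    exact hA.trans ht hC'
  rcases inD_or_inD_add_T0 (v := v) hb0 hα P with hP | hP <;>
    rcases inD_or_inD_add_T0 (v := v) hb0 hα Q with hQ | hQ
  · exact CRel.of_eq (cval_add_of_inD h2 hb hb0 hα hαv hP hQ)
  · exact key P Q hP hQ
  · rw [add_comm, mul_comm]
    exact key Q P hQ hP
  · have e : P + Q = (P + T0 hb0) + (Q + T0 hb0) := by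
      rw [add_add_add_comm, T0_add_T0, add_zero]
    have hA : cval v α (P + Q) = cval v α (P + T0 hb0) * cval v α (Q + T0 hb0) := by
      rw [e]; exact cval_add_of_inD h2 hb hb0 hα hαv hP hQ
    have hP' := cval_add_T0 h2 hb hb0 hα hαv (P + T0 hb0)
    have hQ' := cval_add_T0 h2 hb hb0 hα hαv (Q + T0 hb0)
    rw [add_T0_add_T0] at hP' hQ'
    have hPQ := CRel.mul ht hP' hQ'
    rw [mul_mul_mul_comm, ← hA] at hPQ
    exact (CRel.sq_mul ht _).trans ht (hPQ.symm ht)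

theorem cval_nsmul (h2 : v (2 : K) = 1) (hb : v b < 1) (hb0 : b ≠ 0) {α : K}
    (hα : α ^ 2 = a) (hαv : v α = 1) (P : (Wab a b).toAffine.Point) (n : ℕ) :
    CRel (v b) (cval v α (n • P)) (cval v α P ^ n) := by
  have ht : v b ≠ 0 := (Valuation.ne_zero_iff v).mpr hb0
  induction n with
  | zero => rw [zero_smul, pow_zero, cval_zero]; exact CRel.refl _ _
  | succ n ih =>
    rw [succ_nsmul, pow_succ]
    exact (cval_add h2 hb hb0 hα hαv (n • P) P).trans ht (CRel.mul ht ih (CRel.refl _ _))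

variable (v)

/-- **Torsion points on the branches**: if `n • P = 0` and `v b < v x(P) < 1` then
`(v x(P)) ^ n` is an (integral) power of `(v b) ^ 2`. This is all that the multiplicative case
consumes from the component map. -/
theorem comp_torsion (h2 : v 2 = 1) (hb : v b < 1) (hb0 : b ≠ 0) (α : K) (hα : α ^ 2 = a)
    (hαv : v α = 1) {n : ℕ} {x y : K} (h : (Wab a b).toAffine.Nonsingular x y)
    (hx1 : v x < 1) (hxb : v b < v x) (hn : n • Point.some x y h = 0) :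
    ∃ k : ℤ, v x ^ n = v b ^ (2 * k) := by
  have ht : v b ≠ 0 := (Valuation.ne_zero_iff v).mpr hb0
  have hx0 : x ≠ 0 := by
    rintro rfl
    simp at hxb
  have hvx0 : v x ≠ 0 := (Valuation.ne_zero_iff v).mpr hx0
  obtain ⟨h', e⟩ := some_eq_xs h hx0
  rw [e] at hn
  have hrel := cval_nsmul h2 hb hb0 hα hαv (Point.some x (x * (y / x)) h') n
  rw [hn, cval_zero] at hrel
  obtain ⟨k, hk⟩ := hrel
  rcases isAlpha_or_isBeta_of_nonsingular hα h' hxb hx1 with hA | hB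
  · rw [cval_of_isAlpha α h' hA] at hk
    refine ⟨-k, ?_⟩
    rw [mul_neg, zpow_neg]
    exact eq_inv_of_mul_eq_one_left hk.symm
  · rw [cval_of_isBeta h2 hαv h' hB, div_pow, ← pow_mul] at hk
    refine ⟨(n : ℤ) + k, ?_⟩
    have hvxn : v x ^ n ≠ 0 := pow_ne_zero n hvx0
    rw [mul_add, zpow_add₀ ht, show (2 * (n : ℤ)) = ((2 * n : ℕ) : ℤ) by push_cast; ring,
      zpow_natCast]
    rw [div_mul_eq_mul_div, eq_div_iff hvxn, one_mul] at hk
    exact hk

end Comp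

end Fermat.Agent.S05
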