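/-
T-S05 piece P2 (helper14): arithmetic of the Frey curve at an odd prime `q`.

For a Frey package `P` put `A = P.a ^ P.p`, `B = P.b ^ P.p`, `C = P.c ^ P.p = A + B` (integers).
Over `ℤ[1/2]` the Frey curve is `Y² = X (X - A) (X + B)`; translating `X` by `t ∈ {0, A}` one gets the
model `Y² = X³ + a X² + b X` with
* `t = 0`: `(a, b) = (B - A, -(A * B))`;
* `t = A`: `(a, b) = (A + C, A * C)`.
This file proves the divisibility / valuation facts needed for these three situations: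
* `q ∤ abc` (good reduction): `b` and `a² - 4 b = C²` are `q`-units;
* `q ∣ ab` : `a = B - A` is a `q`-unit, `b = -(ab)^p`;
* `q ∣ c`  : `a = A + C` is a `q`-unit, `b = (ac)^p`.
-/
import Mathlib
import Fermat.Prelude.Def_FLTPrelim_FreyPackage

set_option autoImplicit false

namespace Fermat.Agent.S05.FreyArith

variable (P : FreyPackage) {q : ℕ}

/-! ### Divisibility facts in `ℤ` -/

theorem prime_int (hq : q.Prime) : Prime (q : ℤ) := Nat.prime_iff_prime_int.mp hq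

theorem dvd_pow_iff (hq : q.Prime) (x : ℤ) : (q : ℤ) ∣ x ^ P.p ↔ (q : ℤ) ∣ x :=
  Prime.dvd_pow_iff_dvd (prime_int hq) P.hp0

theorem not_dvd_of_gcd_eq_one (hq : q.Prime) {x y : ℤ} (h : gcd x y = 1) (hx : (q : ℤ) ∣ x) :
    ¬ (q : ℤ) ∣ y := by
  intro hy
  have h1 : (q : ℤ) ∣ gcd x y := dvd_gcd hx hy
  rw [h] at h1
  exact (prime_int hq).not_dvd_one h1

theorem not_dvd_b_of_dvd_a (hq : q.Prime) (h : (q : ℤ) ∣ P.a) : ¬ (q : ℤ) ∣ P.b :=
  not_dvd_of_gcd_eq_one hq P.hgcdab h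

theorem not_dvd_c_of_dvd_a (hq : q.Prime) (h : (q : ℤ) ∣ P.a) : ¬ (q : ℤ) ∣ P.c :=
  not_dvd_of_gcd_eq_one hq P.hgcdac h

theorem not_dvd_a_of_dvd_b (hq : q.Prime) (h : (q : ℤ) ∣ P.b) : ¬ (q : ℤ) ∣ P.a := fun h' =>
  not_dvd_b_of_dvd_a P hq h' h

theorem not_dvd_c_of_dvd_b (hq : q.Prime) (h : (q : ℤ) ∣ P.b) : ¬ (q : ℤ) ∣ P.c :=
  not_dvd_of_gcd_eq_one hq P.hgcdbc h

theorem not_dvd_a_of_dvd_c (hq : q.Prime) (h : (q : ℤ) ∣ P.c) : ¬ (q : ℤ) ∣ P.a := fun h' =>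
  not_dvd_c_of_dvd_a P hq h' h

theorem not_dvd_b_of_dvd_c (hq : q.Prime) (h : (q : ℤ) ∣ P.c) : ¬ (q : ℤ) ∣ P.b := fun h' =>
  not_dvd_c_of_dvd_b P hq h' h

/-- The three situations at a prime `q`. -/
theorem trichotomy :
    (¬ (q : ℤ) ∣ P.a ∧ ¬ (q : ℤ) ∣ P.b ∧ ¬ (q : ℤ) ∣ P.c) ∨ (q : ℤ) ∣ P.a * P.b ∨ (q : ℤ) ∣ P.c := by
  by_cases ha : (q : ℤ) ∣ P.a
  · exact Or.inr (Or.inl (dvd_mul_of_dvd_left ha _))
  by_cases hb : (q : ℤ) ∣ P.b
  · exact Or.inr (Or.inl (dvd_mul_of_dvd_right hb _))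
  by_cases hc : (q : ℤ) ∣ P.c
  · exact Or.inr (Or.inr hc)
  exact Or.inl ⟨ha, hb, hc⟩

/-- `C = A + B`. -/
theorem c_pow_eq : P.c ^ P.p = P.a ^ P.p + P.b ^ P.p := P.hFLT.symm

/-- Good case: `b = -(A B)` is prime to `q`. -/
theorem good_b (hq : q.Prime) (ha : ¬ (q : ℤ) ∣ P.a) (hb : ¬ (q : ℤ) ∣ P.b) :
    ¬ (q : ℤ) ∣ -(P.a ^ P.p * P.b ^ P.p) := by
  rw [dvd_neg]
  intro h
  rcases (prime_int hq).dvd_or_dvd h with h | h
  · exact ha ((dvd_pow_iff P hq _).mp h)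
  · exact hb ((dvd_pow_iff P hq _).mp h)

/-- Good case: `a² - 4 b = C²` is prime to `q`. -/
theorem good_disc (hq : q.Prime) (hc : ¬ (q : ℤ) ∣ P.c) :
    ¬ (q : ℤ) ∣ (P.b ^ P.p - P.a ^ P.p) ^ 2 - 4 * -(P.a ^ P.p * P.b ^ P.p) := by
  have h : (P.b ^ P.p - P.a ^ P.p) ^ 2 - 4 * -(P.a ^ P.p * P.b ^ P.p) = (P.c ^ P.p) ^ 2 := by
    rw [c_pow_eq]; ring
  rw [h]
  intro h'
  exact hc ((dvd_pow_iff P hq _).mp ((prime_int hq).dvd_of_dvd_pow h'))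

/-- Case `q ∣ ab`: `a = B - A` is prime to `q`. -/
theorem ab_a (hq : q.Prime) (h : (q : ℤ) ∣ P.a * P.b) : ¬ (q : ℤ) ∣ P.b ^ P.p - P.a ^ P.p := by
  intro h'
  rcases (prime_int hq).dvd_or_dvd h with ha | hb
  · have hA : (q : ℤ) ∣ P.a ^ P.p := (dvd_pow_iff P hq _).mpr ha
    have hB : (q : ℤ) ∣ P.b ^ P.p := by
      have := dvd_add h' hA
      simpa using this
    exact not_dvd_b_of_dvd_a P hq ha ((dvd_pow_iff P hq _).mp hB)
  · have hB : (q : ℤ) ∣ P.b ^ P.p := (dvd_pow_iff P hq _).mpr hb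
    have hA : (q : ℤ) ∣ P.a ^ P.p := by
      have := dvd_sub hB h'
      simpa using this
    exact not_dvd_a_of_dvd_b P hq hb ((dvd_pow_iff P hq _).mp hA)

/-- Case `q ∣ ab`: `b = -(A B) = -(ab)^p`. -/
theorem ab_b : -(P.a ^ P.p * P.b ^ P.p) = -(P.a * P.b) ^ P.p := by
  rw [mul_pow]

/-- Case `q ∣ c`: `a = A + C` is prime to `q`. -/
theorem c_a (hq : q.Prime) (h : (q : ℤ) ∣ P.c) : ¬ (q : ℤ) ∣ P.a ^ P.p + P.c ^ P.p := by
  intro h'
  have hC : (q : ℤ) ∣ P.c ^ P.p := (dvd_pow_iff P hq _).mpr h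
  have hA : (q : ℤ) ∣ P.a ^ P.p := by
    have := dvd_sub h' hC
    simpa using this
  exact not_dvd_a_of_dvd_c P hq h ((dvd_pow_iff P hq _).mp hA)

/-- Case `q ∣ c`: `b = A C = (ac)^p`. -/
theorem c_b : P.a ^ P.p * P.c ^ P.p = (P.a * P.c) ^ P.p := by
  rw [mul_pow]

/-- The translated model for `t = A`: `(X + A) X (X + A + B) = X³ + (A + C) X² + A C X`. -/
theorem c_model (X : ℤ) :
    (X + P.a ^ P.p) * X * (X + P.a ^ P.p + P.b ^ P.p) =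
      X ^ 3 + (P.a ^ P.p + P.c ^ P.p) * X ^ 2 + P.a ^ P.p * P.c ^ P.p * X := by
  rw [c_pow_eq]; ring

/-! ### Valuation versions

`v` is any valuation on a field `K` (of characteristic zero) which is `≤ 1` on integers and such that
an integer has valuation `< 1` iff it is divisible by `q`. -/

section Valuation

variable {K : Type*} [Field K] {Γ₀ : Type*} [LinearOrderedCommGroupWithZero Γ₀]
  (v : Valuation K Γ₀)

/-- The hypotheses on the valuation: integral on `ℤ`, centre `q`. -/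
structure LiesOver (q : ℕ) : Prop where
  le_one : ∀ n : ℤ, v (n : K) ≤ 1
  lt_one_iff : ∀ n : ℤ, v (n : K) < 1 ↔ (q : ℤ) ∣ n

variable {v}

theorem LiesOver.eq_one_iff (hv : LiesOver v q) (n : ℤ) : v (n : K) = 1 ↔ ¬ (q : ℤ) ∣ n := by
  rw [← hv.lt_one_iff]
  constructor
  · intro h; rw [h]; exact lt_irrefl _
  · intro h; exact le_antisymm (hv.le_one n) (not_lt.mp h)

theorem LiesOver.eq_one (hv : LiesOver v q) {n : ℤ} (h : ¬ (q : ℤ) ∣ n) : v (n : K) = 1 :=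
  (hv.eq_one_iff n).mpr h

theorem LiesOver.two (hv : LiesOver v q) (hq : q.Prime) (hq2 : q ≠ 2) : v (2 : K) = 1 := by
  have h : ¬ (q : ℤ) ∣ (2 : ℤ) := by
    intro h
    have h' : q ∣ 2 := by exact_mod_cast h
    exact hq2 ((Nat.prime_dvd_prime_iff_eq hq Nat.prime_two).mp h')
  simpa using hv.eq_one h

theorem LiesOver.natCast_prime (hv : LiesOver v q) (hq : q.Prime) {p : ℕ} (hp : p.Prime)
    (hqp : q ≠ p) : v (p : K) = 1 := by
  have h : ¬ (q : ℤ) ∣ (p : ℤ) := by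
    intro h
    have h' : q ∣ p := by exact_mod_cast h
    exact hqp ((Nat.prime_dvd_prime_iff_eq hq hp).mp h')
  simpa using hv.eq_one h

/-- GOOD case (`q ∤ abc`), model `(a, b) = (B - A, -(A B))`: `v b = 1` and `v (a² - 4 b) = 1`. -/
theorem good_val (hv : LiesOver v q) (hq : q.Prime)
    (ha : ¬ (q : ℤ) ∣ P.a) (hb : ¬ (q : ℤ) ∣ P.b) (hc : ¬ (q : ℤ) ∣ P.c) :
    v (-((P.a : K) ^ P.p * (P.b : K) ^ P.p)) = 1 ∧
    v (((P.b : K) ^ P.p - (P.a : K) ^ P.p) ^ 2 - 4 * -((P.a : K) ^ P.p * (P.b : K) ^ P.p)) = 1 := by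
  constructor
  · have := hv.eq_one (good_b P hq ha hb)
    simpa using this
  · have := hv.eq_one (good_disc P hq hc)
    simpa using this

/-- MULT case `q ∣ ab`, model `(a, b) = (B - A, -(A B))`:
`v a = 1`, `v b = v (ab) ^ p`, `v (ab) < 1`. -/
theorem mult_ab_val (hv : LiesOver v q) (hq : q.Prime) (h : (q : ℤ) ∣ P.a * P.b) :
    v ((P.b : K) ^ P.p - (P.a : K) ^ P.p) = 1 ∧
    v (-((P.a : K) ^ P.p * (P.b : K) ^ P.p)) = v ((P.a : K) * (P.b : K)) ^ P.p ∧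
    v ((P.a : K) * (P.b : K)) < 1 := by
  refine ⟨?_, ?_, ?_⟩
  · have := hv.eq_one (ab_a P hq h)
    simpa using this
  · rw [Valuation.map_neg, ← mul_pow, map_pow]
  · have := (hv.lt_one_iff _).mpr h
    simpa using this

/-- MULT case `q ∣ c`, model `(a, b) = (A + C, A C)`:
`v a = 1`, `v b = v (ac) ^ p`, `v (ac) < 1`. -/
theorem mult_c_val (hv : LiesOver v q) (hq : q.Prime) (h : (q : ℤ) ∣ P.c) :
    v ((P.a : K) ^ P.p + (P.c : K) ^ P.p) = 1 ∧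
    v ((P.a : K) ^ P.p * (P.c : K) ^ P.p) = v ((P.a : K) * (P.c : K)) ^ P.p ∧
    v ((P.a : K) * (P.c : K)) < 1 := by
  refine ⟨?_, ?_, ?_⟩
  · have := hv.eq_one (c_a P hq h)
    simpa using this
  · rw [← mul_pow, map_pow]
  · have := (hv.lt_one_iff _).mpr (dvd_mul_of_dvd_right h P.a)
    simpa using this

/-- `ab ≠ 0` and `ac ≠ 0` in characteristic zero. -/
theorem ab_ne_zero [CharZero K] : (P.a : K) * (P.b : K) ≠ 0 :=
  mul_ne_zero (Int.cast_ne_zero.mpr P.ha0) (Int.cast_ne_zero.mpr P.hb0)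

theorem ac_ne_zero [CharZero K] : (P.a : K) * (P.c : K) ≠ 0 :=
  mul_ne_zero (Int.cast_ne_zero.mpr P.ha0) (Int.cast_ne_zero.mpr P.hc0)

theorem c_pow_eq_cast : (P.c : K) ^ P.p = (P.a : K) ^ P.p + (P.b : K) ^ P.p := by
  have := congrArg (Int.cast (R := K)) (c_pow_eq P)
  simpa using this

end Valuation

end Fermat.Agent.S05.FreyArith
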