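/-
T-S05 piece P2 (helper14): final assembly, stated against explicit interface contracts
(`TransportShape`, `GoodShape`, `MultShape`).  The file `Fermat/Agent/S05.lean` discharges the three
contracts with the theorems of the other pieces.
-/
import Fermat.Prelude.Def_FLTPrelim_FreyPackage
import Fermat.Prelude.Def_FLTPrelim_GaloisRep
import Fermat.Prelude.Def_FLTPrelim_Ramification
import Fermat.Agent.S05.Inertia
import Fermat.Agent.S05.FreyArith

set_option autoImplicit false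
open WeierstrassCurve WeierstrassCurve.Affine WeierstrassCurve.Affine.Point
open FreyPackage

namespace Fermat.Agent.S05.Assembly

local notation "Qbar" => AlgebraicClosure ℚ

/-- The Galois action on points as an additive map. -/
noncomputable def galT (W : Affine ℚ) (σ : Qbar ≃ₐ[ℚ] Qbar) : (W⁄Qbar).Point →+ (W⁄Qbar).Point :=
  Point.map (W' := W) σ.toAlgHom

theorem galT_apply (W : Affine ℚ) (σ : Qbar ≃ₐ[ℚ] Qbar) (Q : (W⁄Qbar).Point) :
    galT W σ Q = σ • Q := rfl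

theorem galT_some (W : Affine ℚ) (σ : Qbar ≃ₐ[ℚ] Qbar) {x y : Qbar}
    (h : (W⁄Qbar).Nonsingular x y) :
    ∃ h', galT W σ (.some x y h) = .some ((σ : Qbar →+* Qbar) x) ((σ : Qbar →+* Qbar) y) h' :=
  ⟨_, rfl⟩

theorem liesOver {q : ℕ} (hq : q.Prime) {A : ValuationSubring Qbar} (hA : A.LiesOverPrime q) :
    FreyArith.LiesOver A.valuation q :=
  ⟨Inertia.valuation_intCast_le_one, Inertia.valuation_intCast_lt_one_iff hq hA⟩

/-- Reduction of the statement to points. -/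
theorem reduce (P : FreyPackage) (q : ℕ)
    (H : ∀ A : ValuationSubring Qbar, A.LiesOverPrime q → ∀ σ ∈ A.inertiaSubgroupIn ℚ,
      ∀ Q : (P.freyCurve⁄Qbar).Point, P.p • Q = 0 → σ • Q = Q) :
    P.GaloisRepUnramifiedAt q := by
  intro A hA σ hσ x
  apply Subtype.ext
  have hx := x.2
  rw [Submodule.mem_torsionBy_iff] at hx
  have hx' : P.p • (x.1 : (P.freyCurve⁄Qbar).Point) = 0 := by
    rw [← natCast_zsmul]; exact hx
  exact H A hA σ hσ x.1 hx'

/-! ### Interface contracts -/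

/-- Contract for the transport piece: for `t = 0` resp. `t = A` the Frey curve is isomorphic over
`ℚ` to a curve `Y² = X³ + a X² + b X`, and the isomorphism induces an injective Galois-equivariant
additive map on `Qbar`-points. -/
def TransportShape (P : FreyPackage) (a b : ℚ) : Prop :=
  ∃ W₂ : Affine ℚ, W₂.a₁ = 0 ∧ W₂.a₃ = 0 ∧ W₂.a₆ = 0 ∧ W₂.a₂ = a ∧ W₂.a₄ = b ∧
    ∃ φ : (P.freyCurve⁄Qbar).Point →+ (W₂⁄Qbar).Point, Function.Injective φ ∧
      ∀ (σ : Qbar ≃ₐ[ℚ] Qbar) (Q : (P.freyCurve⁄Qbar).Point), φ (σ • Q) = σ • φ Q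

/-- Common hypotheses on `(A, W, σ, T)`. -/
structure LocalSetup (A : ValuationSubring Qbar) (W : Affine Qbar) (σ : Qbar →+* Qbar)
    (T : W.Point →+ W.Point) : Prop where
  a₁ : W.a₁ = 0
  a₃ : W.a₃ = 0
  a₆ : W.a₆ = 0
  s1 : ∀ x, A.valuation (σ x) = A.valuation x
  s2 : ∀ x, A.valuation x ≤ 1 → A.valuation (σ x - x) < 1
  fix₂ : σ W.a₂ = W.a₂
  fix₄ : σ W.a₄ = W.a₄
  hT : ∀ x y (h : W.Nonsingular x y), ∃ h', T (.some x y h) = .some (σ x) (σ y) h'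
  two : A.valuation (2 : Qbar) = 1

/-- Contract for the good reduction case. -/
def GoodShape : Prop :=
  ∀ (A : ValuationSubring Qbar) (W : Affine Qbar) (σ : Qbar →+* Qbar) (T : W.Point →+ W.Point),
    LocalSetup A W σ T →
    A.valuation W.a₂ ≤ 1 → A.valuation W.a₄ = 1 → A.valuation (W.a₂ ^ 2 - 4 * W.a₄) = 1 →
    ∀ p : ℕ, p.Prime → p ≠ 2 → A.valuation (p : Qbar) = 1 →
    ∀ Q : W.Point, p • Q = 0 → T Q = Q

/-- Contract for the multiplicative case. -/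
def MultShape : Prop :=
  ∀ (A : ValuationSubring Qbar) (W : Affine Qbar) (σ : Qbar →+* Qbar) (T : W.Point →+ W.Point),
    LocalSetup A W σ T →
    A.valuation W.a₂ = 1 → ∀ α : Qbar, α ^ 2 = W.a₂ →
    ∀ h0 : Qbar, h0 ≠ 0 → σ h0 = h0 → A.valuation h0 < 1 →
    ∀ p : ℕ, p.Prime → p ≠ 2 → A.valuation W.a₄ = A.valuation h0 ^ p →
    A.valuation (p : Qbar) = 1 →
    ∀ Q : W.Point, p • Q = 0 → T Q = Q

/-! ### The assembly -/

section

variable (P : FreyPackage) {q : ℕ}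

theorem localSetup {A : ValuationSubring Qbar} (hq : q.Prime) (hq2 : q ≠ 2)
    (hA : A.LiesOverPrime q) {σ : Qbar ≃ₐ[ℚ] Qbar}
    (hσ : σ ∈ A.inertiaSubgroupIn ℚ) {W₂ : Affine ℚ} (h1 : W₂.a₁ = 0) (h3 : W₂.a₃ = 0)
    (h6 : W₂.a₆ = 0) :
    LocalSetup A (W₂⁄Qbar) (σ : Qbar →+* Qbar) (galT W₂ σ) where
  a₁ := by
    show algebraMap ℚ Qbar W₂.a₁ = 0
    rw [h1, _root_.map_zero]
  a₃ := by
    show algebraMap ℚ Qbar W₂.a₃ = 0
    rw [h3, _root_.map_zero]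
  a₆ := by
    show algebraMap ℚ Qbar W₂.a₆ = 0
    rw [h6, _root_.map_zero]
  s1 := fun x => Inertia.valuation_apply_rat hσ x
  s2 := fun _ hx => Inertia.valuation_sub_lt_one_rat hσ hx
  fix₂ := σ.commutes W₂.a₂
  fix₄ := σ.commutes W₂.a₄
  hT := fun _ _ h => galT_some W₂ σ h
  two := Inertia.valuation_two_eq_one hq hA hq2

/-- From a transport and a fixed-point statement on the target, conclude on the Frey curve. -/
theorem fixed_of_transport {W₂ : Affine ℚ}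
    (φ : (P.freyCurve⁄Qbar).Point →+ (W₂⁄Qbar).Point) (hφ : Function.Injective φ)
    (σ : Qbar ≃ₐ[ℚ] Qbar) (hφσ : ∀ Q : (P.freyCurve⁄Qbar).Point, φ (σ • Q) = σ • φ Q)
    (Q : (P.freyCurve⁄Qbar).Point) (h : galT W₂ σ (φ Q) = φ Q) : σ • Q = Q := by
  apply hφ
  rw [hφσ, ← galT_apply, h]

theorem result_of (hq : q.Prime) (hq2 : q ≠ 2) (hqp : q ≠ P.p)
    (hT0 : TransportShape P ((P.b : ℚ) ^ P.p - (P.a : ℚ) ^ P.p)
      (-((P.a : ℚ) ^ P.p * (P.b : ℚ) ^ P.p)))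
    (hTA : TransportShape P ((P.a : ℚ) ^ P.p + (P.c : ℚ) ^ P.p)
      ((P.a : ℚ) ^ P.p * (P.c : ℚ) ^ P.p))
    (hG : GoodShape) (hM : MultShape) : P.GaloisRepUnramifiedAt q := by
  apply reduce
  intro A hA σ hσ Q hQ
  have hv := liesOver hq hA
  have hp2 : P.p ≠ 2 := by have := P.hp5; omega
  have hvp : A.valuation (P.p : Qbar) = 1 := Inertia.valuation_prime_eq_one hq hA P.pp hqp
  rcases FreyArith.trichotomy P (q := q) with ⟨ha, hb, hc⟩ | hab | hc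
  · -- good reduction
    obtain ⟨W₂, h1, h3, h6, h2, h4, φ, hφ, hφσ⟩ := hT0
    have hS := localSetup hq hq2 hA hσ h1 h3 h6
    have e2 : (W₂⁄Qbar).a₂ = (P.b : Qbar) ^ P.p - (P.a : Qbar) ^ P.p := by
      show algebraMap ℚ Qbar W₂.a₂ = _
      rw [h2]; simp
    have e4 : (W₂⁄Qbar).a₄ = -((P.a : Qbar) ^ P.p * (P.b : Qbar) ^ P.p) := by
      show algebraMap ℚ Qbar W₂.a₄ = _
      rw [h4]; simp
    obtain ⟨g1, g2⟩ := FreyArith.good_val P hv hq ha hb hc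
    have ha2 : A.valuation (W₂⁄Qbar).a₂ ≤ 1 := by
      rw [e2]
      have := Inertia.valuation_intCast_le_one (A := A) (P.b ^ P.p - P.a ^ P.p)
      simpa using this
    have hfix := hG A (W₂⁄Qbar) _ (galT W₂ σ) hS ha2 (by rw [e4]; exact g1)
      (by rw [e2, e4]; exact g2) P.p P.pp hp2 hvp (φ Q) (by rw [← map_nsmul, hQ, _root_.map_zero])
    exact fixed_of_transport P φ hφ σ (hφσ σ) Q hfix
  · -- `q ∣ ab`
    obtain ⟨W₂, h1, h3, h6, h2, h4, φ, hφ, hφσ⟩ := hT0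
    have hS := localSetup hq hq2 hA hσ h1 h3 h6
    have e2 : (W₂⁄Qbar).a₂ = (P.b : Qbar) ^ P.p - (P.a : Qbar) ^ P.p := by
      show algebraMap ℚ Qbar W₂.a₂ = _
      rw [h2]; simp
    have e4 : (W₂⁄Qbar).a₄ = -((P.a : Qbar) ^ P.p * (P.b : Qbar) ^ P.p) := by
      show algebraMap ℚ Qbar W₂.a₄ = _
      rw [h4]; simp
    obtain ⟨g1, g2, g3⟩ := FreyArith.mult_ab_val P hv hq hab
    obtain ⟨α, hα⟩ := IsAlgClosed.exists_pow_nat_eq ((W₂⁄Qbar).a₂) (n := 2) (by norm_num)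
    have hfix := hM A (W₂⁄Qbar) _ (galT W₂ σ) hS (by rw [e2]; exact g1) α hα
      ((P.a : Qbar) * (P.b : Qbar)) (FreyArith.ab_ne_zero P)
      (by simp) g3 P.p P.pp hp2 (by rw [e4]; exact g2) hvp (φ Q)
      (by rw [← map_nsmul, hQ, _root_.map_zero])
    exact fixed_of_transport P φ hφ σ (hφσ σ) Q hfix
  · -- `q ∣ c`
    obtain ⟨W₂, h1, h3, h6, h2, h4, φ, hφ, hφσ⟩ := hTA
    have hS := localSetup hq hq2 hA hσ h1 h3 h6
    have e2 : (W₂⁄Qbar).a₂ = (P.a : Qbar) ^ P.p + (P.c : Qbar) ^ P.p := by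
      show algebraMap ℚ Qbar W₂.a₂ = _
      rw [h2]; simp
    have e4 : (W₂⁄Qbar).a₄ = (P.a : Qbar) ^ P.p * (P.c : Qbar) ^ P.p := by
      show algebraMap ℚ Qbar W₂.a₄ = _
      rw [h4]; simp
    obtain ⟨g1, g2, g3⟩ := FreyArith.mult_c_val P hv hq hc
    obtain ⟨α, hα⟩ := IsAlgClosed.exists_pow_nat_eq ((W₂⁄Qbar).a₂) (n := 2) (by norm_num)
    have hfix := hM A (W₂⁄Qbar) _ (galT W₂ σ) hS (by rw [e2]; exact g1) α hα
      ((P.a : Qbar) * (P.c : Qbar)) (FreyArith.ac_ne_zero P)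
      (by simp) g3 P.p P.pp hp2 (by rw [e4]; exact g2) hvp (φ Q)
      (by rw [← map_nsmul, hQ, _root_.map_zero])
    exact fixed_of_transport P φ hφ σ (hφσ σ) Q hfix

end

end Fermat.Agent.S05.Assembly
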