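import Mathlib
import Fermat.Agent.S05.ClaimC

/-!
# S05 helper (P4, helper16): the good reduction case

Setting of the T-S05 blueprint: `K` a field, `v : Valuation K Γ₀`, `v 2 = 1`, curve
`W : Y² = X³ + aX² + bX` (`a₁ = a₃ = a₆ = 0`, `a = a₂`, `b = a₄`), `σ : K →+* K` with
(s1) `v (σ x) = v x`, (s2) `v x ≤ 1 → v (σ x - x) < 1`, `σ a = a`, `σ b = b`.

Good reduction: `v b = 1` and `v (a² - 4b) = 1`.  Then for a point `P = (x, y)` killed by `n`
(with `E₁` having no `n`-torsion) such that `σ P := (σ x, σ y)` is also killed by `n`, we get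
`σ P = P`.

The two facts about the kernel of reduction `E₁` (P3 of the blueprint) are taken as hypotheses
`hsub`, `htf`, phrased with the predicate `InE1`.
-/

set_option autoImplicit false

open WeierstrassCurve WeierstrassCurve.Affine

namespace Fermat.Agent.S05.Good

open Fermat.Agent.S05.ClaimC

variable {K : Type*} [Field K] {Γ₀ : Type*} [LinearOrderedCommGroupWithZero Γ₀]
  (v : Valuation K Γ₀)

/-- `P` lies in the kernel of reduction: `P = 0` or `1 < v (x P)`. -/
def InE1 {W : Affine K} (P : W.Point) : Prop :=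
  P = 0 ∨ ∃ (x y : K) (h : W.Nonsingular x y), P = Point.some x y h ∧ 1 < v x

lemma inE1_zero {W : Affine K} : InE1 v (0 : W.Point) := Or.inl rfl

lemma inE1_some {W : Affine K} {x y : K} (h : W.Nonsingular x y) :
    InE1 v (Point.some x y h) ↔ 1 < v x := by
  constructor
  · rintro (h0 | ⟨x', y', h', he, hv⟩)
    · exact absurd h0 (Point.some_ne_zero h)
    · simp only [Point.some.injEq] at he
      rw [he.1]; exact hv
  · intro hv; exact Or.inr ⟨x, y, h, rfl, hv⟩

variable {v}

/-- the point `T₀ = (0, 0)` is nonsingular when `b ≠ 0`. -/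
lemma nonsingular_T0 (W : Affine K) (h6 : W.a₆ = 0) (hb : W.a₄ ≠ 0) : W.Nonsingular 0 0 := by
  rw [nonsingular_zero]; exact ⟨h6, Or.inr hb⟩

variable [DecidableEq K]

/-- translation by `T₀ = (0,0)`: `(x, y) + T₀ = (b / x, -b y / x²)`. -/
lemma add_T0 (W : Affine K) (h1 : W.a₁ = 0) (h3 : W.a₃ = 0) (h6 : W.a₆ = 0)
    {x y : K} (hP : W.Nonsingular x y) (hx : x ≠ 0) (hT : W.Nonsingular 0 0) :
    ∃ (x' y' : K) (h' : W.Nonsingular x' y'),
      Point.some x y hP + Point.some 0 0 hT = Point.some x' y' h' ∧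
      x' = W.a₄ / x ∧ y' = -(W.a₄ * y / x ^ 2) := by
  have e : y ^ 2 = x ^ 3 + W.a₂ * x ^ 2 + W.a₄ * x := by
    have := (equation_iff x y).mp hP.1
    rw [h1, h3, h6] at this; linear_combination this
  refine ⟨_, _, nonsingular_add hP hT fun hxy => hx hxy.left, Point.add_of_X_ne hx, ?_, ?_⟩
  · rw [slope_of_X_ne hx]
    simp only [addX, h1]
    field_simp
    linear_combination x * e
  · rw [slope_of_X_ne hx]
    simp only [addY, negAddY, negY, addX, h1, h3]
    field_simp
    linear_combination (-x ^ 2 * y) * e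

omit [DecidableEq K] in
/-- smoothness of the reduction from the discriminant: if `v x = 1` then `s = y/x` is a unit or
`x² - b` is a unit. -/
lemma smooth_of_disc {a b x y : K} (hv2 : v 2 = 1) (ha : v a ≤ 1)
    (hdisc : v (a ^ 2 - 4 * b) = 1) (e : y ^ 2 = x ^ 3 + a * x ^ 2 + b * x) (hx : v x = 1)
    (hs : v (y / x) ≤ 1) :
    v (y / x) = 1 ∨ v (x ^ 2 - b) = 1 := by
  by_contra hcon
  push Not at hcon
  obtain ⟨h1, h2⟩ := hcon
  have hx0 : x ≠ 0 := by rintro rfl; simp at hx
  have hs' : v (y / x) < 1 := lt_of_le_of_ne hs h1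
  have hxle : v (x ^ 2 - b) ≤ 1 := by
    have hb : b = (y / x) ^ 2 * x - x ^ 2 - a * x := by
      field_simp; linear_combination (-1 : K) * e
    rw [hb]
    have e2 : x ^ 2 - ((y / x) ^ 2 * x - x ^ 2 - a * x) =
        2 * x ^ 2 + a * x - (y / x) ^ 2 * x := by ring
    rw [e2]
    refine le_trans (Valuation.map_sub _ _ _) (max_le (le_trans (Valuation.map_add _ _ _)
      (max_le ?_ ?_)) ?_)
    · rw [map_mul, map_pow, hv2, hx]; simp
    · rw [map_mul, hx, mul_one]; exact ha
    · rw [map_mul, map_pow, hx, mul_one]; exact pow_le_one₀ zero_le hs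
  have hxb : v (x ^ 2 - b) < 1 := lt_of_le_of_ne hxle h2
  -- `(2x + a) x = s² x + (x² - b)`
  have h2xa : v (2 * x + a) < 1 := by
    have : (2 * x + a) * x = (y / x) ^ 2 * x + (x ^ 2 - b) := by
      field_simp; linear_combination (-1 : K) * e
    have hlt : v ((2 * x + a) * x) < 1 := by
      rw [this]
      refine lt_of_le_of_lt (Valuation.map_add _ _ _) (max_lt ?_ hxb)
      rw [map_mul, map_pow, hx, mul_one]; exact pow_lt_one₀ zero_le hs' (by norm_num)
    rwa [map_mul, hx, mul_one] at hlt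
  have : a ^ 2 - 4 * b = (2 * x + a) ^ 2 - 4 * ((y / x) ^ 2 * x) := by
    field_simp; linear_combination (4 : K) * e
  have hlt : v (a ^ 2 - 4 * b) < 1 := by
    rw [this]
    refine lt_of_le_of_lt (Valuation.map_sub _ _ _) (max_lt ?_ ?_)
    · rw [map_pow]; exact pow_lt_one₀ zero_le h2xa (by norm_num)
    · have h4 : v (4 : K) = 1 := by
        have : (4 : K) = 2 * 2 := by norm_num
        rw [this, map_mul, hv2, one_mul]
      rw [map_mul, map_mul, map_pow, h4, hx, one_mul, mul_one]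
      exact pow_lt_one₀ zero_le hs' (by norm_num)
  rw [hdisc] at hlt; exact lt_irrefl _ hlt

/-- **Good reduction case.** -/
theorem good_fixed (W : Affine K) (h1 : W.a₁ = 0) (h3 : W.a₃ = 0) (h6 : W.a₆ = 0)
    (hv2 : v 2 = 1) (ha : v W.a₂ ≤ 1) (hb : v W.a₄ = 1)
    (hdisc : v (W.a₂ ^ 2 - 4 * W.a₄) = 1)
    (σ : K →+* K) (hs1 : ∀ x, v (σ x) = v x) (hs2 : ∀ x, v x ≤ 1 → v (σ x - x) < 1)
    (hσb : σ W.a₄ = W.a₄)
    (hsub : ∀ P Q : W.Point, InE1 v P → InE1 v Q → InE1 v (P - Q))
    (n : ℕ) (htf : ∀ P : W.Point, InE1 v P → n • P = 0 → P = 0)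
    {x y : K} (hP : W.Nonsingular x y) (hQ : W.Nonsingular (σ x) (σ y))
    (hnP : n • Point.some x y hP = 0) (hnQ : n • Point.some (σ x) (σ y) hQ = 0) :
    Point.some (σ x) (σ y) hQ = Point.some x y hP := by
  suffices hE : InE1 v (Point.some (σ x) (σ y) hQ - Point.some x y hP) by
    have := htf _ hE (by rw [smul_sub, hnP, hnQ, sub_zero])
    exact sub_eq_zero.mp this
  have hb0 : W.a₄ ≠ 0 := by
    intro h; rw [h, map_zero] at hb; exact zero_ne_one hb
  have e : y ^ 2 = x ^ 3 + W.a₂ * x ^ 2 + W.a₄ * x := by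
    have := (equation_iff x y).mp hP.1
    rw [h1, h3, h6] at this; linear_combination this
  rcases lt_trichotomy (v x) 1 with hlt | heq | hgt
  · -- `v x < 1`: translate by `T₀`
    by_cases hx0 : x = 0
    · subst hx0
      have hy0 : y = 0 := by
        have : y ^ 2 = 0 := by rw [e]; ring
        exact pow_eq_zero_iff (by norm_num) |>.mp this
      subst hy0
      left
      simp only [map_zero, sub_self]
    · have hT := nonsingular_T0 W h6 hb0
      have hσx0 : σ x ≠ 0 := by
        intro h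
        have := hs1 x
        rw [h, map_zero] at this
        exact hx0 ((Valuation.zero_iff v).mp this.symm)
      obtain ⟨x', y', h', hadd, hx', -⟩ := add_T0 W h1 h3 h6 hP hx0 hT
      obtain ⟨x'', y'', h'', hadd', hx'', -⟩ := add_T0 W h1 h3 h6 hQ hσx0 hT
      have hE' : InE1 v (Point.some x y hP + Point.some 0 0 hT) := by
        rw [hadd, inE1_some, hx', map_div₀, hb]
        exact (one_lt_div₀ (zero_lt_iff.mpr ((Valuation.ne_zero_iff v).mpr hx0))).mpr hlt
      have hE'' : InE1 v (Point.some (σ x) (σ y) hQ + Point.some 0 0 hT) := by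
        rw [hadd', inE1_some, hx'', map_div₀, hb, hs1]
        exact (one_lt_div₀ (zero_lt_iff.mpr ((Valuation.ne_zero_iff v).mpr hx0))).mpr hlt
      have := hsub _ _ hE'' hE'
      rwa [add_sub_add_right_eq_sub] at this
  · -- `v x = 1`: Claim C
    have hs := val_s_le_one ha hb.le heq e
    have hns := smooth_of_disc hv2 ha hdisc e heq hs
    have hσs : σ y / σ x = σ (y / x) := by rw [map_div₀]
    have hns' : v (σ y / σ x) = 1 ∨ v (σ x ^ 2 - W.a₄) = 1 := by
      rcases hns with h | h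
      · left; rw [hσs, hs1]; exact h
      · right
        have : σ x ^ 2 - W.a₄ = σ (x ^ 2 - W.a₄) := by rw [map_sub, map_pow, hσb]
        rw [this, hs1]; exact h
    have hcl := ClaimC.claimC W h1 h3 h6 hv2 ha hb.le hQ hP (by rw [hs1]; exact heq) heq
      (hs2 x heq.le) (by rw [hσs]; exact hs2 _ hs) hns'
    rcases hcl with h0 | ⟨x', y', h', he, hv'⟩
    · rw [h0]; exact inE1_zero v
    · rw [he, inE1_some]; exact hv'
  · -- `1 < v x`
    exact hsub _ _ ((inE1_some v hQ).mpr (by rw [hs1]; exact hgt)) ((inE1_some v hP).mpr hgt)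

end Fermat.Agent.S05.Good

namespace Fermat.Agent.S05

variable {K : Type*} [Field K] [DecidableEq K] {Γ₀ : Type*} [LinearOrderedCommGroupWithZero Γ₀]
  (v : Valuation K Γ₀) {a b : K}

omit [DecidableEq K] in
lemma good_inE1_iff (P : (Wab a b).toAffine.Point) : Good.InE1 v P ↔ InE1 v P := by
  rcases P with _ | ⟨x, y, h⟩
  · exact ⟨fun _ => trivial, fun _ => Or.inl rfl⟩
  · exact Good.inE1_some v h

/-- **Good reduction case**, interface shape of the T-S05 blueprint, with the three facts about the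
kernel of reduction (P3, `Kernel.lean`: `InE1.neg`, `InE1.add`, `InE1.eq_zero_of_nsmul`) passed as
hypotheses `hneg`, `hadd`, `htf`. -/
theorem good_fixed_of_kernel (h2 : v 2 = 1) (ha : v a ≤ 1) (hb : v b = 1)
    (hd : v (a ^ 2 - 4 * b) = 1)
    (σ : K →+* K) (hσv : ∀ x, v (σ x) = v x) (hσr : ∀ x, v x ≤ 1 → v (σ x - x) < 1)
    (hσb : σ b = b)
    (hneg : ∀ P : (Wab a b).toAffine.Point, InE1 v P → InE1 v (-P))
    (hadd : ∀ P Q : (Wab a b).toAffine.Point, InE1 v P → InE1 v Q → InE1 v (P + Q))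
    {n : ℕ} (htf : ∀ P : (Wab a b).toAffine.Point, InE1 v P → n • P = 0 → P = 0)
    {x y : K} (h : (Wab a b).toAffine.Nonsingular x y)
    (h' : (Wab a b).toAffine.Nonsingular (σ x) (σ y))
    (ht : n • Point.some x y h = 0) (ht' : n • Point.some _ _ h' = 0) :
    σ x = x ∧ σ y = y := by
  have key := Good.good_fixed (v := v) (Wab a b).toAffine rfl rfl rfl h2 ha hb hd σ hσv hσr hσb
    (fun P Q hP hQ => by
      rw [good_inE1_iff] at hP hQ ⊢
      rw [sub_eq_add_neg]; exact hadd _ _ hP (hneg _ hQ))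
    n (fun P hP hn => htf P ((good_inE1_iff v P).mp hP) hn) h h' ht ht'
  simpa only [Point.some.injEq] using key

end Fermat.Agent.S05
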