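/-
T-S05 (helper25): discharge of the contracts `Assembly.GoodShape` and `Assembly.MultShape`
of `Assembly.lean` from the local theorems on the model curve `Wab a b`
(`good_fixed_of_kernel`, Kernel facts, `mult_fixed`).  The local theorems enter as explicit
hypotheses `KernelFacts`, `MultFixedStmt` (literally their statements over `Qbar`), so this file
does not depend on their proofs.
-/
import Fermat.Agent.S05.Assembly
import Fermat.Agent.S05.Good

set_option autoImplicit false
open WeierstrassCurve WeierstrassCurve.Affine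

namespace Fermat.Agent.S05.Contracts

open Fermat.Agent.S05

local notation "Qbar" => AlgebraicClosure ℚ

/-- The three facts about the kernel of reduction (piece P3), over `Qbar`. -/
def KernelFacts : Prop :=
  ∀ (A : ValuationSubring Qbar) (a b : Qbar), A.valuation 2 = 1 → A.valuation a ≤ 1 →
    A.valuation b ≤ 1 →
    (∀ P : (Wab a b).toAffine.Point, InE1 A.valuation P → InE1 A.valuation (-P)) ∧
    (∀ P Q : (Wab a b).toAffine.Point, InE1 A.valuation P → InE1 A.valuation Q →
      InE1 A.valuation (P + Q)) ∧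
    (∀ p : ℕ, p.Prime → A.valuation (p : Qbar) = 1 → ∀ P : (Wab a b).toAffine.Point,
      InE1 A.valuation P → p • P = 0 → P = 0)

/-- The statement of `mult_fixed` (piece P6), over `Qbar`. -/
def MultFixedStmt : Prop :=
  ∀ (A : ValuationSubring Qbar) (a b : Qbar), A.valuation 2 = 1 → A.valuation a = 1 →
    A.valuation b < 1 → b ≠ 0 → ∀ α : Qbar, α ^ 2 = a →
    ∀ σ : Qbar →+* Qbar, (∀ x, A.valuation (σ x) = A.valuation x) →
    (∀ x, A.valuation x ≤ 1 → A.valuation (σ x - x) < 1) → σ a = a → σ b = b →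
    ∀ h₀ : Qbar, σ h₀ = h₀ → ∀ p : ℕ, p.Prime → p ≠ 2 → A.valuation (p : Qbar) = 1 →
    A.valuation b = A.valuation h₀ ^ p →
    ∀ {x y : Qbar} (h : (Wab a b).toAffine.Nonsingular x y)
      (h' : (Wab a b).toAffine.Nonsingular (σ x) (σ y)),
      p • Point.some x y h = 0 → p • Point.some _ _ h' = 0 → σ x = x ∧ σ y = y

/-- A curve with `a₁ = a₃ = a₆ = 0` is a `Wab`. -/
theorem exists_eq_Wab {K : Type*} [CommRing K] (W : WeierstrassCurve K) (h1 : W.a₁ = 0)
    (h3 : W.a₃ = 0) (h6 : W.a₆ = 0) : ∃ a b : K, W = Wab a b :=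
  ⟨W.a₂, W.a₄, by ext <;> simp [h1, h3, h6]⟩

/-- Common final step: from the coordinate statement to `T Q = Q`. -/
theorem fixed_of_coord {a b : Qbar} (σ : Qbar →+* Qbar)
    (T : (Wab a b).toAffine.Point →+ (Wab a b).toAffine.Point)
    (hT : ∀ x y (h : (Wab a b).toAffine.Nonsingular x y),
      ∃ h', T (.some x y h) = .some (σ x) (σ y) h')
    (p : ℕ)
    (H : ∀ {x y : Qbar} (h : (Wab a b).toAffine.Nonsingular x y)
      (h' : (Wab a b).toAffine.Nonsingular (σ x) (σ y)),
      p • Point.some x y h = 0 → p • Point.some _ _ h' = 0 → σ x = x ∧ σ y = y)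
    (Q : (Wab a b).toAffine.Point) (hQ : p • Q = 0) : T Q = Q := by
  rcases Q with _ | ⟨x, y, h⟩
  · exact map_zero T
  · obtain ⟨h', e⟩ := hT x y h
    have hQ' : p • Point.some (σ x) (σ y) h' = 0 := by
      rw [← e, ← map_nsmul, hQ, map_zero]
    obtain ⟨hx, hy⟩ := H h h' hQ hQ'
    rw [e]
    simp only [Point.some.injEq]
    exact ⟨hx, hy⟩

theorem goodShape_of (hK : KernelFacts) : Assembly.GoodShape := by
  intro A W σ T hS ha2 hb4 hd p hp _hp2 hvp Q hQ
  obtain ⟨a, b, rfl⟩ := exists_eq_Wab W hS.a₁ hS.a₃ hS.a₆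
  obtain ⟨hneg, hadd, htf⟩ := hK A a b hS.two ha2 hb4.le
  refine fixed_of_coord σ T hS.hT p ?_ Q hQ
  intro x y h h' ht ht'
  exact good_fixed_of_kernel (v := A.valuation) hS.two ha2 hb4 hd σ hS.s1 hS.s2 hS.fix₄
    hneg hadd (htf p hp hvp) h h' ht ht'

theorem multShape_of (hM : MultFixedStmt) : Assembly.MultShape := by
  intro A W σ T hS ha2 α hα h0 hh0 hσh0 hvh0 p hp hp2 hb4 hvp Q hQ
  obtain ⟨a, b, rfl⟩ := exists_eq_Wab W hS.a₁ hS.a₃ hS.a₆
  have hb4' : A.valuation b = A.valuation h0 ^ p := hb4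
  have hblt : A.valuation b < 1 := by
    rw [hb4']
    exact pow_lt_one₀ zero_le hvh0 hp.ne_zero
  have hb0 : b ≠ 0 := by
    intro hb
    rw [hb, map_zero] at hb4'
    have : A.valuation h0 = 0 := by
      exact (pow_eq_zero_iff hp.ne_zero).mp hb4'.symm
    exact hh0 ((Valuation.zero_iff _).mp this)
  refine fixed_of_coord σ T hS.hT p ?_ Q hQ
  intro x y h h' ht ht'
  exact hM A a b hS.two ha2 hblt hb0 α hα σ hS.s1 hS.s2 hS.fix₂ hS.fix₄ h0 hσh0 p hp hp2 hvp
    hb4' h h' ht ht'

end Fermat.Agent.S05.Contracts
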