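/-
T-S05 (helper1): discharge of the contract `Contracts.KernelFacts` (piece P3) from the general
kernel-of-reduction theory in `Kernel.lean`.
-/
import Fermat.Agent.S05.Kernel
import Fermat.Agent.S05.Contracts

set_option autoImplicit false
open WeierstrassCurve WeierstrassCurve.Affine

namespace Fermat.Agent.S05.KernelContract

open Fermat.Agent.S05

section

variable {K : Type*} [Field K] {Γ₀ : Type*} [LinearOrderedCommGroupWithZero Γ₀]
  (v : Valuation K Γ₀) {a b : K}

lemma integralCoeffs_Wab (ha : v a ≤ 1) (hb : v b ≤ 1) :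
    Kernel.IntegralCoeffs v (Wab a b).toAffine := by
  refine ⟨?_, ?_, ?_, ?_, ?_⟩ <;> simp [ha, hb]

lemma inE1_iff (P : (Wab a b).toAffine.Point) : Kernel.InE1 v P ↔ InE1 v P := by
  rcases P with _ | ⟨x, y, h⟩
  · exact ⟨fun _ => trivial, fun _ => Or.inl rfl⟩
  · exact Kernel.inE1_some v h

/-- `E₁` of the model curve is closed under negation. -/
theorem inE1_neg (P : (Wab a b).toAffine.Point) (hP : InE1 v P) : InE1 v (-P) :=
  (inE1_iff v _).mp (((inE1_iff v P).mpr hP).neg)

variable [DecidableEq K]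

/-- `E₁` of the model curve is closed under addition. -/
theorem inE1_add (ha : v a ≤ 1) (hb : v b ≤ 1) (P Q : (Wab a b).toAffine.Point)
    (hP : InE1 v P) (hQ : InE1 v Q) : InE1 v (P + Q) := by
  have hW := integralCoeffs_Wab v ha hb
  have hP' := (inE1_iff v P).mpr hP
  have hQ' := (inE1_iff v Q).mpr hQ
  exact (inE1_iff v _).mp ((Kernel.E1 v _ hW).add_mem hP' hQ')

/-- `E₁` of the model curve has no `n`-torsion when `v n = 1`. -/
theorem inE1_torsion_free (ha : v a ≤ 1) (hb : v b ≤ 1) {n : ℕ} (hn : v (n : K) = 1)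
    (P : (Wab a b).toAffine.Point) (hP : InE1 v P) (h : n • P = 0) : P = 0 :=
  Kernel.eq_zero_of_nsmul_eq_zero (integralCoeffs_Wab v ha hb) ((inE1_iff v P).mpr hP) hn h

end

/-- The contract `KernelFacts` of `Contracts.lean`. -/
theorem kernelFacts : Contracts.KernelFacts := by
  intro A a b _ ha hb
  refine ⟨fun P hP => inE1_neg _ P hP, fun P Q hP hQ => inE1_add _ ha hb P Q hP hQ, ?_⟩
  intro p _ hvp P hP h
  exact inE1_torsion_free _ ha hb hvp P hP h

end Fermat.Agent.S05.KernelContract
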