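import Mathlib
import Fermat.Agent.S05.PairFormulas
import Fermat.Agent.S05.Good

/-!
# S05 helper (hedge for P3, helper16): the kernel of reduction, `x`-coordinates only

For ANY Weierstrass curve `W` over a field `K` with a valuation `v` such that the `b`-invariants are
integral (`IntB v W`), the set `E₁ = {0} ∪ {(x, y) : 1 < v x}` (predicate `Good.InE1 v`) is closed
under addition / negation / multiples (`inE1_add`, `inE1_neg`, `inE1_nsmul`) and has no `p`-torsion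
for a prime `p` with `v p = 1` (`inE1_eq_zero_of_nsmul`).

Method: only the symmetric pair formulas of `PairFormulas.lean`.  With `X = 1/x`:
`X(P+Q) X(P-Q) U = (X_P - X_Q)²` and `(X(P+Q) + X(P-Q)) U = S'` with `v U = 1`, `v S' < 1`
give closure, and `X(P+Q) + X(P-Q) = 2 (X_P + X_Q) mod X_P X_Q`, `X(2P) = 4 X_P mod X_P²` give
`X(kR) = k² X(R) mod X(R)²`; for `R` of odd prime order `p = 2m+1`, `(m+1)R = -mR` forces
`p X(R) = 0 mod X(R)²`, i.e. `v p < 1`.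

At the end: the three statements in the interface shape of the T-S05 blueprint for `Wab a b`
(`KernelAlt.neg`, `KernelAlt.add`, `KernelAlt.eq_zero_of_nsmul`).
-/

set_option autoImplicit false

open WeierstrassCurve WeierstrassCurve.Affine

namespace Fermat.Agent.S05.KernelAlt

variable {K : Type*} [Field K] {Γ₀ : Type*} [LinearOrderedCommGroupWithZero Γ₀]
  {v : Valuation K Γ₀}

lemma val_natCast_le_one (n : ℕ) : v (n : K) ≤ 1 := by
  induction n with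
  | zero => simp
  | succ n ih => rw [Nat.cast_succ]; exact Valuation.map_add_le v ih (by simp)

lemma val_two_le_one : v (2 : K) ≤ 1 := by exact_mod_cast val_natCast_le_one (v := v) 2
lemma val_four_le_one : v (4 : K) ≤ 1 := by exact_mod_cast val_natCast_le_one (v := v) 4

/-- the unit `U = 1 - b₄X₁X₂ - b₆X₁X₂(X₁+X₂) - b₈X₁²X₂²`. -/
def Uu (b₄ b₆ b₈ X₁ X₂ : K) : K :=
  1 - b₄ * X₁ * X₂ - b₆ * X₁ * X₂ * (X₁ + X₂) - b₈ * X₁ ^ 2 * X₂ ^ 2

/-- `S' = 2(X₁+X₂) + b₂X₁X₂ + b₄X₁X₂(X₁+X₂) + b₆X₁²X₂²`. -/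
def Ss (b₂ b₄ b₆ X₁ X₂ : K) : K :=
  2 * (X₁ + X₂) + b₂ * X₁ * X₂ + b₄ * X₁ * X₂ * (X₁ + X₂) + b₆ * X₁ ^ 2 * X₂ ^ 2

lemma val_Uu {b₄ b₆ b₈ X₁ X₂ : K} (h4 : v b₄ ≤ 1) (h6 : v b₆ ≤ 1) (h8 : v b₈ ≤ 1)
    (hX₁ : v X₁ < 1) (hX₂ : v X₂ ≤ 1) : v (Uu b₄ b₆ b₈ X₁ X₂) = 1 := by
  have hs : v (X₁ + X₂) ≤ 1 := Valuation.map_add_le v hX₁.le hX₂
  have e : Uu b₄ b₆ b₈ X₁ X₂ =
      1 - X₁ * (b₄ * X₂ + b₆ * X₂ * (X₁ + X₂) + b₈ * X₁ * X₂ ^ 2) := by
    simp only [Uu]; ring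
  rw [e]
  apply Valuation.map_one_sub_of_lt
  rw [map_mul]
  refine lt_of_le_of_lt (mul_le_of_le_one_right zero_le ?_) hX₁
  refine Valuation.map_add_le v (Valuation.map_add_le v ?_ ?_) ?_
  · rw [map_mul]; exact mul_le_one' h4 hX₂
  · rw [map_mul, map_mul]; exact mul_le_one' (mul_le_one' h6 hX₂) hs
  · rw [map_mul, map_mul, map_pow]
    exact mul_le_one' (mul_le_one' h8 hX₁.le) (pow_le_one₀ zero_le hX₂)

lemma val_Ss {b₂ b₄ b₆ X₁ X₂ : K} (h2 : v b₂ ≤ 1) (h4 : v b₄ ≤ 1) (h6 : v b₆ ≤ 1)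
    (hX₁ : v X₁ < 1) (hX₂ : v X₂ < 1) : v (Ss b₂ b₄ b₆ X₁ X₂) < 1 := by
  have hs : v (X₁ + X₂) < 1 := Valuation.map_add_lt v hX₁ hX₂
  simp only [Ss]
  refine Valuation.map_add_lt v (Valuation.map_add_lt v (Valuation.map_add_lt v ?_ ?_) ?_) ?_
  · rw [map_mul]; exact lt_of_le_of_lt (mul_le_of_le_one_left zero_le val_two_le_one) hs
  · rw [map_mul, map_mul]
    exact lt_of_le_of_lt (mul_le_of_le_one_left zero_le (mul_le_one' h2 hX₁.le)) hX₂
  · rw [map_mul, map_mul, map_mul]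
    exact lt_of_le_of_lt (mul_le_of_le_one_left zero_le
      (mul_le_one' (mul_le_one' h4 hX₁.le) hX₂.le)) hs
  · rw [map_mul, map_mul, map_pow, map_pow]
    exact lt_of_le_of_lt (mul_le_of_le_one_left zero_le
      (mul_le_one' h6 (pow_le_one₀ zero_le hX₁.le))) (pow_lt_one₀ zero_le hX₂ (by norm_num))

/-- pure valuation consequences of the two `X`-identities -/
lemma val_AB {b₂ b₄ b₆ b₈ X₁ X₂ Xp Xm : K} (h2 : v b₂ ≤ 1) (h4 : v b₄ ≤ 1) (h6 : v b₆ ≤ 1)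
    (h8 : v b₈ ≤ 1) (hX₁ : v X₁ < 1) (hX₂ : v X₂ < 1)
    (hA : (X₂ - X₁) ^ 2 = Xp * Xm * Uu b₄ b₆ b₈ X₁ X₂)
    (hB : (Xp + Xm) * Uu b₄ b₆ b₈ X₁ X₂ = Ss b₂ b₄ b₆ X₁ X₂) :
    v Xp < 1 ∧ v Xm < 1 ∧ v (Xp + Xm - 2 * X₁ - 2 * X₂) ≤ v X₁ * v X₂ := by
  have hU := val_Uu (v := v) h4 h6 h8 hX₁ hX₂.le
  have hS := val_Ss (v := v) h2 h4 h6 hX₁ hX₂
  have hsum : v (Xp + Xm) < 1 := by
    have := congrArg v hB
    rw [map_mul, hU, mul_one] at this; rw [this]; exact hS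
  have hprod : v Xp * v Xm < 1 := by
    have := congrArg v hA
    rw [map_pow, map_mul, map_mul, hU, mul_one] at this
    rw [← this]
    exact pow_lt_one₀ zero_le (Valuation.map_sub_lt v hX₂ hX₁) (by norm_num)
  have key : ∀ {A B : K}, v A * v B < 1 → v (A + B) < 1 → v A < 1 := by
    intro A B hAB hsum'
    by_contra hcon
    push Not at hcon
    have hB1 : v B < 1 := by
      by_contra hB'
      push Not at hB'
      exact absurd hAB (not_lt.mpr (one_le_mul_of_one_le_of_one_le hcon hB'))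
    have : v (A + B) = v A := Valuation.map_add_eq_of_lt_left v (lt_of_lt_of_le hB1 hcon)
    rw [this] at hsum'
    exact absurd hsum' (not_lt.mpr hcon)
  refine ⟨key hprod hsum, key (by rwa [mul_comm]) (by rwa [add_comm]), ?_⟩
  have hT : (Xp + Xm - 2 * X₁ - 2 * X₂) * Uu b₄ b₆ b₈ X₁ X₂ =
      X₁ * X₂ * (b₂ + b₄ * (X₁ + X₂) + b₆ * X₁ * X₂ +
        2 * (X₁ + X₂) * (b₄ + b₆ * (X₁ + X₂) + b₈ * X₁ * X₂)) := by
    have : (Xp + Xm - 2 * X₁ - 2 * X₂) * Uu b₄ b₆ b₈ X₁ X₂ =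
        Ss b₂ b₄ b₆ X₁ X₂ - (2 * X₁ + 2 * X₂) * Uu b₄ b₆ b₈ X₁ X₂ := by
      rw [← hB]; ring
    rw [this]; simp only [Ss, Uu]; ring
  have := congrArg v hT
  rw [map_mul, hU, mul_one, map_mul, map_mul] at this
  rw [this]
  refine mul_le_of_le_one_right zero_le ?_
  have hs : v (X₁ + X₂) ≤ 1 := Valuation.map_add_le v hX₁.le hX₂.le
  refine Valuation.map_add_le v (Valuation.map_add_le v (Valuation.map_add_le v h2 ?_) ?_) ?_
  · rw [map_mul]; exact mul_le_one' h4 hs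
  · rw [map_mul, map_mul]; exact mul_le_one' (mul_le_one' h6 hX₁.le) hX₂.le
  · rw [map_mul, map_mul]
    refine mul_le_one' (mul_le_one' val_two_le_one hs) ?_
    refine Valuation.map_add_le v (Valuation.map_add_le v h4 ?_) ?_
    · rw [map_mul]; exact mul_le_one' h6 hs
    · rw [map_mul, map_mul]; exact mul_le_one' (mul_le_one' h8 hX₁.le) hX₂.le

/-- doubling: `U₂ = 1 - b₄X² - 2b₆X³ - b₈X⁴`. -/
def Ud (b₄ b₆ b₈ X : K) : K := 1 - b₄ * X ^ 2 - 2 * b₆ * X ^ 3 - b₈ * X ^ 4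

lemma val_Ud {b₄ b₆ b₈ X : K} (h4 : v b₄ ≤ 1) (h6 : v b₆ ≤ 1) (h8 : v b₈ ≤ 1)
    (hX : v X < 1) : v (Ud b₄ b₆ b₈ X) = 1 := by
  have e : Ud b₄ b₆ b₈ X = 1 - X * (b₄ * X + 2 * b₆ * X ^ 2 + b₈ * X ^ 3) := by
    simp only [Ud]; ring
  rw [e]
  apply Valuation.map_one_sub_of_lt
  rw [map_mul]
  refine lt_of_le_of_lt (mul_le_of_le_one_right zero_le ?_) hX
  refine Valuation.map_add_le v (Valuation.map_add_le v ?_ ?_) ?_
  · rw [map_mul]; exact mul_le_one' h4 hX.le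
  · rw [map_mul, map_mul, map_pow]
    exact mul_le_one' (mul_le_one' val_two_le_one h6) (pow_le_one₀ zero_le hX.le)
  · rw [map_mul, map_pow]; exact mul_le_one' h8 (pow_le_one₀ zero_le hX.le)

lemma val_dbl {b₂ b₄ b₆ b₈ X Xd : K} (h2 : v b₂ ≤ 1) (h4 : v b₄ ≤ 1) (h6 : v b₆ ≤ 1)
    (h8 : v b₈ ≤ 1) (hX : v X < 1)
    (hD : Xd * Ud b₄ b₆ b₈ X = X * (4 + b₂ * X + 2 * b₄ * X ^ 2 + b₆ * X ^ 3)) :
    v Xd < 1 ∧ v (Xd - 4 * X) ≤ v X ^ 2 := by
  have hU := val_Ud (v := v) h4 h6 h8 hX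
  have hX2 : v (X ^ 2) ≤ 1 := by rw [map_pow]; exact pow_le_one₀ zero_le hX.le
  have hX3 : v (X ^ 3) ≤ 1 := by rw [map_pow]; exact pow_le_one₀ zero_le hX.le
  constructor
  · have := congrArg v hD
    rw [map_mul, hU, mul_one, map_mul] at this
    rw [this]
    refine lt_of_le_of_lt (mul_le_of_le_one_right zero_le ?_) hX
    refine Valuation.map_add_le v (Valuation.map_add_le v
      (Valuation.map_add_le v val_four_le_one ?_) ?_) ?_
    · rw [map_mul]; exact mul_le_one' h2 hX.le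
    · rw [map_mul, map_mul]; exact mul_le_one' (mul_le_one' val_two_le_one h4) hX2
    · rw [map_mul]; exact mul_le_one' h6 hX3
  · have hT : (Xd - 4 * X) * Ud b₄ b₆ b₈ X =
        X ^ 2 * (b₂ + 2 * b₄ * X + b₆ * X ^ 2 + 4 * (b₄ * X + 2 * b₆ * X ^ 2 + b₈ * X ^ 3)) := by
      rw [sub_mul, hD]; simp only [Ud]; ring
    have := congrArg v hT
    rw [map_mul, hU, mul_one, map_mul, map_pow] at this
    rw [this]
    refine mul_le_of_le_one_right zero_le ?_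
    refine Valuation.map_add_le v (Valuation.map_add_le v (Valuation.map_add_le v h2 ?_) ?_) ?_
    · rw [map_mul, map_mul]; exact mul_le_one' (mul_le_one' val_two_le_one h4) hX.le
    · rw [map_mul]; exact mul_le_one' h6 hX2
    · rw [map_mul]
      refine mul_le_one' val_four_le_one ?_
      refine Valuation.map_add_le v (Valuation.map_add_le v ?_ ?_) ?_
      · rw [map_mul]; exact mul_le_one' h4 hX.le
      · rw [map_mul, map_mul]; exact mul_le_one' (mul_le_one' val_two_le_one h6) hX2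
      · rw [map_mul]; exact mul_le_one' h8 hX3

/-- from the `x`-identities to the `X = x⁻¹`-identities (chord). -/
lemma XAB {b₂ b₄ b₆ b₈ x₁ x₂ xp xm : K} (h1 : x₁ ≠ 0) (h2 : x₂ ≠ 0) (hp : xp ≠ 0)
    (hm : xm ≠ 0)
    (hPi : xp * xm * (x₁ - x₂) ^ 2 = x₁ ^ 2 * x₂ ^ 2 - b₄ * x₁ * x₂ - b₆ * (x₁ + x₂) - b₈)
    (hSig : (xp + xm) * (x₁ - x₂) ^ 2 =
      2 * x₁ * x₂ * (x₁ + x₂) + b₂ * x₁ * x₂ + b₄ * (x₁ + x₂) + b₆) :
    (x₂⁻¹ - x₁⁻¹) ^ 2 = xp⁻¹ * xm⁻¹ * Uu b₄ b₆ b₈ x₁⁻¹ x₂⁻¹ ∧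
    (xp⁻¹ + xm⁻¹) * Uu b₄ b₆ b₈ x₁⁻¹ x₂⁻¹ = Ss b₂ b₄ b₆ x₁⁻¹ x₂⁻¹ := by
  constructor
  · simp only [Uu]
    field_simp
    linear_combination hPi
  · simp only [Uu, Ss]
    field_simp
    linear_combination (-(xp + xm)) * hPi + (xp * xm) * hSig

/-- from the `x`-identity to the `X`-identity (doubling). -/
lemma XD {b₂ b₄ b₆ b₈ x xd : K} (h1 : x ≠ 0) (hd : xd ≠ 0)
    (hD : xd * (4 * x ^ 3 + b₂ * x ^ 2 + 2 * b₄ * x + b₆) =
      x ^ 4 - b₄ * x ^ 2 - 2 * b₆ * x - b₈) :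
    xd⁻¹ * Ud b₄ b₆ b₈ x⁻¹ = x⁻¹ * (4 + b₂ * x⁻¹ + 2 * b₄ * x⁻¹ ^ 2 + b₆ * x⁻¹ ^ 3) := by
  simp only [Ud]
  field_simp
  linear_combination (-1 : K) * hD

/-! ### point level -/

open Fermat.Agent.S05.PairFormulas Fermat.Agent.S05.Good

/-- integrality of the `b`-invariants. -/
structure IntB (v : Valuation K Γ₀) (W : Affine K) : Prop where
  b₂ : v W.b₂ ≤ 1
  b₄ : v W.b₄ ≤ 1
  b₆ : v W.b₆ ≤ 1
  b₈ : v W.b₈ ≤ 1

variable {W : Affine K}

lemma ne_zero_of_one_lt {x : K} (h : 1 < v x) : x ≠ 0 := by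
  rintro rfl; simp at h

lemma val_inv_lt_one {x : K} (h : 1 < v x) : v x⁻¹ < 1 := by
  rw [map_inv₀]; exact inv_lt_one_of_one_lt₀ h

lemma one_lt_of_val_inv_lt_one {x : K} (hx : x ≠ 0) (h : v x⁻¹ < 1) : 1 < v x := by
  rw [map_inv₀] at h
  exact (inv_lt_one₀ (zero_lt_iff.mpr ((Valuation.ne_zero_iff v).mpr hx))).mp h

lemma pairProd_eq {x₁ x₂ : K} (h1 : x₁ ≠ 0) (h2 : x₂ ≠ 0) :
    pairProd W x₁ x₂ = x₁ ^ 2 * x₂ ^ 2 * Uu W.b₄ W.b₆ W.b₈ x₁⁻¹ x₂⁻¹ := by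
  simp only [pairProd, Uu]; field_simp; ring

lemma phi2_eq {x : K} (h1 : x ≠ 0) : phi2 W x = x ^ 4 * Ud W.b₄ W.b₆ W.b₈ x⁻¹ := by
  simp only [phi2, Ud]; field_simp

variable [DecidableEq K]

/-- chord step in `E₁`. -/
lemma chord (hW : IntB v W) {x₁ y₁ x₂ y₂ : K} (h₁ : W.Nonsingular x₁ y₁)
    (h₂ : W.Nonsingular x₂ y₂) (hv₁ : 1 < v x₁) (hv₂ : 1 < v x₂) (hx : x₁ ≠ x₂) :
    ∃ (xp yp xm ym : K) (hp : W.Nonsingular xp yp) (hm : W.Nonsingular xm ym),
      Point.some x₁ y₁ h₁ + Point.some x₂ y₂ h₂ = Point.some xp yp hp ∧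
      Point.some x₁ y₁ h₁ - Point.some x₂ y₂ h₂ = Point.some xm ym hm ∧
      1 < v xp ∧ 1 < v xm ∧
      v (xp⁻¹ + xm⁻¹ - 2 * x₁⁻¹ - 2 * x₂⁻¹) ≤ v x₁⁻¹ * v x₂⁻¹ := by
  obtain ⟨xp, yp, xm, ym, hp, hm, hadd, hsub, hPi, hSig, -, -⟩ := add_sub_some h₁ h₂ hx
  have h10 := ne_zero_of_one_lt hv₁
  have h20 := ne_zero_of_one_lt hv₂
  have hX₁ := val_inv_lt_one hv₁
  have hX₂ := val_inv_lt_one hv₂
  have hU := val_Uu (v := v) hW.b₄ hW.b₆ hW.b₈ hX₁ hX₂.le
  have hU0 : Uu W.b₄ W.b₆ W.b₈ x₁⁻¹ x₂⁻¹ ≠ 0 := by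
    intro h; rw [h, map_zero] at hU; exact zero_ne_one hU
  have hPi0 : pairProd W x₁ x₂ ≠ 0 := by
    rw [pairProd_eq h10 h20]
    exact mul_ne_zero (mul_ne_zero (pow_ne_zero _ h10) (pow_ne_zero _ h20)) hU0
  have hp0 : xp ≠ 0 := by
    rintro rfl; rw [zero_mul, zero_mul] at hPi; exact hPi0 hPi.symm
  have hm0 : xm ≠ 0 := by
    rintro rfl; rw [mul_zero, zero_mul] at hPi; exact hPi0 hPi.symm
  obtain ⟨hA, hB⟩ := XAB (b₂ := W.b₂) h10 h20 hp0 hm0 hPi hSig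
  obtain ⟨hvp, hvm, hrec⟩ := val_AB (v := v) hW.b₂ hW.b₄ hW.b₆ hW.b₈ hX₁ hX₂ hA hB
  exact ⟨xp, yp, xm, ym, hp, hm, hadd, hsub, one_lt_of_val_inv_lt_one hp0 hvp,
    one_lt_of_val_inv_lt_one hm0 hvm, hrec⟩

/-- doubling step in `E₁`. -/
lemma dbl (hW : IntB v W) {x y : K} (h : W.Nonsingular x y) (hv : 1 < v x)
    (hy : y ≠ W.negY x y) :
    ∃ (xd yd : K) (hd : W.Nonsingular xd yd),
      Point.some x y h + Point.some x y h = Point.some xd yd hd ∧ 1 < v xd ∧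
      v (xd⁻¹ - 4 * x⁻¹) ≤ v x⁻¹ ^ 2 := by
  obtain ⟨xd, yd, hd, hadd, hD⟩ := add_self_some h hy
  have h10 := ne_zero_of_one_lt hv
  have hX := val_inv_lt_one hv
  have hU := val_Ud (v := v) hW.b₄ hW.b₆ hW.b₈ hX
  have hU0 : Ud W.b₄ W.b₆ W.b₈ x⁻¹ ≠ 0 := by
    intro h; rw [h, map_zero] at hU; exact zero_ne_one hU
  have hphi0 : phi2 W x ≠ 0 := by
    rw [phi2_eq h10]; exact mul_ne_zero (pow_ne_zero _ h10) hU0
  have hd0 : xd ≠ 0 := by
    rintro rfl; rw [zero_mul] at hD; exact hphi0 hD.symm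
  have hD' := XD (b₂ := W.b₂) (b₄ := W.b₄) (b₆ := W.b₆) (b₈ := W.b₈) h10 hd0
    (by simpa only [psi2sq, phi2] using hD)
  obtain ⟨h1, h2⟩ := val_dbl (v := v) hW.b₂ hW.b₄ hW.b₆ hW.b₈ hX hD'
  exact ⟨xd, yd, hd, hadd, one_lt_of_val_inv_lt_one hd0 h1, h2⟩

/-- `E₁` is closed under addition. -/
theorem inE1_add (hW : IntB v W) {P Q : W.Point} (hP : Good.InE1 v P) (hQ : Good.InE1 v Q) :
    Good.InE1 v (P + Q) := by
  rcases hP with rfl | ⟨x₁, y₁, h₁, rfl, hv₁⟩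
  · rw [zero_add]; exact hQ
  rcases hQ with rfl | ⟨x₂, y₂, h₂, rfl, hv₂⟩
  · rw [add_zero]; exact Or.inr ⟨x₁, y₁, h₁, rfl, hv₁⟩
  by_cases hx : x₁ = x₂
  · subst hx
    by_cases hy : y₁ = W.negY x₁ y₂
    · rw [Point.add_of_Y_eq rfl hy]; exact Good.inE1_zero v
    · have hyy : y₁ = y₂ := Y_eq_of_Y_ne h₁.1 h₂.1 rfl hy
      subst hyy
      obtain ⟨xd, yd, hd, hadd, hvd, -⟩ := dbl hW h₁ hv₁ hy
      rw [hadd]; exact (Good.inE1_some v hd).mpr hvd
  · obtain ⟨xp, yp, xm, ym, hp, hm, hadd, -, hvp, -, -⟩ := chord hW h₁ h₂ hv₁ hv₂ hx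
    rw [hadd]; exact (Good.inE1_some v hp).mpr hvp

theorem inE1_neg {P : W.Point} (hP : Good.InE1 v P) : Good.InE1 v (-P) := by
  rcases hP with rfl | ⟨x₁, y₁, h₁, rfl, hv₁⟩
  · rw [neg_zero]; exact Good.inE1_zero v
  · rw [Point.neg_some]; exact (Good.inE1_some v _).mpr hv₁

theorem inE1_nsmul (hW : IntB v W) {P : W.Point} (hP : Good.InE1 v P) (k : ℕ) : Good.InE1 v (k • P) := by
  induction k with
  | zero => rw [zero_nsmul]; exact Good.inE1_zero v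
  | succ k ih => rw [succ_nsmul]; exact inE1_add hW ih hP

/-- `X`-coordinate `1/x` of a point (`0` at infinity). -/
noncomputable def Xc (P : W.Point) : K := (xc P)⁻¹

omit [DecidableEq K] in
@[simp] lemma Xc_zero : Xc (0 : W.Point) = 0 := by simp [Xc]

omit [DecidableEq K] in
@[simp] lemma Xc_some {x y : K} (h : W.Nonsingular x y) : Xc (Point.some x y h) = x⁻¹ := rfl

omit [DecidableEq K] in
lemma Xc_neg (P : W.Point) : Xc (-P) = Xc P := by simp [Xc, xc_neg]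

/-- no `2`-torsion in `E₁` when `v 2 = 1`. -/
lemma inE1_eq_zero_of_two_nsmul (hW : IntB v W) (h2 : v (2 : K) = 1) {R : W.Point}
    (hR : Good.InE1 v R) (h : 2 • R = 0) : R = 0 := by
  rcases hR with rfl | ⟨x, y, hxy, rfl, hv⟩
  · rfl
  exfalso
  rw [two_nsmul] at h
  by_cases hy : y = W.negY x y
  · -- `psi2sq x = 0` but its valuation is `v x ^ 3`
    have h0 : psi2sq W x = 0 := by rw [psi2sq_eq' hxy.1, ← hy, sub_self]; ring
    have hx0 := ne_zero_of_one_lt hv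
    have h4 : v (4 : K) = 1 := by
      have : (4 : K) = 2 * 2 := by norm_num
      rw [this, map_mul, h2, one_mul]
    have hlt : v (W.b₂ * x ^ 2 + 2 * W.b₄ * x + W.b₆) < v (4 * x ^ 3) := by
      rw [map_mul, h4, one_mul, map_pow]
      have h1 : v x < v x ^ 3 := by
        calc v x = v x ^ 1 := (pow_one _).symm
          _ < v x ^ 3 := pow_lt_pow_right₀ hv (by norm_num)
      have h2' : v x ^ 2 < v x ^ 3 := pow_lt_pow_right₀ hv (by norm_num)
      refine Valuation.map_add_lt v (Valuation.map_add_lt v ?_ ?_) ?_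
      · rw [map_mul, map_pow]
        exact lt_of_le_of_lt (mul_le_of_le_one_left zero_le hW.b₂) h2'
      · rw [map_mul, map_mul]
        exact lt_of_le_of_lt (mul_le_of_le_one_left zero_le
          (mul_le_one' val_two_le_one hW.b₄)) h1
      · exact lt_of_le_of_lt hW.b₆ (lt_trans hv h1)
    have : v (psi2sq W x) = v (4 * x ^ 3) := by
      have e : psi2sq W x = 4 * x ^ 3 + (W.b₂ * x ^ 2 + 2 * W.b₄ * x + W.b₆) := by
        simp only [psi2sq]; ring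
      rw [e]; exact Valuation.map_add_eq_of_lt_left v hlt
    rw [h0, map_zero, map_mul, h4, one_mul, map_pow] at this
    exact (pow_ne_zero 3 ((Valuation.ne_zero_iff v).mpr hx0)) this.symm
  · rw [Point.add_self_of_Y_ne hy] at h
    exact Point.some_ne_zero _ h

/-- **`E₁` has no `p`-torsion** for a prime `p` with `v p = 1`. -/
theorem inE1_eq_zero_of_nsmul (hW : IntB v W) {p : ℕ} (hp : p.Prime) (hpv : v (p : K) = 1)
    {R : W.Point} (hR : Good.InE1 v R) (hpR : p • R = 0) : R = 0 := by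
  rcases hp.eq_two_or_odd' with rfl | hodd
  · exact inE1_eq_zero_of_two_nsmul hW (by exact_mod_cast hpv) hR hpR
  by_contra hR0
  obtain ⟨m, hm⟩ := hodd
  have hm1 : 1 ≤ m := by
    rcases Nat.eq_zero_or_pos m with h | h
    · subst h; simp at hm; rw [hm] at hp; exact absurd hp Nat.not_prime_one
    · exact h
  have := Fact.mk hp
  have hord : addOrderOf R = p := addOrderOf_eq_prime hpR hR0
  have hzero : ∀ k : ℕ, k • R = 0 ↔ p ∣ k := by
    intro k; rw [← hord]; exact addOrderOf_dvd_iff_nsmul_eq_zero.symm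
  -- coordinates of multiples
  have hcoord : ∀ k : ℕ, ¬ p ∣ k → ∃ (x y : K) (h : W.Nonsingular x y),
      k • R = Point.some x y h ∧ 1 < v x := by
    intro k hk
    rcases inE1_nsmul hW hR k with h0 | h
    · exact absurd ((hzero k).mp h0) hk
    · exact h
  obtain ⟨x₁, y₁, h₁, hR1, hv₁⟩ := hcoord 1 (fun h => hp.one_lt.ne' (Nat.dvd_one.mp h))
  rw [one_nsmul] at hR1
  set X : ℕ → K := fun k => Xc (k • R) with hX
  have hX1 : X 1 = x₁⁻¹ := by simp only [hX, one_nsmul, hR1, Xc_some]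
  have hvX1 : v (X 1) < 1 := by rw [hX1]; exact val_inv_lt_one hv₁
  have hX10 : v (X 1) ≠ 0 := by
    rw [hX1]; exact (Valuation.ne_zero_iff v).mpr (inv_ne_zero (ne_zero_of_one_lt hv₁))
  -- recurrence
  have hrec : ∀ j : ℕ, ¬ p ∣ j → ¬ p ∣ (j + 1) → ¬ p ∣ (j + 2) →
      v (X (j + 2) + X j - 2 * X (j + 1) - 2 * X 1) ≤ v (X (j + 1)) * v (X 1) := by
    intro j hj0 hj1 hj2
    obtain ⟨x, y, h, hk, hvx⟩ := hcoord (j + 1) hj1
    have hne : x ≠ x₁ := by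
      intro hxx
      subst hxx
      rcases Y_eq_of_X_eq h.1 h₁.1 rfl with hy | hy
      · subst hy
        apply hj0
        rw [← hzero]
        have : j • R + R = R := by rw [← succ_nsmul, hk, hR1]
        exact add_eq_right.mp this
      · apply hj2
        rw [← hzero]
        have : (j + 1) • R = -R := by rw [hk, hR1, Point.neg_some]; simp only [hy]
        rw [show j + 2 = (j + 1) + 1 by ring, succ_nsmul, this, neg_add_cancel]
    obtain ⟨xp, yp, xm, ym, hpp, hmm, hadd, hsub, -, -, hest⟩ := chord hW h h₁ hvx hv₁ hne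
    have e2 : (j + 2) • R = Point.some xp yp hpp := by
      rw [show j + 2 = (j + 1) + 1 by ring, succ_nsmul, hk, hR1, hadd]
    have e0 : j • R = Point.some xm ym hmm := by
      have : j • R = (j + 1) • R - R := by rw [succ_nsmul, add_sub_cancel_right]
      rw [this, hk, hR1, hsub]
    have a2 : X (j + 2) = xp⁻¹ := by show Xc ((j + 2) • R) = _; rw [e2]; rfl
    have a0 : X j = xm⁻¹ := by show Xc (j • R) = _; rw [e0]; rfl
    have a1 : X (j + 1) = x⁻¹ := by show Xc ((j + 1) • R) = _; rw [hk]; rfl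
    rw [a2, a0, a1, hX1]
    exact hest
  -- doubling
  have hdbl : v (X 2 - 4 * X 1) ≤ v (X 1) ^ 2 := by
    have h2 : ¬ p ∣ 2 := by
      intro h
      have := Nat.le_of_dvd (by norm_num) h
      omega
    have hy : y₁ ≠ W.negY x₁ y₁ := by
      intro hy
      apply h2
      rw [← hzero, two_nsmul, hR1]
      exact Point.add_self_of_Y_eq hy
    obtain ⟨xd, yd, hd, hadd, -, hest⟩ := dbl hW h₁ hv₁ hy
    have e2 : 2 • R = Point.some xd yd hd := by rw [two_nsmul, hR1, hadd]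
    have a2 : X 2 = xd⁻¹ := by show Xc (2 • R) = _; rw [e2]; rfl
    rw [a2, hX1]
    exact hest
  -- divisibility facts
  have hnd : ∀ k : ℕ, 1 ≤ k → k ≤ m + 1 → ¬ p ∣ k := by
    intro k hk1 hk2 h
    have := Nat.le_of_dvd (by omega) h
    omega
  -- main induction
  have hsq : v (X 1) ^ 2 ≤ v (X 1) := by
    calc v (X 1) ^ 2 = v (X 1) * v (X 1) := sq _
      _ ≤ v (X 1) := mul_le_of_le_one_right zero_le hvX1.le
  have hC : ∀ k : ℕ, k + 1 ≤ m + 1 →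
      v (X k - (k : K) ^ 2 * X 1) ≤ v (X 1) ^ 2 ∧
      v (X (k + 1) - ((k + 1 : ℕ) : K) ^ 2 * X 1) ≤ v (X 1) ^ 2 := by
    intro k
    induction k with
    | zero =>
      intro _
      constructor
      · simp [hX]
      · simp
    | succ k ih =>
      intro hk
      obtain ⟨ih0, ih1⟩ := ih (by omega)
      refine ⟨ih1, ?_⟩
      rcases Nat.eq_zero_or_pos k with hk0 | hkpos
      · subst hk0
        have : X (0 + 1 + 1) - (((0 + 1 + 1 : ℕ)) : K) ^ 2 * X 1 = X 2 - 4 * X 1 := by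
          norm_num
        rw [this]; exact hdbl
      · have hr := hrec k (hnd k hkpos (by omega)) (hnd (k + 1) (by omega) (by omega))
          (hnd (k + 2) (by omega) (by omega))
        have hXk1 : v (X (k + 1)) ≤ v (X 1) := by
          have : X (k + 1) = (X (k + 1) - ((k + 1 : ℕ) : K) ^ 2 * X 1)
              + ((k + 1 : ℕ) : K) ^ 2 * X 1 := by ring
          rw [this]
          refine Valuation.map_add_le v (le_trans ih1 hsq) ?_
          rw [map_mul, map_pow]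
          exact mul_le_of_le_one_left zero_le (pow_le_one₀ zero_le (val_natCast_le_one _))
        have hr' : v (X (k + 2) + X k - 2 * X (k + 1) - 2 * X 1) ≤ v (X 1) ^ 2 := by
          refine le_trans hr ?_
          rw [sq]; exact mul_le_mul_left hXk1 _
        have e : X (k + 1 + 1) - ((k + 1 + 1 : ℕ) : K) ^ 2 * X 1 =
            (X (k + 2) + X k - 2 * X (k + 1) - 2 * X 1)
            - (X k - (k : K) ^ 2 * X 1)
            + 2 * (X (k + 1) - ((k + 1 : ℕ) : K) ^ 2 * X 1) := by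
          push_cast; ring
        rw [e]
        refine Valuation.map_add_le v (Valuation.map_sub_le v hr' ih0) ?_
        rw [map_mul]
        exact le_trans (mul_le_of_le_one_left zero_le val_two_le_one) ih1
  obtain ⟨hCm, hCm1⟩ := hC m le_rfl
  -- `(m+1) R = - m R`
  have hXeq : X (m + 1) = X m := by
    have : (m + 1) • R = -(m • R) := by
      rw [eq_neg_iff_add_eq_zero, ← add_nsmul, show m + 1 + m = p by omega, hpR]
    simp only [hX, this, Xc_neg]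
  have hfin : v ((p : K) * X 1) ≤ v (X 1) ^ 2 := by
    have e : (p : K) * X 1 = (X m - (m : K) ^ 2 * X 1)
        - (X (m + 1) - ((m + 1 : ℕ) : K) ^ 2 * X 1) := by
      rw [hXeq, hm]; push_cast; ring
    rw [e]; exact Valuation.map_sub_le v hCm hCm1
  rw [map_mul, hpv, one_mul, sq] at hfin
  have : (1 : Γ₀) ≤ v (X 1) := by
    by_contra hlt
    push Not at hlt
    have := mul_lt_mul_of_pos_left hlt (zero_lt_iff.mpr hX10)
    rw [mul_one] at this
    exact absurd hfin (not_le.mpr this)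
  exact absurd hvX1 (not_lt.mpr this)

/-! ### interface shapes of the T-S05 blueprint (curve `Wab a b`) -/

section Wab

open Fermat.Agent.S05

variable {a b : K}

omit [DecidableEq K] in
lemma intB_Wab (ha : v a ≤ 1) (hb : v b ≤ 1) : IntB v (Wab a b).toAffine where
  b₂ := by
    have : (Wab a b).toAffine.b₂ = 4 * a := by simp [WeierstrassCurve.b₂, Wab]
    rw [this, map_mul]; exact mul_le_one' val_four_le_one ha
  b₄ := by
    have : (Wab a b).toAffine.b₄ = 2 * b := by simp [WeierstrassCurve.b₄, Wab]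
    rw [this, map_mul]; exact mul_le_one' val_two_le_one hb
  b₆ := by
    have : (Wab a b).toAffine.b₆ = 0 := by simp [WeierstrassCurve.b₆, Wab]
    rw [this, map_zero]; exact zero_le
  b₈ := by
    have : (Wab a b).toAffine.b₈ = -(b ^ 2) := by simp [WeierstrassCurve.b₈, Wab]
    rw [this, Valuation.map_neg, map_pow]; exact pow_le_one₀ zero_le hb

variable (v)

/-- hedge for `InE1.neg`. -/
theorem neg {P : (Wab a b).toAffine.Point} (hP : InE1 v P) : InE1 v (-P) :=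
  (good_inE1_iff v _).mp (inE1_neg ((good_inE1_iff v P).mpr hP))

/-- hedge for `InE1.add` (`h2` is not needed, kept for signature compatibility). -/
theorem add (_h2 : v 2 = 1) (ha : v a ≤ 1) (hb : v b ≤ 1) {P Q : (Wab a b).toAffine.Point}
    (hP : InE1 v P) (hQ : InE1 v Q) : InE1 v (P + Q) :=
  (good_inE1_iff v _).mp (inE1_add (intB_Wab ha hb) ((good_inE1_iff v P).mpr hP)
    ((good_inE1_iff v Q).mpr hQ))

/-- hedge for `InE1.eq_zero_of_nsmul` (`h2` is not needed, kept for signature compatibility). -/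
theorem eq_zero_of_nsmul (_h2 : v 2 = 1) (ha : v a ≤ 1) (hb : v b ≤ 1) {p : ℕ} (hp : p.Prime)
    (hpv : v (p : K) = 1) {P : (Wab a b).toAffine.Point} (hP : InE1 v P) (h : p • P = 0) :
    P = 0 :=
  inE1_eq_zero_of_nsmul (intB_Wab ha hb) hp hpv ((good_inE1_iff v P).mpr hP) h

end Wab

end Fermat.Agent.S05.KernelAlt
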