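import Mathlib
import Fermat.Prelude.Def_FLTPrelim_FreyPackage
import Fermat.Prelude.Def_FLTPrelim_GaloisRep
import Fermat.Prelude.Def_FLTPrelim_Ramification
import Fermat.Agent.S05.Defs
import Fermat.Agent.S05.Transport

/-!
# S05: transport from the Frey curve to the model `Wab a b : Y² = X³ + a X² + b X`

With `A = a^p`, `B = b^p`, `t` a root of `t (t - A) (t + B)`, `a' = 3t + B - A`,
`b' = 3t² + 2(B - A)t - AB`, the map `(x, y) ↦ (4x - t, 8y + 4x)` is an additive isomorphism from
the points of the Frey curve over a field `K ⊇ ℚ` to the points of `Wab a' b'`.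
-/

set_option autoImplicit false

open WeierstrassCurve WeierstrassCurve.Affine

namespace Fermat.Agent.S05.FreyTransport

open Fermat.Agent.S05 Fermat.Agent.S05.Transport

variable (P : FreyPackage) {K : Type*} [Field K] [Algebra ℚ K]

/-- `A = a ^ p` in `K`. -/
def cA : K := ((P.a : ℤ) : K) ^ P.p
/-- `B = b ^ p` in `K`. -/
def cB : K := ((P.b : ℤ) : K) ^ P.p

/-- The change of variables `(X, Y) = (4x - t, 8y + 4x)`. -/
def vc (t : K) : VariableChange K :=
  ⟨Units.mk0 2 (by
    have : CharZero K := algebraRat.charZero K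
    exact two_ne_zero), -t, 1, 0⟩

lemma freyCurve_baseChange_eq {t a b : K} (ht : t * (t - cA P) * (t + cB P) = 0)
    (ha : a = 3 * t + cB P - cA P)
    (hb : b = 3 * t ^ 2 + 2 * (cB P - cA P) * t - cA P * cB P) :
    P.freyCurve.baseChange K = vc t • Wab a b := by
  have : CharZero K := algebraRat.charZero K
  have h2 : (2 : K) ≠ 0 := two_ne_zero
  ext
  · simp [WeierstrassCurve.baseChange, FreyPackage.freyCurve, vc, variableChange_a₁]
  · simp only [WeierstrassCurve.baseChange, FreyPackage.freyCurve, vc, variableChange_a₂,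
      map_a₂, Wab_a₁, Wab_a₂, Units.val_inv_eq_inv_val, Units.val_mk0]
    simp only [map_div₀, map_sub, map_pow, map_intCast, map_one, map_ofNat]
    rw [ha]; simp only [cA, cB]; field_simp; ring
  · simp [WeierstrassCurve.baseChange, FreyPackage.freyCurve, vc, variableChange_a₃]
  · simp only [WeierstrassCurve.baseChange, FreyPackage.freyCurve, vc, variableChange_a₄,
      map_a₄, Wab_a₁, Wab_a₂, Wab_a₃, Wab_a₄, Units.val_inv_eq_inv_val, Units.val_mk0]
    simp only [map_div₀, map_mul, map_neg, map_pow, map_intCast, map_ofNat]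
    rw [ha, hb]; simp only [cA, cB]; field_simp; ring
  · simp only [WeierstrassCurve.baseChange, FreyPackage.freyCurve, vc, variableChange_a₆,
      map_a₆, Wab_a₁, Wab_a₂, Wab_a₃, Wab_a₄, Wab_a₆, Units.val_inv_eq_inv_val, Units.val_mk0,
      map_zero]
    rw [ha, hb]
    have : -t * (3 * t ^ 2 + 2 * (cB P - cA P) * t - cA P * cB P) +
        (-t) ^ 2 * (3 * t + cB P - cA P) + (-t) ^ 3 = -(t * (t - cA P) * (t + cB P)) := by ring
    simp only [zero_add, mul_zero, sub_zero, zero_pow, ne_eq, OfNat.ofNat_ne_zero,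
      not_false_eq_true]
    rw [this, ht]; simp

variable [DecidableEq K]

/-- The additive isomorphism `(x, y) ↦ (4x - t, 8y + 4x)` from the points of the Frey curve over
`K` to the points of the model curve `Wab a b`. -/
noncomputable def freyEquiv {t a b : K} (ht : t * (t - cA P) * (t + cB P) = 0)
    (ha : a = 3 * t + cB P - cA P)
    (hb : b = 3 * t ^ 2 + 2 * (cB P - cA P) * t - cA P * cB P) :
    (P.freyCurve⁄K).Point ≃+ (Wab a b).toAffine.Point :=
  pointEquiv (freyCurve_baseChange_eq P ht ha hb)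

lemma freyEquiv_some {t a b : K} (ht : t * (t - cA P) * (t + cB P) = 0)
    (ha : a = 3 * t + cB P - cA P)
    (hb : b = 3 * t ^ 2 + 2 * (cB P - cA P) * t - cA P * cB P) {x y : K}
    (h : (P.freyCurve⁄K).Nonsingular x y) :
    ∃ h' : (Wab a b).toAffine.Nonsingular (4 * x - t) (8 * y + 4 * x),
      freyEquiv P ht ha hb (.some x y h) = .some _ _ h' := by
  have key : ∀ (X Y : K) (_ : vcX (vc t) x = X) (_ : vcY (vc t) x y = Y),
      ∃ h' : (Wab a b).toAffine.Nonsingular X Y,
        freyEquiv P ht ha hb (.some x y h) = .some X Y h' := by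
    rintro X Y rfl rfl
    exact ⟨_, rfl⟩
  exact key _ _ (by simp [vcX, vc]; ring) (by simp [vcY, vc]; ring)

/-- Reduction of "`σ` fixes the `n`-torsion of the Frey curve" to a coordinate statement on the
model curve `Wab a b`. -/
theorem smul_eq_of_coord (σ : K ≃ₐ[ℚ] K) {t a b : K}
    (ht : t * (t - cA P) * (t + cB P) = 0) (ha : a = 3 * t + cB P - cA P)
    (hb : b = 3 * t ^ 2 + 2 * (cB P - cA P) * t - cA P * cB P) (hσt : σ t = t) (n : ℕ)
    (H : ∀ (X Y : K) (h : (Wab a b).toAffine.Nonsingular X Y)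
      (h' : (Wab a b).toAffine.Nonsingular (σ X) (σ Y)),
      n • (Point.some X Y h) = 0 → n • (Point.some (σ X) (σ Y) h') = 0 → σ X = X ∧ σ Y = Y)
    (x : Submodule.torsionBy ℤ (P.freyCurve⁄K).Point n) : σ • x = x := by
  have : CharZero K := algebraRat.charZero K
  obtain ⟨x, hx⟩ := x
  apply Subtype.ext
  change σ • x = x
  rw [Submodule.mem_torsionBy_iff, natCast_zsmul] at hx
  have hσx : n • (σ • x) = 0 := by
    have := Point.algEquiv_smul_zsmul σ (n : ℤ) x
    rw [natCast_zsmul, natCast_zsmul] at this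
    rw [← this, hx]
    rfl
  rcases x with _ | ⟨x₀, y₀, h₀⟩
  · rfl
  · have h₀' : (P.freyCurve⁄K).Nonsingular (σ x₀) (σ y₀) :=
      (Affine.baseChange_nonsingular (W := P.freyCurve) (f := σ.toAlgHom)
        σ.toAlgHom.injective x₀ y₀).mpr h₀
    have hs : σ • (Point.some x₀ y₀ h₀ : (P.freyCurve⁄K).Point) =
        Point.some (σ x₀) (σ y₀) h₀' := rfl
    rw [hs] at hσx ⊢
    obtain ⟨h1, e1⟩ := freyEquiv_some P ht ha hb h₀
    obtain ⟨h2, e2⟩ := freyEquiv_some P ht ha hb h₀'
    have hX : 4 * σ x₀ - t = σ (4 * x₀ - t) := by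
      rw [map_sub, map_mul, hσt, map_ofNat]
    have hY : 8 * σ y₀ + 4 * σ x₀ = σ (8 * y₀ + 4 * x₀) := by
      rw [map_add, map_mul, map_mul, map_ofNat, map_ofNat]
    have key : ∀ (X' Y' : K) (_ : 4 * σ x₀ - t = X') (_ : 8 * σ y₀ + 4 * σ x₀ = Y')
        (h' : (Wab a b).toAffine.Nonsingular (4 * σ x₀ - t) (8 * σ y₀ + 4 * σ x₀)),
        ∃ h'' : (Wab a b).toAffine.Nonsingular X' Y',
          (Point.some _ _ h' : (Wab a b).toAffine.Point) = Point.some X' Y' h'' := by
      rintro X' Y' rfl rfl h'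
      exact ⟨h', rfl⟩
    obtain ⟨h3, e3⟩ := key _ _ hX hY h2
    have t1 : n • (Point.some _ _ h1 : (Wab a b).toAffine.Point) = 0 := by
      rw [← e1, ← map_nsmul, hx, map_zero]
    have t2 : n • (Point.some _ _ h3 : (Wab a b).toAffine.Point) = 0 := by
      rw [← e3, ← e2, ← map_nsmul, hσx, map_zero]
    obtain ⟨r1, r2⟩ := H _ _ h1 h3 t1 t2
    have hx0 : σ x₀ = x₀ := by
      have := hX.trans r1
      have h4 : (4 : K) ≠ 0 := by norm_num
      exact mul_left_cancel₀ h4 (by linear_combination this)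
    have hy0 : σ y₀ = y₀ := by
      have := hY.trans r2
      have h8 : (8 : K) ≠ 0 := by norm_num
      exact mul_left_cancel₀ h8 (by linear_combination this - 4 * hx0)
    simp only [hx0, hy0]

/-- Reduction of S05 to a coordinate statement on the model curves `Wab a b`: for every valuation
subring `A` of `ℚ̄` over `q` and every `σ` in its inertia group it suffices to find a rational
translation parameter `t` such that `σ` fixes the coordinates of all `p`-torsion points of the
model curve `Wab a b`. -/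
theorem galoisRepUnramifiedAt_of_coord (q : ℕ)
    (H : ∀ A : ValuationSubring (AlgebraicClosure ℚ), A.LiesOverPrime q →
      ∀ σ ∈ A.inertiaSubgroupIn ℚ, ∃ t a b : AlgebraicClosure ℚ,
        t * (t - cA P) * (t + cB P) = 0 ∧ a = 3 * t + cB P - cA P ∧
        b = 3 * t ^ 2 + 2 * (cB P - cA P) * t - cA P * cB P ∧ σ t = t ∧
        ∀ (X Y : AlgebraicClosure ℚ) (h : (Wab a b).toAffine.Nonsingular X Y)
          (h' : (Wab a b).toAffine.Nonsingular (σ X) (σ Y)),
          P.p • Point.some X Y h = 0 → P.p • Point.some (σ X) (σ Y) h' = 0 →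
            σ X = X ∧ σ Y = Y) :
    P.GaloisRepUnramifiedAt q := by
  intro A hA σ hσ x
  obtain ⟨t, a, b, ht, ha, hb, hσt, H'⟩ := H A hA σ hσ
  exact smul_eq_of_coord P σ ht ha hb hσt P.p H' x

end Fermat.Agent.S05.FreyTransport
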