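/-
T-S05 (helper14): bridge between the coordinate-form local theorems on `Wab a b`
(Kernel facts, `good_fixed`, `mult_fixed`, `transport_exists`) and the interface contracts of
`Assembly.lean`.  The three inputs not yet available when this file was written are taken as
explicit hypotheses `KernelFactsQ`, `MultFixedQ`, `TransportExistsQ`, which are literally the
statements of the T-S05 interface message specialised to `K = Qbar`, `v = A.valuation`.
-/
import Fermat.Agent.S05.Assembly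
import Fermat.Agent.S05.Formulas
import Fermat.Agent.S05.Good

set_option autoImplicit false
open WeierstrassCurve WeierstrassCurve.Affine WeierstrassCurve.Affine.Point
open FreyPackage

namespace Fermat.Agent.S05.Glue

local notation "Qbar" => AlgebraicClosure ℚ

section Local

variable {K : Type*} [Field K] {Γ₀ : Type*} [LinearOrderedCommGroupWithZero Γ₀]
  (v : Valuation K Γ₀) {a b : K}

/-- the two versions of `InE1` agree on `Wab a b`. -/
theorem good_inE1_iff (P : (Wab a b).toAffine.Point) : Good.InE1 v P ↔ InE1 v P := by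
  rcases P with _ | ⟨x, y, h⟩
  · exact ⟨fun _ => trivial, fun _ => Good.inE1_zero v⟩
  · exact Good.inE1_some v h

end Local

/-- The three facts about the kernel of reduction (piece P3), specialised to `Qbar`. -/
def KernelFactsQ : Prop :=
  ∀ (A : ValuationSubring Qbar) (a b : Qbar), A.valuation (2 : Qbar) = 1 → A.valuation a ≤ 1 →
    A.valuation b ≤ 1 →
    (∀ P : (Wab a b).toAffine.Point, InE1 A.valuation P → InE1 A.valuation (-P)) ∧
    (∀ P Q : (Wab a b).toAffine.Point, InE1 A.valuation P → InE1 A.valuation Q →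
      InE1 A.valuation (P + Q)) ∧
    (∀ p : ℕ, p.Prime → A.valuation (p : Qbar) = 1 → ∀ P : (Wab a b).toAffine.Point,
      InE1 A.valuation P → p • P = 0 → P = 0)

/-- The multiplicative case in coordinate form (piece P6), specialised to `Qbar`. -/
def MultFixedQ : Prop :=
  ∀ (A : ValuationSubring Qbar) (a b : Qbar), A.valuation (2 : Qbar) = 1 → A.valuation a = 1 →
    A.valuation b < 1 → b ≠ 0 → ∀ α : Qbar, α ^ 2 = a → ∀ σ : Qbar →+* Qbar,
    (∀ x, A.valuation (σ x) = A.valuation x) → (∀ x, A.valuation x ≤ 1 → A.valuation (σ x - x) < 1) →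
    σ a = a → σ b = b → ∀ h₀ : Qbar, σ h₀ = h₀ → ∀ p : ℕ, p.Prime → p ≠ 2 →
    A.valuation (p : Qbar) = 1 → A.valuation b = A.valuation h₀ ^ p →
    ∀ (x y : Qbar) (h : (Wab a b).toAffine.Nonsingular x y)
      (h' : (Wab a b).toAffine.Nonsingular (σ x) (σ y)),
      p • Point.some x y h = 0 → p • Point.some (σ x) (σ y) h' = 0 → σ x = x ∧ σ y = y

/-- The transport piece (P1), specialised to `Qbar`. -/
def TransportExistsQ : Prop :=
  ∀ (A B t : ℚ), t * (t - A) * (t + B) = 0 → ∀ W : WeierstrassCurve ℚ,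
    W = ⟨1, (B - 1 - A) / 4, 0, -A * B / 16, 0⟩ →
    ∃ φ : (W⁄Qbar).Point ≃+
        ((Wab (3 * t + B - A) (3 * t ^ 2 + 2 * t * (B - A) - A * B) : WeierstrassCurve ℚ)⁄Qbar).Point,
      ∀ (σ : Qbar ≃ₐ[ℚ] Qbar) (P : (W⁄Qbar).Point), φ (σ • P) = σ • φ P

theorem goodShape_of (hK : KernelFactsQ) : Assembly.GoodShape := by
  intro A W σ T S ha hb hd p hp _ hpv Q hQ
  obtain ⟨a1, a2, a3, a4, a6⟩ := W
  have h1 : a1 = 0 := S.a₁
  have h3 : a3 = 0 := S.a₃
  have h6 : a6 = 0 := S.a₆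
  subst h1 h3 h6
  have hb' : A.valuation a4 ≤ 1 := le_of_eq hb
  obtain ⟨kneg, kadd, ktf⟩ := hK A a2 a4 S.two ha hb'
  rcases Q with _ | ⟨x, y, h⟩
  · exact _root_.map_zero T
  · obtain ⟨h', hT⟩ := S.hT x y h
    rw [hT]
    have hnQ : p • Point.some (σ x) (σ y) h' = 0 := by
      rw [← hT, ← map_nsmul, hQ, _root_.map_zero]
    refine Good.good_fixed (v := A.valuation) (⟨0, a2, 0, a4, 0⟩ : Affine Qbar) rfl rfl rfl S.two
      ha hb hd σ S.s1 S.s2 S.fix₄ ?_ p ?_ h h' hQ hnQ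
    · intro P₁ P₂ hP₁ hP₂
      have e1 := (good_inE1_iff (a := a2) (b := a4) A.valuation P₁).mp hP₁
      have e2 := (good_inE1_iff (a := a2) (b := a4) A.valuation P₂).mp hP₂
      rw [sub_eq_add_neg]
      exact (good_inE1_iff (a := a2) (b := a4) A.valuation _).mpr (kadd _ _ e1 (kneg _ e2))
    · intro P₁ hP₁ hn
      exact ktf p hp hpv P₁ ((good_inE1_iff A.valuation P₁).mp hP₁) hn

theorem multShape_of (hM : MultFixedQ) : Assembly.MultShape := by
  intro A W σ T S ha α hα h0 hh0 hσh hlt p hp hp2 hbh hpv Q hQ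
  obtain ⟨a1, a2, a3, a4, a6⟩ := W
  have h1 : a1 = 0 := S.a₁
  have h3 : a3 = 0 := S.a₃
  have h6 : a6 = 0 := S.a₆
  subst h1 h3 h6
  have hbh' : A.valuation a4 = A.valuation h0 ^ p := hbh
  have hb : A.valuation a4 < 1 := by
    rw [hbh']
    exact pow_lt_one₀ zero_le hlt hp.ne_zero
  have hb0 : a4 ≠ 0 := by
    intro h
    rw [h, _root_.map_zero] at hbh'
    have : A.valuation h0 = 0 := pow_eq_zero_iff hp.ne_zero |>.mp hbh'.symm
    exact hh0 ((Valuation.zero_iff _).mp this)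
  rcases Q with _ | ⟨x, y, h⟩
  · exact _root_.map_zero T
  · obtain ⟨h', hT⟩ := S.hT x y h
    rw [hT]
    have hnQ : p • Point.some (σ x) (σ y) h' = 0 := by
      rw [← hT, ← map_nsmul, hQ, _root_.map_zero]
    obtain ⟨ex, ey⟩ := hM A a2 a4 S.two ha hb hb0 α hα σ S.s1 S.s2 S.fix₂ S.fix₄ h0 hσh p hp hp2
      hpv hbh' x y h h' hQ hnQ
    obtain ⟨_, he⟩ := some_congr h' ex ey
    exact he

section Transport

variable (P : FreyPackage)

theorem frey_eq : P.freyCurve =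
    ⟨1, ((P.b : ℚ) ^ P.p - 1 - (P.a : ℚ) ^ P.p) / 4, 0,
      -(P.a : ℚ) ^ P.p * (P.b : ℚ) ^ P.p / 16, 0⟩ :=
  rfl

theorem transport0_of (hT : TransportExistsQ) :
    Assembly.TransportShape P ((P.b : ℚ) ^ P.p - (P.a : ℚ) ^ P.p)
      (-((P.a : ℚ) ^ P.p * (P.b : ℚ) ^ P.p)) := by
  obtain ⟨φ, hφ⟩ := hT ((P.a : ℚ) ^ P.p) ((P.b : ℚ) ^ P.p) 0 (by ring) P.freyCurve (frey_eq P)
  refine ⟨_, rfl, rfl, rfl, ?_, ?_, φ.toAddMonoidHom, φ.injective, hφ⟩
  · show 3 * (0 : ℚ) + (P.b : ℚ) ^ P.p - (P.a : ℚ) ^ P.p = _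
    ring
  · show 3 * (0 : ℚ) ^ 2 + 2 * 0 * ((P.b : ℚ) ^ P.p - (P.a : ℚ) ^ P.p)
      - (P.a : ℚ) ^ P.p * (P.b : ℚ) ^ P.p = _
    ring

theorem transportA_of (hT : TransportExistsQ) :
    Assembly.TransportShape P ((P.a : ℚ) ^ P.p + (P.c : ℚ) ^ P.p)
      ((P.a : ℚ) ^ P.p * (P.c : ℚ) ^ P.p) := by
  have hc : (P.c : ℚ) ^ P.p = (P.a : ℚ) ^ P.p + (P.b : ℚ) ^ P.p := FreyArith.c_pow_eq_cast P
  obtain ⟨φ, hφ⟩ := hT ((P.a : ℚ) ^ P.p) ((P.b : ℚ) ^ P.p) ((P.a : ℚ) ^ P.p)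
    (by ring) P.freyCurve (frey_eq P)
  refine ⟨_, rfl, rfl, rfl, ?_, ?_, φ.toAddMonoidHom, φ.injective, hφ⟩
  · show 3 * (P.a : ℚ) ^ P.p + (P.b : ℚ) ^ P.p - (P.a : ℚ) ^ P.p = _
    rw [hc]; ring
  · show 3 * ((P.a : ℚ) ^ P.p) ^ 2 + 2 * (P.a : ℚ) ^ P.p * ((P.b : ℚ) ^ P.p - (P.a : ℚ) ^ P.p)
      - (P.a : ℚ) ^ P.p * (P.b : ℚ) ^ P.p = _
    rw [hc]; ring

/-- **S05 from the three remaining inputs.** -/
theorem result_of {q : ℕ} (hq : q.Prime) (hq2 : q ≠ 2) (hqp : q ≠ P.p)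
    (hK : KernelFactsQ) (hM : MultFixedQ) (hT : TransportExistsQ) : P.GaloisRepUnramifiedAt q :=
  Assembly.result_of P hq hq2 hqp (transport0_of P hT) (transportA_of P hT) (goodShape_of hK)
    (multShape_of hM)

end Transport

end Fermat.Agent.S05.Glue
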