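/-
T-S05 (helper14): final assembly in coordinate form.

`result_of_coord` proves S05 from
* `FreyTransport.galoisRepUnramifiedAt_of_coord` (helper28): reduction to the model curves `Wab a b`,
* `good_fixed_of_kernel` (helper16), `mult_fixed_aux` (helper27),
* `FreyArith` (helper14), `Inertia` (helper27),
and the two inputs still pending when this file was written, taken as hypotheses specialised to
`K = Qbar`, `v = A.valuation`: `Glue.KernelFactsQ` (P3) and `BranchQ` (P5b `comp_torsion`).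
-/
import Fermat.Agent.S05.Glue
import Fermat.Agent.S05.FreyTransport
import Fermat.Agent.S05.Mult

set_option autoImplicit false
open WeierstrassCurve WeierstrassCurve.Affine WeierstrassCurve.Affine.Point
open FreyPackage

namespace Fermat.Agent.S05.Final

local notation "Qbar" => AlgebraicClosure ℚ

open Fermat.Agent.S05.Glue Fermat.Agent.S05.FreyTransport

/-- The consequence of the component homomorphism (piece P5b, `comp_torsion`), specialised to
`Qbar`. -/
def BranchQ : Prop :=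
  ∀ (A : ValuationSubring Qbar) (a b : Qbar), A.valuation (2 : Qbar) = 1 → A.valuation b < 1 →
    b ≠ 0 → ∀ α : Qbar, α ^ 2 = a → A.valuation α = 1 → ∀ (n : ℕ) (x y : Qbar)
    (h : (Wab a b).toAffine.Nonsingular x y), A.valuation x < 1 → A.valuation b < A.valuation x →
    n • Point.some x y h = 0 → ∃ k : ℤ, A.valuation x ^ n = A.valuation b ^ (2 * k)

variable (P : FreyPackage) {q : ℕ}

/-- The multiplicative case for a model `Wab a b` over `Qbar`. -/
theorem mult_case (hK : KernelFactsQ) (hB : BranchQ) {A : ValuationSubring Qbar}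
    {σ : Qbar ≃ₐ[ℚ] Qbar} (hσ : σ ∈ A.inertiaSubgroupIn ℚ)
    (h2 : A.valuation (2 : Qbar) = 1) (hvp : A.valuation (P.p : Qbar) = 1)
    {a b h₀ : Qbar} (ha : A.valuation a = 1) (hσb : σ b = b) (hσh : σ h₀ = h₀)
    (hbh : A.valuation b = A.valuation h₀ ^ P.p) (hlt : A.valuation h₀ < 1) (hb0 : b ≠ 0)
    (X Y : Qbar) (h : (Wab a b).toAffine.Nonsingular X Y)
    (h' : (Wab a b).toAffine.Nonsingular (σ X) (σ Y))
    (hn : P.p • Point.some X Y h = 0) (hn' : P.p • Point.some (σ X) (σ Y) h' = 0) :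
    σ X = X ∧ σ Y = Y := by
  have hb : A.valuation b < 1 := by
    rw [hbh]; exact pow_lt_one₀ zero_le hlt P.hp0
  obtain ⟨kneg, kadd, ktf⟩ := hK A a b h2 (le_of_eq ha) (le_of_lt hb)
  obtain ⟨α, hα⟩ := IsAlgClosed.exists_pow_nat_eq a (n := 2) (by norm_num)
  have hαv : A.valuation α = 1 := Mult.val_eq_one_of_sq (v := A.valuation) (by rw [hα]; exact ha)
  exact mult_fixed_aux A.valuation h2 ha hb hb0 (σ : Qbar →+* Qbar)
    (fun x => Inertia.valuation_apply_rat hσ x)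
    (fun _ hx => Inertia.valuation_sub_lt_one_rat hσ hx) hσb h₀ hσh P.hp0 hbh
    (fun P₁ P₂ h₁ h₂ => by rw [sub_eq_add_neg]; exact kadd _ _ h₁ (kneg _ h₂))
    (fun P₁ h₁ hn₁ => ktf P.p P.pp hvp P₁ h₁ hn₁)
    (fun {x s} hxs hx1 hxb hnx => hB A a b h2 hb hb0 α hα hαv P.p x (x * s) hxs hx1 hxb hnx)
    h h' hn hn'

theorem result_of_coord (hq : q.Prime) (hq2 : q ≠ 2) (hqp : q ≠ P.p)
    (hK : KernelFactsQ) (hB : BranchQ) : P.GaloisRepUnramifiedAt q := by
  apply galoisRepUnramifiedAt_of_coord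
  intro A hA σ hσ
  have hv := Assembly.liesOver hq hA
  have h2 : A.valuation (2 : Qbar) = 1 := Inertia.valuation_two_eq_one hq hA hq2
  have hvp : A.valuation (P.p : Qbar) = 1 := Inertia.valuation_prime_eq_one hq hA P.pp hqp
  have hcA : (cA P : Qbar) = (P.a : Qbar) ^ P.p := rfl
  have hcB : (cB P : Qbar) = (P.b : Qbar) ^ P.p := rfl
  rcases FreyArith.trichotomy P (q := q) with ⟨ha, hb, hc⟩ | hab | hc
  · -- good reduction
    refine ⟨0, (P.b : Qbar) ^ P.p - (P.a : Qbar) ^ P.p,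
      -((P.a : Qbar) ^ P.p * (P.b : Qbar) ^ P.p), by ring, by rw [hcA, hcB]; ring,
      by rw [hcA, hcB]; ring, map_zero σ, ?_⟩
    intro X Y h h' hn hn'
    obtain ⟨g1, g2⟩ := FreyArith.good_val P hv hq ha hb hc
    have ha2 : A.valuation ((P.b : Qbar) ^ P.p - (P.a : Qbar) ^ P.p) ≤ 1 := by
      have := Inertia.valuation_intCast_le_one (A := A) (P.b ^ P.p - P.a ^ P.p)
      simpa using this
    obtain ⟨kneg, kadd, ktf⟩ := hK A _ _ h2 ha2 (le_of_eq g1)
    exact good_fixed_of_kernel A.valuation h2 ha2 g1 g2 (σ : Qbar →+* Qbar)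
      (fun x => Inertia.valuation_apply_rat hσ x)
      (fun _ hx => Inertia.valuation_sub_lt_one_rat hσ hx) (by simp)
      kneg kadd (fun P₁ h₁ hn₁ => ktf P.p P.pp hvp P₁ h₁ hn₁) h h' hn hn'
  · -- `q ∣ ab`
    refine ⟨0, (P.b : Qbar) ^ P.p - (P.a : Qbar) ^ P.p,
      -((P.a : Qbar) ^ P.p * (P.b : Qbar) ^ P.p), by ring, by rw [hcA, hcB]; ring,
      by rw [hcA, hcB]; ring, map_zero σ, ?_⟩
    intro X Y h h' hn hn'
    obtain ⟨g1, g2, g3⟩ := FreyArith.mult_ab_val P hv hq hab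
    have hb0 : -((P.a : Qbar) ^ P.p * (P.b : Qbar) ^ P.p) ≠ 0 := by
      rw [← mul_pow]
      exact neg_ne_zero.mpr (pow_ne_zero _ (FreyArith.ab_ne_zero P))
    exact mult_case P hK hB hσ h2 hvp g1 (by simp) (by simp) g2 g3 hb0 X Y h h' hn hn'
  · -- `q ∣ c`
    have hcc : (P.c : Qbar) ^ P.p = (P.a : Qbar) ^ P.p + (P.b : Qbar) ^ P.p :=
      FreyArith.c_pow_eq_cast P
    refine ⟨(P.a : Qbar) ^ P.p, (P.a : Qbar) ^ P.p + (P.c : Qbar) ^ P.p,
      (P.a : Qbar) ^ P.p * (P.c : Qbar) ^ P.p, by rw [hcA]; ring, by rw [hcA, hcB, hcc]; ring,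
      by rw [hcA, hcB, hcc]; ring, by simp, ?_⟩
    intro X Y h h' hn hn'
    obtain ⟨g1, g2, g3⟩ := FreyArith.mult_c_val P hv hq hc
    have hb0 : (P.a : Qbar) ^ P.p * (P.c : Qbar) ^ P.p ≠ 0 := by
      rw [← mul_pow]
      exact pow_ne_zero _ (FreyArith.ac_ne_zero P)
    exact mult_case P hK hB hσ h2 hvp g1 (by simp) (by simp) g2 g3 hb0 X Y h h' hn hn'

end Fermat.Agent.S05.Final
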