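-- S05 helper (helper10): point-level wrappers of (H1), (H2) of the T-S05 blueprint v1
-- (`E₀ + E₀ ⊆ E₀`, `E₀ + α-branch ⊆ α-branch with the same v x`) on the model curve `Wab a b`.
import Fermat.Agent.S05.Formulas
import Fermat.Agent.S05.CompH3
import Fermat.Agent.S05.CompH12

set_option autoImplicit false

namespace Fermat.Agent.S05.CompPoint12

open WeierstrassCurve WeierstrassCurve.Affine
open Fermat.Agent.S05 Fermat.Agent.S05.CompH3 Fermat.Agent.S05.CompH12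

set_option linter.unusedSectionVars false

variable {K : Type*} [Field K] [DecidableEq K] {Γ₀ : Type*} [LinearOrderedCommGroupWithZero Γ₀]
  (v : Valuation K Γ₀) {a b α : K}

theorem addXs_eq_x3 (x₁ s₁ x₂ s₂ : K) : addXs b x₁ s₁ x₂ s₂ = x3 b x₁ x₂ (s₁ + s₂) := rfl

theorem addSs_eq_s3 (x₁ s₁ x₂ s₂ : K) : addSs a b x₁ s₁ x₂ s₂ = s3 a b x₁ s₁ x₂ s₂ := by
  unfold addSs s3
  ring

/-- A point with `1 ≤ v x` in `(x, s)`-coordinates. -/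
theorem exists_xs_of_one_le {x y : K} (h : (Wab a b).toAffine.Nonsingular x y) (hx : 1 ≤ v x) :
    x ≠ 0 ∧ ∃ h' : (Wab a b).toAffine.Nonsingular x (x * (y / x)),
      Point.some x y h = Point.some x (x * (y / x)) h' := by
  have hx0 : x ≠ 0 := by
    rintro rfl; rw [map_zero] at hx; exact absurd hx (not_le.mpr zero_lt_one)
  exact ⟨hx0, some_eq_xs h hx0⟩

/-- (H1), point level: `E₀` is closed under addition. -/
theorem inE0_add (ha : v a ≤ 1) (hb : v b < 1) (hb0 : b ≠ 0) {P Q : (Wab a b).toAffine.Point}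
    (hP : InE0 v P) (hQ : InE0 v Q) : InE0 v (P + Q) := by
  rcases P with _ | ⟨x₁, y₁, h₁⟩
  · rw [← Point.zero_def, zero_add]; exact hQ
  rcases Q with _ | ⟨x₂, y₂, h₂⟩
  · rw [← Point.zero_def, add_zero]; exact hP
  have hx₁ : 1 ≤ v x₁ := hP
  have hx₂ : 1 ≤ v x₂ := hQ
  obtain ⟨hx₁0, h₁', e₁⟩ := exists_xs_of_one_le v h₁ hx₁
  obtain ⟨hx₂0, h₂', e₂⟩ := exists_xs_of_one_le v h₂ hx₂
  rw [e₁, e₂]
  have hs₁ := s_sq h₁' hx₁0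
  have hs₂ := s_sq h₂' hx₂0
  by_cases hS : y₁ / x₁ + y₂ / x₂ = 0
  · rcases add_xs_of_S_eq_zero hb0 h₁' h₂' hx₁0 hx₂0 hS with ⟨-, h0⟩ | ⟨hbb, -⟩
    · rw [h0]; trivial
    · exact absurd (sub_eq_zero.mpr hbb) (mul_sub_ne_zero_of_one_le hb hx₁ hx₂)
  · have hb' : x₁ * x₂ ≠ b := fun h =>
      mul_sub_ne_zero_of_one_le hb hx₁ hx₂ (sub_eq_zero.mpr h)
    obtain ⟨h₃, e₃⟩ := add_xs h₁' h₂' hx₁0 hx₂0 hS hb'
    rw [e₃]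
    show 1 ≤ v (addXs b x₁ (y₁ / x₁) x₂ (y₂ / x₂))
    rw [addXs_eq_x3]
    exact one_le_v_x3 ha hb hx₁ hx₂ hs₁ hs₂ hS

/-- (H2), point level: `E₀ + α-branch` stays on the `α`-branch with the same `v x`. -/
theorem inE0_add_alpha (ha : a = α ^ 2) (hα : v α = 1)
    {P : (Wab a b).toAffine.Point} (hP : InE0 v P) {x₂ s₂ : K}
    (h₂ : (Wab a b).toAffine.Nonsingular x₂ (x₂ * s₂)) (hA : IsAlpha v b α x₂ s₂) :
    ∃ (x₃ s₃ : K) (h₃ : (Wab a b).toAffine.Nonsingular x₃ (x₃ * s₃)),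
      P + Point.some x₂ (x₂ * s₂) h₂ = Point.some x₃ (x₃ * s₃) h₃ ∧
        IsAlpha v b α x₃ s₃ ∧ v x₃ = v x₂ := by
  rcases P with _ | ⟨x₁, y₁, h₁⟩
  · exact ⟨x₂, s₂, h₂, by rw [← Point.zero_def, zero_add], hA, rfl⟩
  have hx₁ : 1 ≤ v x₁ := hP
  obtain ⟨hx₁0, h₁', e₁⟩ := exists_xs_of_one_le v h₁ hx₁
  have hs₁ := s_sq h₁' hx₁0
  obtain ⟨hS, hN0, hvx, hA₃⟩ := isAlpha_add_of_one_le ha hα hx₁ hs₁ hA
  have hb' : x₁ * x₂ ≠ b := fun h => hN0 (sub_eq_zero.mpr h)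
  obtain ⟨h₃, e₃⟩ := add_xs h₁' h₂ hx₁0 hA.x_ne_zero hS hb'
  refine ⟨addXs b x₁ (y₁ / x₁) x₂ s₂, addSs a b x₁ (y₁ / x₁) x₂ s₂, h₃, ?_, ?_, ?_⟩
  · rw [e₁, e₃]
  · rw [addXs_eq_x3, addSs_eq_s3]; exact hA₃
  · rw [addXs_eq_x3]; exact hvx

/-- (H2), symmetric form. -/
theorem alpha_add_inE0 (ha : a = α ^ 2) (hα : v α = 1)
    {P : (Wab a b).toAffine.Point} (hP : InE0 v P) {x₂ s₂ : K}
    (h₂ : (Wab a b).toAffine.Nonsingular x₂ (x₂ * s₂)) (hA : IsAlpha v b α x₂ s₂) :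
    ∃ (x₃ s₃ : K) (h₃ : (Wab a b).toAffine.Nonsingular x₃ (x₃ * s₃)),
      Point.some x₂ (x₂ * s₂) h₂ + P = Point.some x₃ (x₃ * s₃) h₃ ∧
        IsAlpha v b α x₃ s₃ ∧ v x₃ = v x₂ := by
  rw [add_comm]
  exact inE0_add_alpha v ha hα hP h₂ hA

/-- (H2) for the `β`-branch, point level. -/
theorem inE0_add_beta (ha : a = α ^ 2) (hα : v α = 1)
    {P : (Wab a b).toAffine.Point} (hP : InE0 v P) {x₂ s₂ : K}
    (h₂ : (Wab a b).toAffine.Nonsingular x₂ (x₂ * s₂)) (hB : IsBeta v b α x₂ s₂) :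
    ∃ (x₃ s₃ : K) (h₃ : (Wab a b).toAffine.Nonsingular x₃ (x₃ * s₃)),
      P + Point.some x₂ (x₂ * s₂) h₂ = Point.some x₃ (x₃ * s₃) h₃ ∧
        IsBeta v b α x₃ s₃ ∧ v x₃ = v x₂ := by
  rcases P with _ | ⟨x₁, y₁, h₁⟩
  · exact ⟨x₂, s₂, h₂, by rw [← Point.zero_def, zero_add], hB, rfl⟩
  have hx₁ : 1 ≤ v x₁ := hP
  obtain ⟨hx₁0, h₁', e₁⟩ := exists_xs_of_one_le v h₁ hx₁
  have hs₁ := s_sq h₁' hx₁0
  obtain ⟨hS, hN0, hvx, hB₃⟩ := isBeta_add_of_one_le ha hα hx₁ hs₁ hB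
  have hb' : x₁ * x₂ ≠ b := fun h => hN0 (sub_eq_zero.mpr h)
  obtain ⟨h₃, e₃⟩ := add_xs h₁' h₂ hx₁0 hB.x_ne_zero hS hb'
  refine ⟨addXs b x₁ (y₁ / x₁) x₂ s₂, addSs a b x₁ (y₁ / x₁) x₂ s₂, h₃, ?_, ?_, ?_⟩
  · rw [e₁, e₃]
  · rw [addXs_eq_x3, addSs_eq_s3]; exact hB₃
  · rw [addXs_eq_x3]; exact hvx

theorem inE0_neg {P : (Wab a b).toAffine.Point} (hP : InE0 v P) : InE0 v (-P) := by
  rcases P with _ | ⟨x, y, h⟩
  · trivial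
  · exact hP

end Fermat.Agent.S05.CompPoint12
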