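import Fermat.Agent.S05.NodeVal
import Fermat.Agent.S05.PairFormulas
import Fermat.Agent.S05.Good

/-!
# S05, multiplicative case via the x-only valuation recurrence (alternative to P5 + P6)

Curve `W : Y² = X³ + aX² + bX` (`a₁ = a₃ = a₆ = 0`, `a = a₂` a unit, `b = a₄` with
`v b = v h₀ ^ p`, `v h₀ < 1`, `σ h₀ = h₀`).  For a point `Q` killed by the odd prime `p`
(`v p = 1` enters only through the hypothesis `htf`: the kernel of reduction has no `p`-torsion)
we show `T Q = Q`, where `T` is the additive map induced by `σ` on points.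

No branches, no component group: only the pair formulas of `PairFormulas.lean`, `claimC`, and the
valuation recurrence `nv_val` of `NodeVal.lean`.
-/

set_option autoImplicit false

open WeierstrassCurve WeierstrassCurve.Affine

namespace Fermat.Agent.S05.MultAlt

open Fermat.Agent.S05.PairFormulas Fermat.Agent.S05.ClaimC Fermat.Agent.S05.Good

variable {K : Type*} [Field K] {Γ₀ : Type*} [LinearOrderedCommGroupWithZero Γ₀]
  {v : Valuation K Γ₀}

section algebra

variable {W : Affine K}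

lemma ma_some_of_ne_zero {P : W.Point} (hP : P ≠ 0) :
    ∃ h : W.Nonsingular (xc P) (yc P), P = Point.some (xc P) (yc P) h := by
  rcases P with _ | ⟨x, y, h⟩
  · exact absurd rfl hP
  · exact ⟨h, rfl⟩

lemma ma_psi2sq (h1 : W.a₁ = 0) (h3 : W.a₃ = 0) (h6 : W.a₆ = 0) (x : K) :
    psi2sq W x = 4 * x * (x ^ 2 + W.a₂ * x + W.a₄) := by
  simp only [psi2sq, WeierstrassCurve.b₂, WeierstrassCurve.b₄, WeierstrassCurve.b₆, h1, h3, h6]
  ring

lemma ma_phi2 (h1 : W.a₁ = 0) (h3 : W.a₃ = 0) (h6 : W.a₆ = 0) (x : K) :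
    phi2 W x = (x ^ 2 - W.a₄) ^ 2 := by
  simp only [phi2, WeierstrassCurve.b₄, WeierstrassCurve.b₆, WeierstrassCurve.b₈, h1, h3, h6]
  ring

lemma ma_pairProd (h1 : W.a₁ = 0) (h3 : W.a₃ = 0) (h6 : W.a₆ = 0) (x₁ x₂ : K) :
    pairProd W x₁ x₂ = (x₁ * x₂ - W.a₄) ^ 2 := by
  simp only [pairProd, WeierstrassCurve.b₄, WeierstrassCurve.b₆, WeierstrassCurve.b₈, h1, h3, h6]
  ring

lemma ma_equation (h1 : W.a₁ = 0) (h3 : W.a₃ = 0) (h6 : W.a₆ = 0) {x y : K}
    (h : W.Nonsingular x y) : y ^ 2 = x ^ 3 + W.a₂ * x ^ 2 + W.a₄ * x := by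
  have := (equation_iff x y).mp h.1
  rw [h1, h3, h6] at this; linear_combination this

end algebra

section fixed

variable [DecidableEq K] (W : Affine K) (h1 : W.a₁ = 0) (h3 : W.a₃ = 0) (h6 : W.a₆ = 0)
  (hv2 : v 2 = 1) (ha : v W.a₂ = 1)
  (σ : K →+* K) (hs1 : ∀ x, v (σ x) = v x) (hs2 : ∀ x, v x ≤ 1 → v (σ x - x) < 1)
  (p : ℕ) (htf : ∀ P : W.Point, Good.InE1 v P → p • P = 0 → P = 0)

include h1 h3 h6 hv2 ha hs1 hs2 htf

/-- A `p`-torsion point with unit `x`-coordinate is fixed. -/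
theorem ma_fixed_of_unit (hb : v W.a₄ < 1) {x y : K} (hP : W.Nonsingular x y)
    (hQ : W.Nonsingular (σ x) (σ y)) (hx : v x = 1)
    (hnP : p • Point.some x y hP = 0) (hnQ : p • Point.some (σ x) (σ y) hQ = 0) :
    Point.some (σ x) (σ y) hQ = Point.some x y hP := by
  have e := ma_equation h1 h3 h6 hP
  have hs := val_s_le_one ha.le hb.le hx e
  have hσs : σ y / σ x = σ (y / x) := by rw [map_div₀]
  have hns' : v (σ y / σ x) = 1 ∨ v (σ x ^ 2 - W.a₄) = 1 := by
    right
    have h2 : v (σ x ^ 2) = 1 := by rw [map_pow, hs1, hx, one_pow]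
    have : v (σ x ^ 2 - W.a₄) = v (σ x ^ 2) :=
      Valuation.map_sub_eq_of_lt_left v (by rw [h2]; exact hb)
    rw [this, h2]
  have hcl := ClaimC.claimC W h1 h3 h6 hv2 ha.le hb.le hQ hP (by rw [hs1]; exact hx) hx
    (hs2 x hx.le) (by rw [hσs]; exact hs2 _ hs) hns'
  have hE : Good.InE1 v (Point.some (σ x) (σ y) hQ - Point.some x y hP) := by
    rcases hcl with h0 | ⟨x', y', h', he, hv'⟩
    · rw [h0]; exact Good.inE1_zero v
    · rw [he, Good.inE1_some]; exact hv'
  have := htf _ hE (by rw [smul_sub, hnP, hnQ, sub_zero])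
  exact sub_eq_zero.mp this

/-- A `p`-torsion point near the node whose `x`-coordinate has the valuation of a `σ`-fixed
element is fixed. -/
theorem ma_fixed_of_node {x y : K} (hP : W.Nonsingular x y)
    (hQ : W.Nonsingular (σ x) (σ y)) (c : K) (hc0 : c ≠ 0) (hσc : σ c = c) (hxc : v x = v c)
    (hx1 : v x < 1) (hbx : v W.a₄ < v x)
    (hnP : p • Point.some x y hP = 0) (hnQ : p • Point.some (σ x) (σ y) hQ = 0) :
    Point.some (σ x) (σ y) hQ = Point.some x y hP := by
  have e := ma_equation h1 h3 h6 hP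
  have hvc : v c ≠ 0 := (Valuation.ne_zero_iff v).mpr hc0
  have hx0 : x ≠ 0 := by
    intro h; rw [h, map_zero] at hxc; exact hvc hxc.symm
  have hvx : v x ≠ 0 := (Valuation.ne_zero_iff v).mpr hx0
  have h20 : (2 : K) ≠ 0 := by
    intro h2; rw [h2, map_zero] at hv2; exact zero_ne_one hv2
  -- `v y = v x`
  have hvy : v y = v x := by
    have h2 : y ^ 2 = x ^ 2 * (x + W.a₂ + W.a₄ / x) := by
      rw [e]; field_simp
    have h3' : v (x + W.a₂ + W.a₄ / x) = 1 := by
      have h4 : v (x + W.a₂) = 1 := by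
        rw [add_comm, ← ha]; exact Valuation.map_add_eq_of_lt_left v (by rw [ha]; exact hx1)
      rw [← h4]
      apply Valuation.map_add_eq_of_lt_left
      rw [h4, map_div₀]
      exact (div_lt_one₀ (zero_lt_iff.mpr hvx)).mpr hbx
    have h5 : v y ^ 2 = v x ^ 2 := by
      rw [← map_pow, h2, map_mul, h3', mul_one, map_pow]
    exact (pow_left_inj₀ zero_le zero_le two_ne_zero).1 h5
  -- units `u = x / c`, `t = y / c`
  have hu : v (x / c) = 1 := by rw [map_div₀, hxc, div_self hvc]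
  have ht : v (y / c) = 1 := by rw [map_div₀, hvy, hxc, div_self hvc]
  have hσu : σ x - x = c * (σ (x / c) - x / c) := by
    rw [map_div₀, hσc]; field_simp
  have hσt : σ y - y = c * (σ (y / c) - y / c) := by
    rw [map_div₀, hσc]; field_simp
  have hdu : v (σ (x / c) - x / c) < 1 := hs2 _ hu.le
  have hdt : v (σ (y / c) - y / c) < 1 := hs2 _ ht.le
  by_cases hxx : σ x = x
  · -- same `x`: `σ y = ± y`
    rcases Y_eq_of_X_eq hQ.1 hP.1 hxx with hy | hy
    · simp only [Point.some.injEq]; exact ⟨hxx, hy⟩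
    · exfalso
      have hneg : W.negY x y = -y := by simp [negY, h1, h3]
      rw [hneg] at hy
      have h5 : σ y - y = -(2 * y) := by rw [hy]; ring
      have h6' : v (σ y - y) = v c := by
        rw [h5, Valuation.map_neg, map_mul, hv2, one_mul, hvy, hxc]
      rw [hσt, map_mul] at h6'
      have : v c * v (σ (y / c) - y / c) < v c * 1 :=
        mul_lt_mul_of_pos_left hdt (zero_lt_iff.mpr hvc)
      rw [mul_one, h6'] at this
      exact lt_irrefl _ this
  · -- chord through `σ P` and `-P`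
    obtain ⟨xp, yp, xm, ym, hp', hm, -, hsub, -, -, -, hxm⟩ := add_sub_some hQ hP hxx
    have hneg : W.negY x y = -y := by simp [negY, h1, h3]
    rw [hneg, h1] at hxm
    have hden0 : σ (x / c) - x / c ≠ 0 := by
      intro h; rw [h, mul_zero] at hσu; exact hxx (sub_eq_zero.mp hσu)
    have hℓ : 1 < v ((σ y - -y) / (σ x - x)) := by
      have hnum : σ y - -y = c * (2 * (y / c) + (σ (y / c) - y / c)) := by
        rw [map_div₀, hσc]; field_simp; ring
      have hvn : v (2 * (y / c) + (σ (y / c) - y / c)) = 1 := by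
        have : v (2 * (y / c)) = 1 := by rw [map_mul, hv2, one_mul, ht]
        rw [← this]
        exact Valuation.map_add_eq_of_lt_left v (by rw [this]; exact hdt)
      rw [hnum, hσu, mul_div_mul_left _ _ hc0, map_div₀, hvn]
      exact (one_lt_div₀ (zero_lt_iff.mpr ((Valuation.ne_zero_iff v).mpr hden0))).mpr hdu
    have hxm' : xm = ((σ y - -y) / (σ x - x)) ^ 2 - (W.a₂ + σ x + x) := by
      rw [hxm]; ring
    have hle : v (W.a₂ + σ x + x) ≤ 1 := by
      refine (Valuation.map_add v _ _).trans (max_le ?_ hx1.le)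
      refine (Valuation.map_add v _ _).trans (max_le ha.le ?_)
      rw [hs1]; exact hx1.le
    have hxm1 : 1 < v xm := by rw [hxm']; exact one_lt_sq_sub v hℓ hle
    have hE : Good.InE1 v (Point.some (σ x) (σ y) hQ - Point.some x y hP) := by
      rw [hsub, Good.inE1_some]; exact hxm1
    have := htf _ hE (by rw [smul_sub, hnP, hnQ, sub_zero])
    exact sub_eq_zero.mp this

end fixed

section main

variable [DecidableEq K] {W : Affine K}

lemma ma_nsmul_ne_zero {p : ℕ} (hp : p.Prime) {P : W.Point} (hP0 : P ≠ 0) (hP : p • P = 0)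
    {k : ℕ} (hk1 : 1 ≤ k) (hk : k ≤ p - 1) : k • P ≠ 0 := by
  have := Fact.mk hp
  have hord := addOrderOf_eq_prime hP hP0
  intro h
  rw [← addOrderOf_dvd_iff_nsmul_eq_zero, hord] at h
  have := hp.one_lt
  exact Nat.not_dvd_of_pos_of_lt (by omega) (by omega) h

lemma ma_nsmul_eq_zero_iff {p : ℕ} (hp : p.Prime) {P : W.Point} (hP0 : P ≠ 0) (hP : p • P = 0)
    (k : ℕ) : k • P = 0 ↔ p ∣ k := by
  have := Fact.mk hp
  rw [← addOrderOf_dvd_iff_nsmul_eq_zero, addOrderOf_eq_prime hP hP0]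

/-- The sequence of `x`-coordinates of the multiples of a `p`-torsion point reducing to the node,
chosen with `v x` maximal among its multiples, satisfies the hypotheses of `nv_val`. -/
theorem ma_nvseq (h1 : W.a₁ = 0) (h3 : W.a₃ = 0) (h6 : W.a₆ = 0)
    (hv2 : v 2 = 1) (ha : v W.a₂ = 1) (hb : v W.a₄ < 1) (hb0 : W.a₄ ≠ 0)
    {p : ℕ} (hp : p.Prime) (hp2 : p ≠ 2) {P : W.Point} (hP0 : P ≠ 0) (hP : p • P = 0)
    (hmax : ∀ k, 1 ≤ k → k ≤ p - 1 → v (xc (k • P)) ≤ v (xc P)) (hx1 : v (xc P) < 1) :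
    NVSeq v p W.a₄ W.a₂ (fun k => xc (k • P)) := by
  have hp3 : 3 ≤ p := by
    have := hp.two_le
    omega
  have h4 : v (4 : K) = 1 := by
    have : (4 : K) = 2 * 2 := by norm_num
    rw [this, map_mul, hv2, one_mul]
  have hne0 : ∀ k, 1 ≤ k → k ≤ p - 1 → k • P ≠ 0 := fun k hk1 hk =>
    ma_nsmul_ne_zero hp hP0 hP hk1 hk
  -- duplication at a multiple
  have hdupk : ∀ k, 1 ≤ k → k ≤ p - 1 →
      xc ((2 * k) • P) * (4 * xc (k • P) * (xc (k • P) ^ 2 + W.a₂ * xc (k • P) + W.a₄))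
        = (xc (k • P) ^ 2 - W.a₄) ^ 2 := by
    intro k hk1 hk
    obtain ⟨h, e⟩ := ma_some_of_ne_zero (hne0 k hk1 hk)
    have h2k : (2 * k) • P = k • P + k • P := by rw [two_mul, add_nsmul]
    have h2k0 : (2 * k) • P ≠ 0 := by
      rw [Ne, ma_nsmul_eq_zero_iff hp hP0 hP]
      intro hd
      rcases (Nat.Prime.dvd_mul hp).1 hd with h' | h'
      · exact hp2 ((Nat.prime_dvd_prime_iff_eq hp Nat.prime_two).1 h')
      · exact Nat.not_dvd_of_pos_of_lt (by omega) (by omega) h'
    have hy : yc (k • P) ≠ W.negY (xc (k • P)) (yc (k • P)) := by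
      intro hy
      apply h2k0
      rw [h2k, e]
      exact add_self_some_eq_zero h hy
    obtain ⟨xd, yd, hd, hadd, hform⟩ := add_self_some h hy
    have : xc ((2 * k) • P) = xd := by
      rw [h2k]
      conv_lhs => rw [e]
      rw [hadd]; rfl
    rw [this, ← ma_psi2sq h1 h3 h6, hform, ma_phi2 h1 h3 h6]
  refine ⟨h4, ha, hb, hb0, ?_, ?_, ?_, ?_, ?_, ?_, ?_⟩
  · simpa using hx1
  · intro k hk1 hk
    simpa using hmax k hk1 hk
  · -- symmetry
    show xc ((p - 1) • P) = xc (1 • P)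
    have : (p - 1) • P = -P := by
      apply eq_neg_of_add_eq_zero_left
      rw [← succ_nsmul, Nat.sub_add_cancel hp.one_le, hP]
    rw [this, xc_neg, one_nsmul]
  · -- duplication
    intro k hk1 hk
    refine ⟨(2 * k) % p, ?_, ?_, ?_⟩
    · rw [Nat.one_le_iff_ne_zero, Ne, ← Nat.dvd_iff_mod_eq_zero]
      intro hd
      rcases (Nat.Prime.dvd_mul hp).1 hd with h' | h'
      · exact hp2 ((Nat.prime_dvd_prime_iff_eq hp Nat.prime_two).1 h')
      · exact Nat.not_dvd_of_pos_of_lt (by omega) (by omega) h'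
    · have := Nat.mod_lt (2 * k) hp.pos
      omega
    · show xc (((2 * k) % p) • P) * _ = _
      rw [← nsmul_eq_mod_nsmul (2 * k) hP]
      exact hdupk k hk1 hk
  · show xc (2 • P) * (4 * xc (1 • P) * (xc (1 • P) ^ 2 + W.a₂ * xc (1 • P) + W.a₄))
      = (xc (1 • P) ^ 2 - W.a₄) ^ 2
    have := hdupk 1 le_rfl (by omega)
    simpa using this
  · -- recurrence
    intro m hm
    show xc ((m + 3) • P) * xc ((m + 1) • P) * (xc ((m + 2) • P) - xc (1 • P)) ^ 2
      = (xc ((m + 2) • P) * xc (1 • P) - W.a₄) ^ 2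
    rw [one_nsmul]
    obtain ⟨hR, eR⟩ := ma_some_of_ne_zero (hne0 (m + 2) (by omega) (by omega))
    obtain ⟨hP', eP⟩ := ma_some_of_ne_zero hP0
    have hxne : xc ((m + 2) • P) ≠ xc P := by
      intro hx
      have := (Point.X_eq_iff (h₁ := hR) (h₂ := hP')).1 hx
      rw [← eR, ← eP] at this
      rcases this with h' | h'
      · apply hne0 (m + 1) (by omega) (by omega)
        have : (m + 2) • P = (m + 1) • P + P := succ_nsmul P (m + 1)
        rw [this] at h'
        exact add_eq_right.mp h'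
      · apply hne0 (m + 3) (by omega) (by omega)
        have : (m + 3) • P = (m + 2) • P + P := succ_nsmul P (m + 2)
        rw [this, h', neg_add_cancel]
    obtain ⟨xp, yp, xm, ym, hp', hm', hadd, hsub, hprod, -, -, -⟩ := add_sub_some hR hP' hxne
    have e3 : xc ((m + 3) • P) = xp := by
      have : (m + 3) • P = (m + 2) • P + P := succ_nsmul P (m + 2)
      have hsum : (m + 2) • P + P = Point.some xp yp hp' := by
        rw [← hadd]; congr 1
      rw [this, hsum]; rfl
    have e1 : xc ((m + 1) • P) = xm := by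
      have : (m + 1) • P = (m + 2) • P - P := by
        rw [eq_sub_iff_add_eq]; exact (succ_nsmul P (m + 1)).symm
      have hdiff : (m + 2) • P - P = Point.some xm ym hm' := by
        rw [← hsub]; congr 1
      rw [this, hdiff]; rfl
    rw [e3, e1, hprod, ma_pairProd h1 h3 h6]
  · -- distinct x-coordinates
    intro m hm
    show xc ((m + 2) • P) ≠ xc (1 • P)
    rw [one_nsmul]
    obtain ⟨hR, eR⟩ := ma_some_of_ne_zero (hne0 (m + 2) (by omega) (by omega))
    obtain ⟨hP', eP⟩ := ma_some_of_ne_zero hP0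
    intro hx
    have := (Point.X_eq_iff (h₁ := hR) (h₂ := hP')).1 hx
    rw [← eR, ← eP] at this
    rcases this with h' | h'
    · apply hne0 (m + 1) (by omega) (by omega)
      have : (m + 2) • P = (m + 1) • P + P := succ_nsmul P (m + 1)
      rw [this] at h'
      exact add_eq_right.mp h'
    · apply hne0 (m + 3) (by omega) (by omega)
      have : (m + 3) • P = (m + 2) • P + P := succ_nsmul P (m + 2)
      rw [this, h', neg_add_cancel]

end main

section final

variable [DecidableEq K]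

/-- **Multiplicative case (alternative route).**  `W : Y² = X³ + aX² + bX`, `v a = 1`,
`v b = v h₀ ^ p` with `v h₀ < 1` and `σ h₀ = h₀`; `T` the additive map induced by `σ` on points.
If the kernel of reduction has no `p`-torsion (`htf`), every `p`-torsion point is fixed by `T`. -/
theorem mult_fixed_alt (W : Affine K) (h1 : W.a₁ = 0) (h3 : W.a₃ = 0) (h6 : W.a₆ = 0)
    (hv2 : v 2 = 1) (ha : v W.a₂ = 1)
    (σ : K →+* K) (hs1 : ∀ x, v (σ x) = v x) (hs2 : ∀ x, v x ≤ 1 → v (σ x - x) < 1)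
    (T : W.Point →+ W.Point)
    (hT : ∀ x y (h : W.Nonsingular x y), ∃ h', T (.some x y h) = .some (σ x) (σ y) h')
    (h0 : K) (hh0 : h0 ≠ 0) (hσh : σ h0 = h0) (hh1 : v h0 < 1)
    (p : ℕ) (hp : p.Prime) (hp2 : p ≠ 2) (hb : v W.a₄ = v h0 ^ p)
    (htf : ∀ P : W.Point, Good.InE1 v P → p • P = 0 → P = 0)
    (Q : W.Point) (hQ : p • Q = 0) : T Q = Q := by
  by_cases hQ0 : Q = 0
  · rw [hQ0, map_zero]
  have hp3 : 3 ≤ p := by
    have := hp.two_le
    omega
  have hvh0 : v h0 ≠ 0 := (Valuation.ne_zero_iff v).2 hh0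
  have hb1 : v W.a₄ < 1 := by rw [hb]; exact pow_lt_one₀ zero_le hh1 hp.ne_zero
  have hb0 : W.a₄ ≠ 0 := by
    intro h; rw [h, map_zero] at hb; exact (pow_ne_zero _ hvh0) hb.symm
  -- choose the multiple with maximal `v x`
  obtain ⟨k0, hk0mem, hk0max⟩ := Finset.exists_max_image (Finset.Icc 1 (p - 1))
    (fun k => v (xc (k • Q))) ⟨1, Finset.mem_Icc.2 ⟨le_rfl, by omega⟩⟩
  have hk0 : 1 ≤ k0 ∧ k0 ≤ p - 1 := Finset.mem_Icc.1 hk0mem
  obtain ⟨P, hPdef⟩ : ∃ P, P = k0 • Q := ⟨_, rfl⟩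
  have hP0 : P ≠ 0 := by rw [hPdef]; exact ma_nsmul_ne_zero hp hQ0 hQ hk0.1 hk0.2
  have hP : p • P = 0 := by rw [hPdef, ← mul_nsmul, mul_comm, mul_nsmul, hQ, nsmul_zero]
  have hmax : ∀ k, 1 ≤ k → k ≤ p - 1 → v (xc (k • P)) ≤ v (xc P) := by
    intro k hk1 hk
    have e : k • P = ((k0 * k) % p) • Q := by
      rw [hPdef, ← mul_nsmul]; exact nsmul_eq_mod_nsmul _ hQ
    have hne : k • P ≠ 0 := ma_nsmul_ne_zero hp hP0 hP hk1 hk
    have hmem : (k0 * k) % p ∈ Finset.Icc 1 (p - 1) := by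
      rw [Finset.mem_Icc]
      constructor
      · rw [Nat.one_le_iff_ne_zero]
        intro h0'
        rw [h0', zero_nsmul] at e
        exact hne e
      · have := Nat.mod_lt (k0 * k) hp.pos
        omega
    have h1' := hk0max _ hmem
    rw [e, hPdef]; exact h1'
  -- integrality of `P`
  have hint : v (xc P) ≤ 1 := by
    by_contra hgt
    rw [not_le] at hgt
    obtain ⟨h, e⟩ := ma_some_of_ne_zero hP0
    apply hP0
    apply htf P _ hP
    rw [e, Good.inE1_some]; exact hgt
  -- `T P = P`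
  have hTP : T P = P := by
    obtain ⟨h, e⟩ := ma_some_of_ne_zero hP0
    obtain ⟨h', eT⟩ := hT _ _ h
    have hnP : p • Point.some _ _ h = 0 := by rw [← e]; exact hP
    have hnQ : p • Point.some _ _ h' = 0 := by
      rw [← eT, ← e, ← map_nsmul, hP, map_zero]
    have key : Point.some (σ (xc P)) (σ (yc P)) h' = Point.some (xc P) (yc P) h := by
      rcases lt_or_eq_of_le hint with hlt | heq
      · -- node
        have hseq := ma_nvseq h1 h3 h6 hv2 ha hb1 hb0 hp hp2 hP0 hP hmax hlt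
        have hval := nv_val hp3 hseq
        have hbx := hseq.val_a4_lt (k := 1) le_rfl (by omega)
        simp only [one_nsmul] at hval hbx
        have hxc : v (xc P) = v (h0 ^ 2) := by
          rw [hb, ← pow_mul, mul_comm, pow_mul] at hval
          rw [map_pow]
          exact (pow_left_inj₀ zero_le zero_le hp.ne_zero).1 hval
        exact ma_fixed_of_node W h1 h3 h6 hv2 ha σ hs1 hs2 p htf h h' (h0 ^ 2)
          (pow_ne_zero _ hh0) (by rw [map_pow, hσh]) hxc hlt hbx hnP hnQ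
      · exact ma_fixed_of_unit W h1 h3 h6 hv2 ha σ hs1 hs2 p htf hb1 h h' heq hnP hnQ
    calc T P = T (Point.some (xc P) (yc P) h) := by rw [← e]
      _ = Point.some (σ (xc P)) (σ (yc P)) h' := eT
      _ = Point.some (xc P) (yc P) h := key
      _ = P := e.symm
  -- `Q` is a multiple of `P`
  have hcop : Nat.Coprime k0 p := by
    apply Nat.Coprime.symm
    rw [Nat.Prime.coprime_iff_not_dvd hp]
    exact Nat.not_dvd_of_pos_of_lt (by omega) (by omega)
  obtain ⟨m, -, hm⟩ := Nat.exists_mul_mod_eq_one_of_coprime hcop hp.one_lt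
  have hQP : Q = m • P := by
    rw [hPdef, ← mul_nsmul, nsmul_eq_mod_nsmul (k0 * m) hQ, hm, one_nsmul]
  rw [hQP, map_nsmul, hTP]

end final

end Fermat.Agent.S05.MultAlt
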