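/-
T-S05 (helper15): the multiplicative contract `Assembly.MultShape` from the kernel facts alone,
via `MultAlt.mult_fixed_alt` (x-only valuation recurrence; no component group).
-/
import Fermat.Agent.S05.Glue
import Fermat.Agent.S05.MultAlt

set_option autoImplicit false
open WeierstrassCurve WeierstrassCurve.Affine WeierstrassCurve.Affine.Point
open FreyPackage

namespace Fermat.Agent.S05.MultAltGlue

local notation "Qbar" => AlgebraicClosure ℚ

theorem multShape_of_kernel (hK : Glue.KernelFactsQ) : Assembly.MultShape := by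
  intro A W σ T S ha α _ h0 hh0 hσh hlt p hp hp2 hbh hpv Q hQ
  obtain ⟨a1, a2, a3, a4, a6⟩ := W
  have h1 : a1 = 0 := S.a₁
  have h3 : a3 = 0 := S.a₃
  have h6 : a6 = 0 := S.a₆
  subst h1 h3 h6
  have hbh' : A.valuation a4 = A.valuation h0 ^ p := hbh
  have hb : A.valuation a4 ≤ 1 := by
    rw [hbh']
    exact (pow_lt_one₀ zero_le hlt hp.ne_zero).le
  have ha' : A.valuation a2 = 1 := ha
  obtain ⟨-, -, ktf⟩ := hK A a2 a4 S.two ha'.le hb
  refine MultAlt.mult_fixed_alt (v := A.valuation) (⟨0, a2, 0, a4, 0⟩ : Affine Qbar) rfl rfl rfl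
    S.two ha σ S.s1 S.s2 T S.hT h0 hh0 hσh hlt p hp hp2 hbh ?_ Q hQ
  intro P₁ hP₁ hn
  exact ktf p hp hpv P₁ ((good_inE1_iff A.valuation P₁).mp hP₁) hn

/-- **S05 from the kernel facts and the transport alone.** -/
theorem result_of_alt (P : FreyPackage) {q : ℕ} (hq : q.Prime) (hq2 : q ≠ 2) (hqp : q ≠ P.p)
    (hK : Glue.KernelFactsQ) (hT : Glue.TransportExistsQ) : P.GaloisRepUnramifiedAt q :=
  Assembly.result_of P hq hq2 hqp (Glue.transport0_of P hT) (Glue.transportA_of P hT)
    (Glue.goodShape_of hK) (multShape_of_kernel hK)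

end Fermat.Agent.S05.MultAltGlue
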