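/-
T-S05, piece P6 (helper27): the multiplicative case, final form `mult_fixed` with the exact
signature of the blueprint (helper25 #300), assembled from `mult_fixed_aux` (`Mult.lean`),
the kernel-of-reduction facts (`KernelContract.lean`, helper1) and `comp_torsion`
(`Components.lean`, helper13).
-/
import Fermat.Agent.S05.Mult
import Fermat.Agent.S05.KernelContract
import Fermat.Agent.S05.Components

set_option autoImplicit false

namespace Fermat.Agent.S05

open WeierstrassCurve WeierstrassCurve.Affine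

variable {K : Type*} [Field K] [DecidableEq K] {Γ₀ : Type*} [LinearOrderedCommGroupWithZero Γ₀]
  (v : Valuation K Γ₀) {a b : K}

/-- **Multiplicative case** (P6 of the T-S05 blueprint): on `Y² = X³ + aX² + bX` with `a` a unit,
`0 < v b < 1` and `v b = v h₀ ^ p` for a `σ`-fixed `h₀`, an "inertia-like" endomorphism `σ`
fixes every `p`-torsion point `P` such that `σ P` is again `p`-torsion. -/
theorem mult_fixed (h2 : v 2 = 1) (ha : v a = 1) (hb : v b < 1) (hb0 : b ≠ 0) (α : K)
    (hα : α ^ 2 = a)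
    (σ : K →+* K) (hσv : ∀ x, v (σ x) = v x) (hσr : ∀ x, v x ≤ 1 → v (σ x - x) < 1)
    (_hσa : σ a = a) (hσb : σ b = b) (h₀ : K) (hσh : σ h₀ = h₀)
    {p : ℕ} (hp : p.Prime) (_hp2 : p ≠ 2) (hpv : v (p : K) = 1) (hbh : v b = v h₀ ^ p)
    {x y : K} (h : (Wab a b).toAffine.Nonsingular x y)
    (h' : (Wab a b).toAffine.Nonsingular (σ x) (σ y))
    (ht : p • Point.some x y h = 0) (ht' : p • Point.some _ _ h' = 0) :
    σ x = x ∧ σ y = y := by
  have hale : v a ≤ 1 := le_of_eq ha
  have hble : v b ≤ 1 := le_of_lt hb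
  have hαv : v α = 1 := Mult.val_eq_one_of_sq (by rw [hα]; exact ha)
  refine mult_fixed_aux v h2 ha hb hb0 σ hσv hσr hσb h₀ hσh hp.ne_zero hbh ?_ ?_ ?_ h h' ht ht'
  · intro P Q hP hQ
    rw [sub_eq_add_neg]
    exact KernelContract.inE1_add v hale hble P (-Q) hP (KernelContract.inE1_neg v Q hQ)
  · intro P hP hpP
    exact KernelContract.inE1_torsion_free v hale hble hpv P hP hpP
  · intro x s hxs hx1 hxb hn
    exact comp_torsion v h2 hb hb0 α hα hαv hxs hx1 hxb hn

end Fermat.Agent.S05
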