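import Mathlib

/-!
# S05, multiplicative case: the pure valuation recurrence

`nv_core`: an abstract statement about a finite sequence `c 1, …, c (p-1)` in a linearly ordered
abelian group satisfying the "x-only" valuation recurrence of the multiples of a `p`-torsion
point reducing to a node.  Conclusion: `p • i = 2 • β`.
-/

namespace Fermat.Agent.S05

section core

variable {G : Type*} [AddCommGroup G] [LinearOrder G] [IsOrderedAddMonoid G]

/-- Hypotheses of the valuation recurrence (additive valuations).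
`c k = w (x (k P))`, `i = c 1`, `β = w a₄`, `N k = w (x_k x_1 - a₄)`, `D k = w (x_k - x_1)`. -/
structure NVData (p : ℕ) (i β : G) (c N D : ℕ → G) : Prop where
  hi : 0 < i
  hc1 : c 1 = i
  hlow : ∀ k, 1 ≤ k → k ≤ p - 1 → i ≤ c k
  hhigh : ∀ k, 1 ≤ k → k ≤ p - 1 → c k < β
  hsymm : c (p - 1) = i
  hdup : c 2 + (2 : ℤ) • i = (2 : ℤ) • N 1
  hrec : ∀ m, m + 2 ≤ p - 2 → c (m + 3) + c (m + 1) + (2 : ℤ) • D (m + 2) = (2 : ℤ) • N (m + 2)
  hN : ∀ k, 1 ≤ k → k ≤ p - 2 →
    (c k + i < β → N k = c k + i) ∧ (c k + i = β → β ≤ N k) ∧ (β < c k + i → N k = β)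
  hD : ∀ k, 2 ≤ k → k ≤ p - 2 → (i < c k → D k = i) ∧ (c k = i → i ≤ D k)

/-- The invariant of the two-phase induction. -/
def NVInv (i β : G) (c : ℕ → G) (k : ℕ) : Prop :=
  (∀ j, 1 ≤ j → j ≤ k → c j = (j : ℤ) • i) ∨
    ∃ f, 1 ≤ f ∧ f < k ∧ (∀ j, 1 ≤ j → j ≤ f → c j = (j : ℤ) • i) ∧
      ∀ j, f < j → j ≤ k → c j + (j : ℤ) • i = (2 : ℤ) • β

lemma nv_two_smul_le {a b : G} (h : a ≤ b) : (2 : ℤ) • a ≤ (2 : ℤ) • b := by
  have : (2 : ℤ) • b - (2 : ℤ) • a = (b - a) + (b - a) := by module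
  rw [← sub_nonneg, this]
  exact add_nonneg (sub_nonneg.2 h) (sub_nonneg.2 h)

lemma nv_inv_step {p : ℕ} {i β : G} {c N D : ℕ → G} (h : NVData p i β c N D)
    (k : ℕ) (hk1 : 1 ≤ k) (hkp : k + 1 ≤ p - 1) (hinv : NVInv i β c k) :
    NVInv i β c (k + 1) := by
  have hi := h.hi
  rcases Nat.eq_or_lt_of_le hk1 with rfl | hk2
  · -- k = 1: duplication
    have hdup := h.hdup
    obtain ⟨hN1, hN2, hN3⟩ := h.hN 1 le_rfl (by omega)
    rw [h.hc1] at hN1 hN2 hN3
    rcases lt_trichotomy (i + i) β with hlt | heq | hgt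
    · left
      intro j hj1 hj2
      have hj : j = 1 ∨ j = 2 := by omega
      rcases hj with rfl | rfl
      · rw [h.hc1]; simp
      · have hN := hN1 hlt
        rw [hN] at hdup
        have : c 2 = (c 2 + (2 : ℤ) • i) - (2 : ℤ) • i := by abel
        rw [this, hdup]; push_cast; module
    · exfalso
      have hN := hN2 heq
      have h2 : c 2 < β := h.hhigh 2 (by omega) (by omega)
      have h3 : (2 : ℤ) • β ≤ (2 : ℤ) • N 1 := nv_two_smul_le hN
      rw [← hdup] at h3
      have h4 : (2 : ℤ) • β = β + (2 : ℤ) • i := by rw [← heq]; module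
      rw [h4] at h3
      exact absurd (le_of_add_le_add_right h3) (not_le.2 h2)
    · right
      refine ⟨1, le_rfl, by omega, ?_, ?_⟩
      · intro j hj1 hj2
        have : j = 1 := by omega
        subst this; rw [h.hc1]; simp
      · intro j hj1 hj2
        have : j = 2 := by omega
        subst this
        rw [hN3 hgt] at hdup
        push_cast; exact hdup
  · -- k ≥ 2: recurrence
    obtain ⟨m, rfl⟩ : ∃ m, k = m + 2 := ⟨k - 2, by omega⟩
    have hrec := h.hrec m (by omega)
    obtain ⟨hN1, hN2, hN3⟩ := h.hN (m + 2) (by omega) (by omega)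
    obtain ⟨hD1, hD2⟩ := h.hD (m + 2) (by omega) (by omega)
    have hlow3 : i ≤ c (m + 3) := h.hlow (m + 3) (by omega) (by omega)
    have hhigh3 : c (m + 3) < β := h.hhigh (m + 3) (by omega) (by omega)
    have hm0 : (0 : G) ≤ (m : ℤ) • i := zsmul_nonneg hi.le (by positivity)
    rcases hinv with hph1 | ⟨f, hf1, hfk, hph1, hph2⟩
    · -- phase 1
      have hck : c (m + 2) = ((m + 2 : ℕ) : ℤ) • i := hph1 (m + 2) (by omega) le_rfl
      have hck1 : c (m + 1) = ((m + 1 : ℕ) : ℤ) • i := hph1 (m + 1) (by omega) (by omega)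
      push_cast at hck hck1
      have hgt : i < c (m + 2) := by
        rw [hck]
        have : ((m : ℤ) + 2) • i = i + ((m : ℤ) • i + i) := by module
        rw [this]
        exact lt_add_of_pos_right _ (add_pos_of_nonneg_of_pos hm0 hi)
      have hD := hD1 hgt
      rw [hD, hck1] at hrec
      have hsum : c (m + 2) + i = ((m : ℤ) + 3) • i := by rw [hck]; module
      rw [hsum] at hN1 hN2 hN3
      rcases lt_trichotomy (((m : ℤ) + 3) • i) β with hlt | heq | hgt'
      · left
        intro j hj1 hj2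
        rcases Nat.eq_or_lt_of_le hj2 with rfl | hj3
        · rw [hN1 hlt] at hrec
          have : c (m + 2 + 1) = (c (m + 3) + ((m : ℤ) + 1) • i + (2 : ℤ) • i)
              - ((m : ℤ) + 1) • i - (2 : ℤ) • i := by
            show c (m + 3) = _
            abel
          rw [this, hrec]; push_cast; module
        · exact hph1 j hj1 (by omega)
      · exfalso
        have h3 : (2 : ℤ) • β ≤ (2 : ℤ) • N (m + 2) := nv_two_smul_le (hN2 heq)
        rw [← hrec] at h3
        have h4 : (2 : ℤ) • β = β + (((m : ℤ) + 1) • i + (2 : ℤ) • i) := by rw [← heq]; module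
        rw [h4, add_assoc] at h3
        exact absurd (le_of_add_le_add_right h3) (not_le.2 hhigh3)
      · right
        refine ⟨m + 2, by omega, by omega, fun j hj1 hj2 => hph1 j hj1 hj2, ?_⟩
        intro j hj1 hj2
        have : j = m + 3 := by omega
        subst this
        rw [hN3 hgt'] at hrec
        rw [← hrec]; push_cast; module
    · -- phase 2
      have hck : c (m + 2) + ((m + 2 : ℕ) : ℤ) • i = (2 : ℤ) • β := hph2 (m + 2) (by omega) le_rfl
      push_cast at hck
      have hlowk : i ≤ c (m + 2) := h.hlow (m + 2) (by omega) (by omega)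
      -- common end of both subcases: from `c (m+3) + c (m+1) + 2 D = 2 N`
      rcases Nat.eq_or_lt_of_le (Nat.lt_succ_iff.1 (by omega : f < m + 2 + 1 - 0)) with hfe | hfl
      · -- impossible: f = m + 2 contradicts f < m + 2
        omega
      · rcases Nat.eq_or_lt_of_le (Nat.lt_succ_iff.1 (by omega : f < m + 1 + 1)) with hfe | hfl'
        · -- f = m + 1
          subst hfe
          have hcf : c (m + 1) = ((m + 1 : ℕ) : ℤ) • i := hph1 (m + 1) (by omega) le_rfl
          push_cast at hcf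
          have hcfβ : c (m + 1) < β := h.hhigh (m + 1) (by omega) (by omega)
          have hgtβ : β < c (m + 2) + i := by
            have e : c (m + 2) + i = (2 : ℤ) • β - c (m + 1) := by
              rw [← hck, hcf]; module
            rw [e]
            have : β = (2 : ℤ) • β - β := by module
            conv_lhs => rw [this]
            exact sub_lt_sub_left hcfβ _
          rw [hN3 hgtβ, hcf] at hrec
          rcases lt_or_eq_of_le hlowk with hlt | heq
          · right
            refine ⟨m + 1, hf1, by omega, hph1, ?_⟩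
            intro j hj1 hj2
            rcases Nat.eq_or_lt_of_le hj2 with rfl | hj3
            · rw [hD1 hlt] at hrec
              rw [← hrec]; push_cast; module
            · exact hph2 j hj1 (by omega)
          · exfalso
            have hD := hD2 heq.symm
            -- c (m+3) = 2β - 2D - (m+1) i ≤ 2β - 2i - (m+1) i = c (m+2) - i = 0
            have e1 : c (m + 3) = (2 : ℤ) • β - (2 : ℤ) • D (m + 2) - ((m : ℤ) + 1) • i := by
              rw [← hrec]; abel
            have e2 : (2 : ℤ) • β = i + ((m : ℤ) + 2) • i := by rw [← hck, ← heq]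
            have h5 : c (m + 3) ≤ 0 := by
              rw [e1, e2]
              have : i + ((m : ℤ) + 2) • i - (2 : ℤ) • D (m + 2) - ((m : ℤ) + 1) • i
                  = (2 : ℤ) • i - (2 : ℤ) • D (m + 2) := by module
              rw [this, sub_nonpos]
              exact nv_two_smul_le hD
            exact absurd (lt_of_lt_of_le hi hlow3) (not_lt.2 h5)
        · -- f < m + 1
          have hck1 : c (m + 1) + ((m + 1 : ℕ) : ℤ) • i = (2 : ℤ) • β :=
            hph2 (m + 1) (by omega) (by omega)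
          push_cast at hck1
          have hc1β : c (m + 1) < β := h.hhigh (m + 1) (by omega) (by omega)
          have e : c (m + 1) = c (m + 2) + i := by
            have : c (m + 1) = (c (m + 1) + ((m : ℤ) + 1) • i) - ((m : ℤ) + 1) • i := by abel
            rw [this, hck1, ← hck]; module
          have hltβ : c (m + 2) + i < β := by rw [← e]; exact hc1β
          rw [hN1 hltβ, e] at hrec
          rcases lt_or_eq_of_le hlowk with hlt | heq
          · right
            refine ⟨f, hf1, by omega, hph1, ?_⟩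
            intro j hj1 hj2
            rcases Nat.eq_or_lt_of_le hj2 with rfl | hj3
            · rw [hD1 hlt] at hrec
              have : c (m + 2 + 1) = c (m + 2) - i := by
                show c (m + 3) = _
                have : c (m + 3) = (c (m + 3) + (c (m + 2) + i) + (2 : ℤ) • i)
                    - (c (m + 2) + i) - (2 : ℤ) • i := by abel
                rw [this, hrec]; module
              rw [this, ← hck]; push_cast; module
            · exact hph2 j hj1 (by omega)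
          · exfalso
            have hD := hD2 heq.symm
            have e1 : c (m + 3) = c (m + 2) + i - (2 : ℤ) • D (m + 2) := by
              have : c (m + 3) = (c (m + 3) + (c (m + 2) + i) + (2 : ℤ) • D (m + 2))
                  - (c (m + 2) + i) - (2 : ℤ) • D (m + 2) := by abel
              rw [this, hrec]; module
            have h5 : c (m + 3) ≤ 0 := by
              rw [e1, ← heq]
              have : i + i - (2 : ℤ) • D (m + 2) = (2 : ℤ) • i - (2 : ℤ) • D (m + 2) := by module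
              rw [this, sub_nonpos]
              exact nv_two_smul_le hD
            exact absurd (lt_of_lt_of_le hi hlow3) (not_lt.2 h5)

theorem nv_core {p : ℕ} (hp : 3 ≤ p) {i β : G} {c N D : ℕ → G} (h : NVData p i β c N D) :
    (p : ℤ) • i = (2 : ℤ) • β := by
  have hall : ∀ k, 1 ≤ k → k ≤ p - 1 → NVInv i β c k := by
    intro k hk1
    induction k, hk1 using Nat.le_induction with
    | base =>
      intro _
      left
      intro j hj1 hj2
      have : j = 1 := by omega
      subst this; rw [h.hc1]; simp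
    | succ k hk1 ih =>
      intro hk
      exact nv_inv_step h k hk1 hk (ih (by omega))
  have hi := h.hi
  rcases hall (p - 1) (by omega) le_rfl with hph1 | ⟨f, hf1, hfk, hph1, hph2⟩
  · exfalso
    have h1 := hph1 (p - 1) (by omega) le_rfl
    rw [h.hsymm] at h1
    have hcast : ((p - 1 : ℕ) : ℤ) = (p : ℤ) - 1 := by
      rw [Nat.cast_sub (by omega)]; simp
    rw [hcast] at h1
    have h2 : ((p : ℤ) - 2) • i = 0 := by
      have : ((p : ℤ) - 2) • i = ((p : ℤ) - 1) • i - i := by module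
      rw [this, ← h1, sub_self]
    have h3 : 0 < ((p : ℤ) - 2) • i := zsmul_pos hi (by omega)
    exact absurd h2 h3.ne'
  · have h1 := hph2 (p - 1) hfk le_rfl
    rw [h.hsymm] at h1
    have hcast : ((p - 1 : ℕ) : ℤ) = (p : ℤ) - 1 := by
      rw [Nat.cast_sub (by omega)]; simp
    rw [hcast] at h1
    rw [← h1]; module

end core

section dep

variable {K : Type*} [Field K] {Γ₀ : Type*} [LinearOrderedCommGroupWithZero Γ₀] (v : Valuation K Γ₀)

open Classical in
/-- additive "depth" `w(x) = -log v(x)` with values in `Additive Γ₀ˣ` (junk value `0` at `x = 0`). -/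
noncomputable def nv_dep (x : K) : Additive Γ₀ˣ :=
  if h : x = 0 then 0 else Additive.ofMul (Units.mk0 (v x) (v.ne_zero_iff.2 h))⁻¹

lemma nv_dep_def {x : K} (h : x ≠ 0) :
    nv_dep v x = Additive.ofMul (Units.mk0 (v x) (v.ne_zero_iff.2 h))⁻¹ := by
  rw [nv_dep, dif_neg h]

lemma nv_dep_mul {x y : K} (hx : x ≠ 0) (hy : y ≠ 0) :
    nv_dep v (x * y) = nv_dep v x + nv_dep v y := by
  rw [nv_dep_def v hx, nv_dep_def v hy, nv_dep_def v (mul_ne_zero hx hy), ← ofMul_mul, ← mul_inv]
  congr 2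
  ext
  simp

lemma nv_dep_pow {x : K} (hx : x ≠ 0) (n : ℕ) :
    nv_dep v (x ^ n) = (n : ℤ) • nv_dep v x := by
  induction n with
  | zero =>
    simp only [pow_zero, Nat.cast_zero, zero_smul]
    rw [nv_dep_def v one_ne_zero]
    have : Units.mk0 (v (1 : K)) (v.ne_zero_iff.2 one_ne_zero) = 1 := by ext; simp
    rw [this]; simp
  | succ n ih =>
    rw [pow_succ, nv_dep_mul v (pow_ne_zero n hx) hx, ih]; push_cast; module

lemma nv_dep_le_iff {x y : K} (hx : x ≠ 0) (hy : y ≠ 0) :
    nv_dep v x ≤ nv_dep v y ↔ v y ≤ v x := by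
  rw [nv_dep_def v hx, nv_dep_def v hy, Additive.ofMul_le, inv_le_inv_iff, ← Units.val_le_val]
  simp

lemma nv_dep_lt_iff {x y : K} (hx : x ≠ 0) (hy : y ≠ 0) :
    nv_dep v x < nv_dep v y ↔ v y < v x := by
  rw [lt_iff_not_ge, lt_iff_not_ge, nv_dep_le_iff v hy hx]

lemma nv_dep_eq_iff {x y : K} (hx : x ≠ 0) (hy : y ≠ 0) :
    nv_dep v x = nv_dep v y ↔ v x = v y := by
  rw [le_antisymm_iff, nv_dep_le_iff v hx hy, nv_dep_le_iff v hy hx, le_antisymm_iff, and_comm]

lemma nv_dep_pos_iff {x : K} (hx : x ≠ 0) : 0 < nv_dep v x ↔ v x < 1 := by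
  have h1 : nv_dep v (1 : K) = 0 := by
    have := nv_dep_pow v hx 0
    simpa using this
  rw [← h1, nv_dep_lt_iff v one_ne_zero hx, map_one]

lemma nv_dep_eq_zero_of {x : K} (hx : v x = 1) : nv_dep v x = 0 := by
  have hx0 : x ≠ 0 := by
    rintro rfl; simp at hx
  have h1 : nv_dep v (1 : K) = 0 := by
    have := nv_dep_pow v hx0 0
    simpa using this
  rw [← h1, nv_dep_eq_iff v hx0 one_ne_zero, hx, map_one]

lemma nv_dep_sub_of_lt {x y : K} (hx : x ≠ 0) (hy : y ≠ 0) (h : nv_dep v x < nv_dep v y) :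
    x - y ≠ 0 ∧ nv_dep v (x - y) = nv_dep v x := by
  rw [nv_dep_lt_iff v hx hy] at h
  have h1 : v (x - y) = v x := Valuation.map_sub_eq_of_lt_left v h
  have h0 : x - y ≠ 0 := by
    intro h0
    rw [h0, map_zero] at h1
    exact (v.ne_zero_iff.2 hx) h1.symm
  exact ⟨h0, (nv_dep_eq_iff v h0 hx).2 h1⟩

lemma nv_dep_sub_of_gt {x y : K} (hx : x ≠ 0) (hy : y ≠ 0) (h : nv_dep v y < nv_dep v x) :
    x - y ≠ 0 ∧ nv_dep v (x - y) = nv_dep v y := by
  obtain ⟨h0, h1⟩ := nv_dep_sub_of_lt v hy hx h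
  refine ⟨fun h' => h0 (by rw [← neg_sub, h', neg_zero]), ?_⟩
  rw [← h1, nv_dep_eq_iff v (fun h' => h0 (by rw [← neg_sub, h', neg_zero])) h0,
    Valuation.map_sub_swap]

lemma nv_min_le_dep_sub {x y : K} (hx : x ≠ 0) (hy : y ≠ 0) (hxy : x - y ≠ 0) :
    min (nv_dep v x) (nv_dep v y) ≤ nv_dep v (x - y) := by
  rcases le_total (nv_dep v x) (nv_dep v y) with h | h
  · rw [min_eq_left h, nv_dep_le_iff v hx hxy]
    refine (Valuation.map_sub v x y).trans ?_
    rw [max_le_iff]
    exact ⟨le_rfl, (nv_dep_le_iff v hx hy).1 h⟩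
  · rw [min_eq_right h, nv_dep_le_iff v hy hxy]
    refine (Valuation.map_sub v x y).trans ?_
    rw [max_le_iff]
    exact ⟨(nv_dep_le_iff v hy hx).1 h, le_rfl⟩

end dep

section val

variable {K : Type*} [Field K] {Γ₀ : Type*} [LinearOrderedCommGroupWithZero Γ₀]

/-- The x-coordinates `x k = x (k • P')`, `1 ≤ k ≤ p - 1`, of the multiples of a point of order `p`
reducing to the node `(0,0)` of `y² + a₁xy = x³ + a₂x² + a₄x`; `c2 = b₂/4`. -/
structure NVSeq (v : Valuation K Γ₀) (p : ℕ) (a4 c2 : K) (x : ℕ → K) : Prop where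
  h4 : v 4 = 1
  hc2 : v c2 = 1
  ha4 : v a4 < 1
  ha40 : a4 ≠ 0
  hx1 : v (x 1) < 1
  hmin : ∀ k, 1 ≤ k → k ≤ p - 1 → v (x k) ≤ v (x 1)
  hsymm : x (p - 1) = x 1
  hdup : ∀ k, 1 ≤ k → k ≤ p - 1 → ∃ k', 1 ≤ k' ∧ k' ≤ p - 1 ∧
    x k' * (4 * x k * (x k ^ 2 + c2 * x k + a4)) = (x k ^ 2 - a4) ^ 2
  hdup1 : x 2 * (4 * x 1 * (x 1 ^ 2 + c2 * x 1 + a4)) = (x 1 ^ 2 - a4) ^ 2
  hrec : ∀ m, m + 2 ≤ p - 2 →
    x (m + 3) * x (m + 1) * (x (m + 2) - x 1) ^ 2 = (x (m + 2) * x 1 - a4) ^ 2
  hne : ∀ m, m + 2 ≤ p - 2 → x (m + 2) ≠ x 1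

variable {v : Valuation K Γ₀} {p : ℕ} {a4 c2 : K} {x : ℕ → K}

lemma NVSeq.x_ne_zero (h : NVSeq v p a4 c2 x) {k : ℕ} (hk1 : 1 ≤ k) (hk : k ≤ p - 1) : x k ≠ 0 := by
  intro h0
  obtain ⟨k', _, _, hd⟩ := h.hdup k hk1 hk
  rw [h0] at hd
  have : a4 ^ 2 = 0 := by
    have e : (0 : K) ^ 2 - a4 = -a4 := by ring
    rw [e] at hd
    rw [← neg_sq, ← hd]; ring
  exact h.ha40 ((pow_eq_zero_iff (two_ne_zero)).1 this)

lemma NVSeq.val_lt_one (h : NVSeq v p a4 c2 x) {k : ℕ} (hk1 : 1 ≤ k) (hk : k ≤ p - 1) :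
    v (x k) < 1 := lt_of_le_of_lt (h.hmin k hk1 hk) h.hx1

lemma NVSeq.val_a4_lt (h : NVSeq v p a4 c2 x) {k : ℕ} (hk1 : 1 ≤ k) (hk : k ≤ p - 1) :
    v a4 < v (x k) := by
  by_contra hcon
  rw [not_lt] at hcon
  obtain ⟨k', hk'1, hk', hd⟩ := h.hdup k hk1 hk
  have hxk := h.x_ne_zero hk1 hk
  have hvk : v (x k) ≠ 0 := v.ne_zero_iff.2 hxk
  have hlt1 := h.val_lt_one hk1 hk
  have ha4 : v a4 ≠ 0 := v.ne_zero_iff.2 h.ha40
  -- v (x k ^ 2 - a4) = v a4
  have h1 : v (x k ^ 2) < v a4 := by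
    rw [map_pow, sq]
    calc v (x k) * v (x k) < 1 * v (x k) := by
          exact mul_lt_mul_of_pos_right hlt1 (zero_lt_iff.2 hvk)
      _ = v (x k) := one_mul _
      _ ≤ v a4 := hcon
  have h2 : v (x k ^ 2 - a4) = v a4 := by
    rw [Valuation.map_sub_swap]; exact Valuation.map_sub_eq_of_lt_left v h1
  -- v (x k ^ 2 + c2 * x k + a4) ≤ v a4
  have h3 : v (x k ^ 2 + c2 * x k + a4) ≤ v a4 := by
    refine (Valuation.map_add v _ _).trans (max_le ?_ le_rfl)
    refine (Valuation.map_add v _ _).trans (max_le h1.le ?_)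
    rw [map_mul, h.hc2, one_mul]; exact hcon
  have h5 := congrArg v hd
  rw [map_pow, h2, map_mul, map_mul, map_mul, h.h4, one_mul] at h5
  have h6 : v a4 ^ 2 ≤ v (x k') * (v a4 * v a4) := by
    rw [← h5]
    gcongr
  have h7 : v (x k') < 1 := h.val_lt_one hk'1 hk'
  have h8 : v (x k') * (v a4 * v a4) < 1 * (v a4 * v a4) :=
    mul_lt_mul_of_pos_right h7 (zero_lt_iff.2 (mul_ne_zero ha4 ha4))
  rw [one_mul] at h8
  rw [sq] at h6
  exact absurd h6 (not_le.2 h8)

lemma NVSeq.val_quad (h : NVSeq v p a4 c2 x) {k : ℕ} (hk1 : 1 ≤ k) (hk : k ≤ p - 1) :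
    v (x k ^ 2 + c2 * x k + a4) = v (x k) := by
  have hxk := h.x_ne_zero hk1 hk
  have hvk : v (x k) ≠ 0 := v.ne_zero_iff.2 hxk
  have hlt1 := h.val_lt_one hk1 hk
  have h1 : v (x k ^ 2) < v (c2 * x k) := by
    rw [map_pow, sq, map_mul, h.hc2]
    exact mul_lt_mul_of_pos_right hlt1 (zero_lt_iff.2 hvk)
  have h2 : v (x k ^ 2 + c2 * x k) = v (c2 * x k) := by
    rw [add_comm]; exact Valuation.map_add_eq_of_lt_left v h1
  have h3 : v a4 < v (x k ^ 2 + c2 * x k) := by
    rw [h2, map_mul, h.hc2, one_mul]; exact h.val_a4_lt hk1 hk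
  rw [Valuation.map_add_eq_of_lt_left v h3, h2, map_mul, h.hc2, one_mul]

theorem nv_val (hp : 3 ≤ p) (h : NVSeq v p a4 c2 x) : v (x 1) ^ p = v a4 ^ 2 := by
  have hx : ∀ k, 1 ≤ k → k ≤ p - 1 → x k ≠ 0 := fun k hk1 hk => h.x_ne_zero hk1 hk
  have hx1 : x 1 ≠ 0 := hx 1 le_rfl (by omega)
  have ha40 := h.ha40
  have h40 : (4 : K) ≠ 0 := by
    intro h0; have := h.h4; rw [h0, map_zero] at this; exact zero_ne_one this
  -- nonvanishing of `x k * x 1 - a4`
  have hN0 : ∀ k, 1 ≤ k → k ≤ p - 2 → x k * x 1 - a4 ≠ 0 := by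
    intro k hk1 hk h0
    rcases Nat.eq_or_lt_of_le hk1 with rfl | hk2
    · have hd := h.hdup1
      have e : x 1 ^ 2 - a4 = x 1 * x 1 - a4 := by ring
      rw [e, h0] at hd
      have hq : x 1 ^ 2 + c2 * x 1 + a4 ≠ 0 := by
        intro hq
        have := h.val_quad (k := 1) le_rfl (by omega)
        rw [hq, map_zero] at this
        exact (v.ne_zero_iff.2 hx1) this.symm
      have : x 2 * (4 * x 1 * (x 1 ^ 2 + c2 * x 1 + a4)) ≠ 0 :=
        mul_ne_zero (hx 2 (by omega) (by omega)) (mul_ne_zero (mul_ne_zero h40 hx1) hq)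
      exact this (by rw [hd]; ring)
    · obtain ⟨m, rfl⟩ : ∃ m, k = m + 2 := ⟨k - 2, by omega⟩
      have hr := h.hrec m hk
      rw [h0] at hr
      have : x (m + 3) * x (m + 1) * (x (m + 2) - x 1) ^ 2 ≠ 0 :=
        mul_ne_zero (mul_ne_zero (hx _ (by omega) (by omega)) (hx _ (by omega) (by omega)))
          (pow_ne_zero _ (sub_ne_zero.2 (h.hne m hk)))
      exact this (by rw [hr]; ring)
  have hdata : NVData p (nv_dep v (x 1)) (nv_dep v a4) (fun k => nv_dep v (x k))
      (fun k => nv_dep v (x k * x 1 - a4)) (fun k => nv_dep v (x k - x 1)) := by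
    refine ⟨?_, rfl, ?_, ?_, ?_, ?_, ?_, ?_, ?_⟩
    · exact (nv_dep_pos_iff v hx1).2 h.hx1
    · intro k hk1 hk
      exact (nv_dep_le_iff v hx1 (hx k hk1 hk)).2 (h.hmin k hk1 hk)
    · intro k hk1 hk
      exact (nv_dep_lt_iff v (hx k hk1 hk) ha40).2 (h.val_a4_lt hk1 hk)
    · show nv_dep v (x (p - 1)) = _
      rw [h.hsymm]
    · -- duplication
      show nv_dep v (x 2) + (2 : ℤ) • nv_dep v (x 1) = (2 : ℤ) • nv_dep v (x 1 * x 1 - a4)
      have hd := h.hdup1
      have hq : x 1 ^ 2 + c2 * x 1 + a4 ≠ 0 := by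
        intro hq
        have := h.val_quad (k := 1) le_rfl (by omega)
        rw [hq, map_zero] at this
        exact (v.ne_zero_iff.2 hx1) this.symm
      have hx2 := hx 2 (by omega) (by omega)
      have e : x 1 ^ 2 - a4 = x 1 * x 1 - a4 := by ring
      have hN := hN0 1 le_rfl (by omega)
      have h1 := congrArg (nv_dep v) hd
      rw [nv_dep_mul v hx2 (mul_ne_zero (mul_ne_zero h40 hx1) hq),
        nv_dep_mul v (mul_ne_zero h40 hx1) hq, nv_dep_mul v h40 hx1,
        nv_dep_eq_zero_of v h.h4, e, nv_dep_pow v hN] at h1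
      have h2 : nv_dep v (x 1 ^ 2 + c2 * x 1 + a4) = nv_dep v (x 1) :=
        (nv_dep_eq_iff v hq hx1).2 (h.val_quad le_rfl (by omega))
      rw [h2] at h1
      push_cast at h1
      rw [← h1]; module
    · -- recurrence
      intro m hm
      show nv_dep v (x (m + 3)) + nv_dep v (x (m + 1)) + (2 : ℤ) • nv_dep v (x (m + 2) - x 1)
        = (2 : ℤ) • nv_dep v (x (m + 2) * x 1 - a4)
      have hr := h.hrec m hm
      have h3 := hx (m + 3) (by omega) (by omega)
      have h1' := hx (m + 1) (by omega) (by omega)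
      have hD := sub_ne_zero.2 (h.hne m hm)
      have hN := hN0 (m + 2) (by omega) hm
      have h1 := congrArg (nv_dep v) hr
      rw [nv_dep_mul v (mul_ne_zero h3 h1') (pow_ne_zero _ hD), nv_dep_mul v h3 h1',
        nv_dep_pow v hD, nv_dep_pow v hN] at h1
      push_cast at h1
      exact h1
    · -- N
      intro k hk1 hk
      have hxk := hx k hk1 (by omega)
      have hprod : x k * x 1 ≠ 0 := mul_ne_zero hxk hx1
      have hN := hN0 k hk1 hk
      show (nv_dep v (x k) + nv_dep v (x 1) < nv_dep v a4 →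
          nv_dep v (x k * x 1 - a4) = nv_dep v (x k) + nv_dep v (x 1)) ∧
        (nv_dep v (x k) + nv_dep v (x 1) = nv_dep v a4 → nv_dep v a4 ≤ nv_dep v (x k * x 1 - a4)) ∧
        (nv_dep v a4 < nv_dep v (x k) + nv_dep v (x 1) → nv_dep v (x k * x 1 - a4) = nv_dep v a4)
      rw [← nv_dep_mul v hxk hx1]
      refine ⟨fun hlt => (nv_dep_sub_of_lt v hprod ha40 hlt).2, fun heq => ?_,
        fun hgt => (nv_dep_sub_of_gt v hprod ha40 hgt).2⟩
      have := nv_min_le_dep_sub v hprod ha40 hN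
      rwa [heq, min_self] at this
    · -- D
      intro k hk2 hk
      obtain ⟨m, rfl⟩ : ∃ m, k = m + 2 := ⟨k - 2, by omega⟩
      have hxk := hx (m + 2) (by omega) (by omega)
      have hD := sub_ne_zero.2 (h.hne m hk)
      show (nv_dep v (x 1) < nv_dep v (x (m + 2)) → nv_dep v (x (m + 2) - x 1) = nv_dep v (x 1)) ∧
        (nv_dep v (x (m + 2)) = nv_dep v (x 1) → nv_dep v (x 1) ≤ nv_dep v (x (m + 2) - x 1))
      refine ⟨fun hlt => (nv_dep_sub_of_gt v hxk hx1 hlt).2, fun heq => ?_⟩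
      have := nv_min_le_dep_sub v hxk hx1 hD
      rwa [heq, min_self] at this
  have hcore := nv_core hp hdata
  have e1 : (p : ℤ) • nv_dep v (x 1) = nv_dep v (x 1 ^ p) := (nv_dep_pow v hx1 p).symm
  have e2 : (2 : ℤ) • nv_dep v a4 = nv_dep v (a4 ^ 2) := by
    rw [nv_dep_pow v ha40 2]; push_cast; rfl
  rw [e1, e2, nv_dep_eq_iff v (pow_ne_zero _ hx1) (pow_ne_zero _ ha40), map_pow, map_pow] at hcore
  exact hcore

end val

end Fermat.Agent.S05
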